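import Fermat.Agent.S34.NodalCommon

/-!
# C84 (S35), piece A0: the interface of the abstract side

* `CompatTw A Red₁ Red₂ Sg Q ψ τ₁ τ₂` : the semilinear automorphism `ψ` of `F/L` acts on the
  special fibre through the semilinear automorphisms `τ₁`, `τ₂` of the two components, which
  raise the constants to the `Q`-th power and fix the branches of the nodes
  (`ψ` = the square of a Frobenius element, `τ_i = frobSL ^ 2`, `Q = q ^ 2`);
* `NodeStable Fc ψ` : `ψ⁻¹` preserves the places over the nodes;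
* `TorStatement S Fc Q ψ` : the contract of A2 (`Tor`): a toric class is killed by `ψ - Q`;
* `red_tw_div` : the reduction of `ψ f / f`.
-/

set_option autoImplicit false
set_option linter.unusedSectionVars false
set_option linter.style.haveILetI false
set_option linter.unusedVariables false

open AlgebraicCurve Fermat.Agent.Lib.FF Fermat.Agent.S18.Deuring

namespace Fermat.Agent.S35

open Fermat.Agent.S34

variable {L k F Fk₁ Fk₂ : Type*} [Field L] [Field k] [Field F] [Field Fk₁] [Field Fk₂]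
  [Algebra L F] [Algebra k Fk₁] [Algebra k Fk₂]
variable {A : ValuationSubring L} {res : A →+* k} {Red₁ : F → Fk₁ → Prop}
  {Red₂ : F → Fk₂ → Prop} {D : Divisor L F} {D₁ : Divisor k Fk₁} {D₂ : Divisor k Fk₂}
  {Sg : Finset (Place k Fk₁ × Place k Fk₂)} {g g₁ g₂ : ℕ} {c c₁ c₂ : ℤ}

/-- `ψ` acts on the special fibre through `τ₁`, `τ₂` -/
structure CompatTw (A : ValuationSubring L) (Red₁ : F → Fk₁ → Prop) (Red₂ : F → Fk₂ → Prop)
    (Sg : Finset (Place k Fk₁ × Place k Fk₂)) (Q : ℕ) (ψ : SemilinearAut L F)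
    (τ₁ : SemilinearAut k Fk₁) (τ₂ : SemilinearAut k Fk₂) : Prop where
  red₁ : ∀ x a, Red₁ x a → Red₁ (ψ • x) (τ₁ • a)
  red₂ : ∀ x a, Red₂ x a → Red₂ (ψ • x) (τ₂ • a)
  /-- the action on the constants preserves the valuation -/
  val : ∀ c : L, c ≠ 0 → SemilinearAut.baseAut ψ c / c ∈ A ∧ c / SemilinearAut.baseAut ψ c ∈ A
  base₁ : ∀ u : k, SemilinearAut.baseAut τ₁ u = u ^ Q
  base₂ : ∀ u : k, SemilinearAut.baseAut τ₂ u = u ^ Q
  /-- the branches of the nodes are fixed -/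
  node₁ : ∀ p ∈ Sg, τ₁ • p.1 = p.1
  node₂ : ∀ p ∈ Sg, τ₂ • p.2 = p.2

/-- `ψ⁻¹` preserves the places over the nodes -/
def NodeStable {S : Setup2 A res Red₁ Red₂ D D₁ D₂ Sg g g₁ g₂ c c₁ c₂} (Fc : Facts S)
    (ψ : SemilinearAut L F) : Prop :=
  ∀ P, ∀ p ∈ Sg, Fc.sp P = Sum.inl p.1 → Fc.sp (ψ⁻¹ • P) = Sum.inl p.1

/-- **the contract of A2 (`Tor`)**: `E` without points over the nodes, `m • E = div f₁`, the
reductions of `f₁` are `e_i σ_i ^ m` with `σ_i` units at the nodes ⇒ `ψ E - Q E` is principal -/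
def TorStatement (S : Setup2 A res Red₁ Red₂ D D₁ D₂ Sg g g₁ g₂ c c₁ c₂) (Fc : Facts S)
    (Q : ℕ) (ψ : SemilinearAut L F) : Prop :=
  ∀ (m : ℕ), (m : k) ≠ 0 → ∀ (E : Divisor L F) (f₁ : F) (e₁ e₂ : k) (σ₁ : Fk₁) (σ₂ : Fk₂),
    e₁ ≠ 0 → e₂ ≠ 0 → σ₁ ≠ 0 → σ₂ ≠ 0 → f₁ ≠ 0 →
    (∀ P, ∀ p ∈ Sg, Fc.sp P = Sum.inl p.1 → E P = 0) →
    (∀ P, (m : ℤ) * E P = P.ord f₁) →
    Red₁ f₁ (algebraMap k Fk₁ e₁ * σ₁ ^ m) → Red₂ f₁ (algebraMap k Fk₂ e₂ * σ₂ ^ m) →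
    (∀ p ∈ Sg, p.1.ord σ₁ = 0) → (∀ p ∈ Sg, p.2.ord σ₂ = 0) →
      ∃ u : F, u ≠ 0 ∧ ∀ P, (ψ • E - Q • E) P = P.ord u

/-- `ψ f / f` reduces to `e (τ a / a)`, `a` the reduction of a scaling of `f` -/
theorem red_tw_div {Fk : Type*} [Field Fk] [Algebra k Fk] {Red : F → Fk → Prop}
    (ax : RedAx A res Red) (ψ : SemilinearAut L F) (τ : SemilinearAut k Fk)
    (hred : ∀ x a, Red x a → Red (ψ • x) (τ • a))
    (hval : ∀ c : L, c ≠ 0 →
      SemilinearAut.baseAut ψ c / c ∈ A ∧ c / SemilinearAut.baseAut ψ c ∈ A)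
    {f : F} (hf : f ≠ 0) :
    ∃ (c : L) (a : Fk) (e : k), c ≠ 0 ∧ a ≠ 0 ∧ e ≠ 0 ∧ Red (c • f) a ∧
      Red (ψ • f * f⁻¹) (algebraMap k Fk e * (τ • a * a⁻¹)) := by
  obtain ⟨c, hc, φ, hφ, hR⟩ := ax.scale f hf
  have h1 := hred _ _ hR
  have h2 : ψ • (c • f) = (SemilinearAut.baseAut ψ c) • (ψ • f) := by
    rw [Algebra.smul_def, Algebra.smul_def, smul_mul', SemilinearAut.smul_algebraMap]
  rw [h2] at h1
  have h3 := ax.mul h1 (ax.inv hR hφ)
  obtain ⟨hu, hu'⟩ := hval c hc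
  have hσc : SemilinearAut.baseAut ψ c ≠ 0 := by
    intro h0
    exact hc ((map_eq_zero_iff _ (SemilinearAut.baseAut ψ).injective).mp h0)
  have h4 := ax.smul (⟨c / SemilinearAut.baseAut ψ c, hu'⟩ : A) h3
  have hcF : algebraMap L F c ≠ 0 := (map_ne_zero _).mpr hc
  have hσcF : algebraMap L F (SemilinearAut.baseAut ψ c) ≠ 0 := (map_ne_zero _).mpr hσc
  have h5 : (c / SemilinearAut.baseAut ψ c) •
      ((SemilinearAut.baseAut ψ c) • (ψ • f) * (c • f)⁻¹) = ψ • f * f⁻¹ := by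
    simp only [Algebra.smul_def, map_div₀]
    field_simp
  refine ⟨c, φ, res ⟨c / SemilinearAut.baseAut ψ c, hu'⟩, hc, hφ, ?_, hR, ?_⟩
  · intro h0
    have h6 : (⟨c / SemilinearAut.baseAut ψ c, hu'⟩ : A) * ⟨SemilinearAut.baseAut ψ c / c, hu⟩
        = 1 := by
      apply Subtype.ext
      show c / SemilinearAut.baseAut ψ c * (SemilinearAut.baseAut ψ c / c) = 1
      field_simp
    have h7 := congrArg res h6
    rw [map_mul, h0, zero_mul, map_one] at h7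
    exact zero_ne_one h7
  · have h8 : ((⟨c / SemilinearAut.baseAut ψ c, hu'⟩ : A) : L) = c / SemilinearAut.baseAut ψ c :=
      rfl
    rw [h8, h5] at h4
    exact h4

end Fermat.Agent.S35
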