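import Fermat.Agent.S34.CondConc
import Fermat.Agent.S34.Equiv
import Fermat.Agent.S37.GalFrob
import Fermat.Agent.S35.TwDefs

/-!
# C84 (S35), piece C1: the Frobenius elements at `q` and the two reductions of `X₀(Mq)`

`A` a valuation ring of `ℚ̄` over `q`, `k` its residue field, `F = ℚ̄(X₀(Mq))`, `q ∤ M`,
`Red1`, `Red2 : F → F_k(M) → Prop` the two reductions (`Joint`), `t = frobSL` the coefficient
Frobenius of `F_k(M)` (a semilinear automorphism over `u ↦ u ^ q`).

* `hasValue_smul`      : values at places are transported by semilinear automorphisms;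
* `red1_decomp`, `red2_decomp` : the decomposition group acts on the two reductions through the
  coefficients;
* `red1_frob`, `red2_frob` (and the inverse forms): for a Frobenius element `φ` at `A`:
  `Red_i x a → Red_i (φ • x) (t • a)`;
* `val_decomp`, `galois_smul_dsym'`, `frobSL_smul_EJ` : valuations and the divisors are fixed;
* `hasValue_Vk`        : `(V a)(y) = a(t • y)`;
* `node_eq₁`, `node_eq₂` : for ANY instance of `Setup2` for `Red1`, `Red2` (divisors `Dsym`,
  `(1 + q) • EJ`) the nodes `p` satisfy `p.1 = t • p.2` and `p.2 = t • p.1`;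
* `frobK_sq_node₁`, `frobK_sq_node₂` : `t ^ 2` fixes both branches of every node;
* `compatTw_frob_sq`, `compatTw_frob_mul` : **the instance of `CompatTw`** for the square of a
  Frobenius element (`τ₁ = τ₂ = t ^ 2`, `Q = q ^ 2`); `frob_mul_smul_dsym` : `ψ • D = D`.
-/

set_option autoImplicit false
set_option linter.unusedSectionVars false
set_option linter.unusedVariables false
set_option linter.style.haveILetI false
set_option synthInstance.maxHeartbeats 400000
set_option maxHeartbeats 1000000

noncomputable section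

open AlgebraicCurve ModularCurve IntermediateField Fermat.Agent.Lib.FF
open Fermat.Agent.S18 Fermat.Agent.S18.Deuring Fermat.Agent.S34.Nodal

namespace Fermat.Agent.S35.FrobRed

local notation "Qb" => AlgebraicClosure ℚ
local notation "Gal" => (AlgebraicClosure ℚ ≃ₐ[ℚ] AlgebraicClosure ℚ)

attribute [local instance] Fermat.Agent.S34.C3.neZero_q

/-! ### values and semilinear automorphisms -/

section Value

variable {K F : Type*} [Field K] [Field F] [Algebra K F]

/-- transport of values along a semilinear automorphism -/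
theorem hasValue_smul (g : SemilinearAut K F) {P : Place K F} {f : F} {v : K}
    (h : HasValue P f v) : HasValue (g • P) (g • f) (SemilinearAut.baseAut g v) := by
  rw [hasValue_iff] at h ⊢
  rcases h with h | h
  · left
    rw [h, SemilinearAut.smul_algebraMap]
  · right
    have := SemilinearAut.ord_smul g P (f - algebraMap K F v)
    rw [smul_sub, SemilinearAut.smul_algebraMap] at this
    rw [this]
    exact h

theorem hasValue_smul_iff (g : SemilinearAut K F) {P : Place K F} {f : F} {v : K} :
    HasValue (g • P) (g • f) (SemilinearAut.baseAut g v) ↔ HasValue P f v := by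
  refine ⟨fun h => ?_, hasValue_smul g⟩
  have := hasValue_smul g⁻¹ h
  rwa [inv_smul_smul, inv_smul_smul, SemilinearAut.baseAut_inv, RingEquiv.symm_apply_apply]
    at this

/-- the value of `g • f` at `P` -/
theorem hasValue_smul' (g : SemilinearAut K F) {P : Place K F} {f : F} {v : K}
    (h : HasValue (g⁻¹ • P) f v) : HasValue P (g • f) (SemilinearAut.baseAut g v) := by
  have := hasValue_smul g h
  rwa [smul_inv_smul] at this

end Value

/-! ### the decomposition group and the two reductions -/

section Decomp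

open Fermat.Agent.S37.G Fermat.Agent.S37.AL Fermat.Agent.S34 Fermat.Agent.S34.InputAsm

variable (A : ValuationSubring (AlgebraicClosure ℚ)) (q : ℕ) [hq : Fact q.Prime]
variable (hA : A.LiesOverPrime q) (M : ℕ) [NeZero M] (hqM : ¬ q ∣ M)

/-- the decomposition group and the first reduction -/
theorem red1_decomp (g : A.decompositionSubgroup ℚ) {x : modularFunctionFieldBar (M * q)}
    {a : modularFunctionFieldFullC (IsLocalRing.ResidueField A) M}
    (h : Joint.Red1 A q M x a) :
    Joint.Red1 A q M (arithmeticGalois (modularFunctionFieldFull (M * q)) (g : Gal) • x)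
      (semiC (IsLocalRing.ResidueField A) M (resAut A g) • a) := by
  rw [Joint.red1_iff] at h ⊢
  rw [coe_semiC_smul]
  exact Fermat.Agent.S34.Equiv.red_decomp A (M * q) g h

/-- the decomposition group and the second reduction -/
theorem red2_decomp (g : A.decompositionSubgroup ℚ) {x : modularFunctionFieldBar (M * q)}
    {a : modularFunctionFieldFullC (IsLocalRing.ResidueField A) M}
    (h : Joint.Red2 A q M hqM x a) :
    Joint.Red2 A q M hqM (arithmeticGalois (modularFunctionFieldFull (M * q)) (g : Gal) • x)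
      (semiC (IsLocalRing.ResidueField A) M (resAut A g) • a) := by
  rw [Joint.red2_iff] at h ⊢
  rw [Fermat.Agent.S34.Equiv.wAL_galois_smul]
  exact red1_decomp A q M g h

/-- the coefficient Frobenius of `F_k(M)`, `k` the residue field of `A` -/
def frobK : SemilinearAut (IsLocalRing.ResidueField A)
    (modularFunctionFieldFullC (IsLocalRing.ResidueField A) M) :=
  haveI := GV.charP_residueField A q hA
  haveI := Fermat.Agent.S18.ResClosed.perfectField_residueField A
  frobSL (IsLocalRing.ResidueField A) q M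

theorem baseAut_frobK (u : IsLocalRing.ResidueField A) :
    SemilinearAut.baseAut (frobK A q hA M) u = u ^ q := by
  haveI := GV.charP_residueField A q hA
  haveI := Fermat.Agent.S18.ResClosed.perfectField_residueField A
  exact baseAut_frobSL (IsLocalRing.ResidueField A) q M u

theorem coe_frobK_smul (a : modularFunctionFieldFullC (IsLocalRing.ResidueField A) M) :
    haveI := GV.charP_residueField A q hA
    ((frobK A q hA M • a : modularFunctionFieldFullC (IsLocalRing.ResidueField A) M) :
        LaurentSeries (IsLocalRing.ResidueField A))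
      = coeffMap (frobenius (IsLocalRing.ResidueField A) q)
          (a : LaurentSeries (IsLocalRing.ResidueField A)) := by
  haveI := GV.charP_residueField A q hA
  haveI := Fermat.Agent.S18.ResClosed.perfectField_residueField A
  exact coe_frobSL_smul (IsLocalRing.ResidueField A) q M a

theorem coeff_frobK_smul (a : modularFunctionFieldFullC (IsLocalRing.ResidueField A) M)
    (n : ℤ) :
    ((frobK A q hA M • a : modularFunctionFieldFullC (IsLocalRing.ResidueField A) M) :
        LaurentSeries (IsLocalRing.ResidueField A)).coeff n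
      = ((a : LaurentSeries (IsLocalRing.ResidueField A)).coeff n) ^ q := by
  haveI := GV.charP_residueField A q hA
  rw [coe_frobK_smul, coeffMap_coeff, frobenius_def]

/-- a Frobenius element induces the Frobenius of the residue field -/
theorem semiC_resAut_frob {φ : Gal} (hφ : A.IsFrobeniusAt φ q) :
    semiC (IsLocalRing.ResidueField A) M (resAut A ⟨φ, hφ.mem_decompositionSubgroup⟩)
      = frobK A q hA M := by
  haveI := GV.charP_residueField A q hA
  haveI := Fermat.Agent.S18.ResClosed.perfectField_residueField A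
  have h1 : resAut A ⟨φ, hφ.mem_decompositionSubgroup⟩
      = frobAut (IsLocalRing.ResidueField A) q := by
    ext u
    rw [resAut_apply, hφ.smul_residue_eq u, frobAut_apply]
  rw [h1]
  rfl

/-- **Frobenius and the first reduction** -/
theorem red1_frob {φ : Gal} (hφ : A.IsFrobeniusAt φ q)
    {x : modularFunctionFieldBar (M * q)}
    {a : modularFunctionFieldFullC (IsLocalRing.ResidueField A) M}
    (h : Joint.Red1 A q M x a) :
    Joint.Red1 A q M (arithmeticGalois (modularFunctionFieldFull (M * q)) φ • x)
      (frobK A q hA M • a) := by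
  have := red1_decomp A q M ⟨φ, hφ.mem_decompositionSubgroup⟩ h
  rwa [semiC_resAut_frob A q hA M hφ] at this

/-- **Frobenius and the second reduction** -/
theorem red2_frob {φ : Gal} (hφ : A.IsFrobeniusAt φ q)
    {x : modularFunctionFieldBar (M * q)}
    {a : modularFunctionFieldFullC (IsLocalRing.ResidueField A) M}
    (h : Joint.Red2 A q M hqM x a) :
    Joint.Red2 A q M hqM (arithmeticGalois (modularFunctionFieldFull (M * q)) φ • x)
      (frobK A q hA M • a) := by
  have := red2_decomp A q M hqM ⟨φ, hφ.mem_decompositionSubgroup⟩ h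
  rwa [semiC_resAut_frob A q hA M hφ] at this

/-- the inverse of a Frobenius element and the first reduction -/
theorem red1_frob_inv {φ : Gal} (hφ : A.IsFrobeniusAt φ q)
    {x : modularFunctionFieldBar (M * q)}
    {a : modularFunctionFieldFullC (IsLocalRing.ResidueField A) M}
    (h : Joint.Red1 A q M x a) :
    Joint.Red1 A q M ((arithmeticGalois (modularFunctionFieldFull (M * q)) φ)⁻¹ • x)
      ((frobK A q hA M)⁻¹ • a) := by
  have := red1_decomp A q M (⟨φ, hφ.mem_decompositionSubgroup⟩⁻¹ : A.decompositionSubgroup ℚ) h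
  rw [resAut_inv, map_inv, semiC_resAut_frob A q hA M hφ] at this
  rw [← map_inv]
  exact this

/-- the inverse of a Frobenius element and the second reduction -/
theorem red2_frob_inv {φ : Gal} (hφ : A.IsFrobeniusAt φ q)
    {x : modularFunctionFieldBar (M * q)}
    {a : modularFunctionFieldFullC (IsLocalRing.ResidueField A) M}
    (h : Joint.Red2 A q M hqM x a) :
    Joint.Red2 A q M hqM ((arithmeticGalois (modularFunctionFieldFull (M * q)) φ)⁻¹ • x)
      ((frobK A q hA M)⁻¹ • a) := by
  have := red2_decomp A q M hqM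
    (⟨φ, hφ.mem_decompositionSubgroup⟩⁻¹ : A.decompositionSubgroup ℚ) h
  rw [resAut_inv, map_inv, semiC_resAut_frob A q hA M hφ] at this
  rw [← map_inv]
  exact this

/-- the decomposition group preserves the valuation of the constants -/
theorem val_decomp {σ : Gal} (hσ : σ ∈ A.decompositionSubgroup ℚ) (c : Qb) (hc : c ≠ 0) :
    SemilinearAut.baseAut (arithmeticGalois (modularFunctionFieldFull (M * q)) σ) c / c ∈ A ∧
      c / SemilinearAut.baseAut (arithmeticGalois (modularFunctionFieldFull (M * q)) σ) c
        ∈ A := by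
  haveI : Algebra.IsAlgebraic ℚ Qb := AlgebraicClosure.isAlgebraic ℚ
  rw [baseAut_arithmeticGalois]
  exact Fermat.Agent.S34.Equiv.div_mem_of_decomp A hσ hc

/-- the coefficient Frobenius fixes `J` -/
theorem frobK_smul_jK :
    frobK A q hA M • GV.jK (IsLocalRing.ResidueField A) M
      = GV.jK (IsLocalRing.ResidueField A) M := by
  haveI := GV.charP_residueField A q hA
  haveI := Fermat.Agent.S18.ResClosed.perfectField_residueField A
  exact semiC_smul_jK (IsLocalRing.ResidueField A) M _

/-- the coefficient Frobenius fixes the polar divisor of `J` -/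
theorem frobK_smul_EJ : frobK A q hA M • EJ A q hA M = EJ A q hA M := by
  rw [EJ, smul_poleDiv, frobK_smul_jK]

theorem frobK_smul_D1 (n : ℕ) : frobK A q hA M • (n • EJ A q hA M) = n • EJ A q hA M := by
  rw [smul_comm, frobK_smul_EJ]

theorem frobK_inv_smul_EJ : (frobK A q hA M)⁻¹ • EJ A q hA M = EJ A q hA M := by
  conv_lhs => rw [← frobK_smul_EJ A q hA M]
  rw [inv_smul_smul]

/-- the cusps are permuted by the coefficient Frobenius -/
theorem EJ_frobK_smul (y : Place (IsLocalRing.ResidueField A)
    (modularFunctionFieldFullC (IsLocalRing.ResidueField A) M)) :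
    EJ A q hA M (frobK A q hA M • y) = EJ A q hA M y := by
  have := SemilinearAut.divisor_smul_apply_smul (frobK A q hA M) (EJ A q hA M) y
  rwa [frobK_smul_EJ] at this

/-! ### `V` and the coefficient Frobenius -/

/-- `V a = (t⁻¹ • a) ^ q`, `t` the coefficient Frobenius -/
theorem Vk_eq_frobK_pow (a : modularFunctionFieldFullC (IsLocalRing.ResidueField A) M) :
    haveI := GV.charP_residueField A q hA
    Joint.Vk q M (IsLocalRing.ResidueField A) a = ((frobK A q hA M)⁻¹ • a) ^ q := by
  haveI := GV.charP_residueField A q hA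
  haveI := Fermat.Agent.S18.ResClosed.perfectField_residueField A
  apply Subtype.ext
  rw [Joint.pow_q_eq_qExpand, Joint.coe_Vk, ← coe_frobK_smul A q hA M, smul_inv_smul]

/-- `(V a)(y) = a(t • y)` -/
theorem hasValue_Vk {y : Place (IsLocalRing.ResidueField A)
    (modularFunctionFieldFullC (IsLocalRing.ResidueField A) M)}
    {a : modularFunctionFieldFullC (IsLocalRing.ResidueField A) M}
    {w : IsLocalRing.ResidueField A} (h : HasValue (frobK A q hA M • y) a w) :
    haveI := GV.charP_residueField A q hA
    HasValue y (Joint.Vk q M (IsLocalRing.ResidueField A) a) w := by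
  haveI := GV.charP_residueField A q hA
  rw [Vk_eq_frobK_pow]
  have h1 := (hasValue_smul (frobK A q hA M)⁻¹ h).pow q
  rwa [inv_smul_smul, ← baseAut_frobK A q hA M, SemilinearAut.baseAut_inv,
    RingEquiv.apply_symm_apply] at h1

end Decomp

/-! ### the nodes -/

section Nodes

open Fermat.Agent.S37.G Fermat.Agent.S34 Fermat.Agent.S34.InputAsm Fermat.Agent.S34.CondC

variable (A : ValuationSubring (AlgebraicClosure ℚ)) (q : ℕ) [hq : Fact q.Prime]
variable (hA : A.LiesOverPrime q) (M : ℕ) [NeZero M] (hqM : ¬ q ∣ M)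
variable {Sg : Finset (Place (IsLocalRing.ResidueField A)
      (modularFunctionFieldFullC (IsLocalRing.ResidueField A) M) ×
    Place (IsLocalRing.ResidueField A)
      (modularFunctionFieldFullC (IsLocalRing.ResidueField A) M))}
  {g g₁ g₂ : ℕ} {c c₁ c₂ : ℤ}

theorem EJ_eq_zero_of_D1 {y : Place (IsLocalRing.ResidueField A)
    (modularFunctionFieldFullC (IsLocalRing.ResidueField A) M)}
    (hy : ((1 + q) • EJ A q hA M) y = 0) : EJ A q hA M y = 0 := by
  rw [Finsupp.smul_apply, smul_eq_zero] at hy
  rcases hy with hy | hy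
  · omega
  · exact hy

theorem D1_eq_zero_of_EJ {y : Place (IsLocalRing.ResidueField A)
    (modularFunctionFieldFullC (IsLocalRing.ResidueField A) M)}
    (hy : EJ A q hA M y = 0) : ((1 + q) • EJ A q hA M) y = 0 := by
  rw [Finsupp.smul_apply, hy, smul_zero]

/-- value `0` from the predicate `Ge` -/
theorem hasValue_zero_of_ge {k F : Type*} [Field k] [Field F] [Algebra k F] {y : Place k F}
    {a : F} (h : NCond.Ge y 1 a) : HasValue y a 0 := by
  rw [hasValue_zero_iff]
  rcases h with h | h
  · exact Or.inl h
  · exact Or.inr (by omega)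

include hqM in
/-- **the nodes, first relation**: `p.1 = t • p.2` -/
theorem node_eq₁ (h49 : 4 ∣ M ∨ 9 ∣ M)
    (S : Setup2 A (IsLocalRing.residue A) (Joint.Red1 A q M) (Joint.Red2 A q M hqM)
      (Dsym q M) ((1 + q) • EJ A q hA M) ((1 + q) • EJ A q hA M) Sg g g₁ g₂ c c₁ c₂)
    {p : Place (IsLocalRing.ResidueField A)
        (modularFunctionFieldFullC (IsLocalRing.ResidueField A) M) ×
      Place (IsLocalRing.ResidueField A)
        (modularFunctionFieldFullC (IsLocalRing.ResidueField A) M)} (hp : p ∈ Sg) :
    p.1 = frobK A q hA M • p.2 := by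
  haveI := GV.charP_residueField A q hA
  by_contra hne
  have hy : ((1 + q) • EJ A q hA M) p.1 = 0 := S.node_off₁ p hp
  have hy' : ((1 + q) • EJ A q hA M) (frobK A q hA M • p.2) = 0 :=
    D1_eq_zero_of_EJ A q hA M
      (by rw [EJ_frobK_smul]; exact EJ_eq_zero_of_D1 A q hA M (S.node_off₂ p hp))
  obtain ⟨a, ha, ha0, hord, hge⟩ := NCond.exists_separating S.hpf₁ S.RF₁
    (D1_nonneg' A q hA M) S.deg₁_pos p.1 (frobK A q hA M • p.2) hy hy' hne
  obtain ⟨n, f, hf, hfa⟩ := exists_lift_coordRing A q hA M hqM h49 a ha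
  obtain ⟨x, hx, hx1, hx2⟩ := mem_Bn_alpha A q hA M hqM hf hfa
  obtain ⟨-, -, hM⟩ := S.H2 n x _ _ hx hx1 hx2
  obtain ⟨v, hv1, hv2⟩ := hM p hp
  have hv0 : v = 0 :=
    hv2.unique (hasValue_Vk A q hA M (hasValue_zero_of_ge hge))
  rw [hv0] at hv1
  rcases hasValue_zero_iff.mp hv1 with h | h
  · exact ha0 h
  · have h' : 0 < p.1.ord a := h
    omega

include hqM in
/-- **the nodes, second relation**: `p.2 = t • p.1` -/
theorem node_eq₂ (h49 : 4 ∣ M ∨ 9 ∣ M)
    (S : Setup2 A (IsLocalRing.residue A) (Joint.Red1 A q M) (Joint.Red2 A q M hqM)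
      (Dsym q M) ((1 + q) • EJ A q hA M) ((1 + q) • EJ A q hA M) Sg g g₁ g₂ c c₁ c₂)
    {p : Place (IsLocalRing.ResidueField A)
        (modularFunctionFieldFullC (IsLocalRing.ResidueField A) M) ×
      Place (IsLocalRing.ResidueField A)
        (modularFunctionFieldFullC (IsLocalRing.ResidueField A) M)} (hp : p ∈ Sg) :
    p.2 = frobK A q hA M • p.1 := by
  haveI := GV.charP_residueField A q hA
  by_contra hne
  have hy : ((1 + q) • EJ A q hA M) p.2 = 0 := S.node_off₂ p hp
  have hy' : ((1 + q) • EJ A q hA M) (frobK A q hA M • p.1) = 0 :=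
    D1_eq_zero_of_EJ A q hA M
      (by rw [EJ_frobK_smul]; exact EJ_eq_zero_of_D1 A q hA M (S.node_off₁ p hp))
  obtain ⟨a, ha, ha0, hord, hge⟩ := NCond.exists_separating S.hpf₂ S.RF₂
    (D1_nonneg' A q hA M) S.deg₂_pos p.2 (frobK A q hA M • p.1) hy hy' hne
  obtain ⟨n, f, hf, hfa⟩ := exists_lift_coordRing A q hA M hqM h49 a ha
  obtain ⟨x, hx, hx1, hx2⟩ := mem_Bn_beta A q hA M hqM hf hfa
  obtain ⟨-, -, hM⟩ := S.H2 n x _ _ hx hx1 hx2
  obtain ⟨v, hv1, hv2⟩ := hM p hp
  have hv0 : v = 0 :=
    hv1.unique (hasValue_Vk A q hA M (hasValue_zero_of_ge hge))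
  rw [hv0] at hv2
  rcases hasValue_zero_iff.mp hv2 with h | h
  · exact ha0 h
  · have h' : 0 < p.2.ord a := h
    omega

include hqM in
/-- the square of the coefficient Frobenius fixes the first branch of every node -/
theorem frobK_sq_node₁ (h49 : 4 ∣ M ∨ 9 ∣ M)
    (S : Setup2 A (IsLocalRing.residue A) (Joint.Red1 A q M) (Joint.Red2 A q M hqM)
      (Dsym q M) ((1 + q) • EJ A q hA M) ((1 + q) • EJ A q hA M) Sg g g₁ g₂ c c₁ c₂)
    {p : Place (IsLocalRing.ResidueField A)
        (modularFunctionFieldFullC (IsLocalRing.ResidueField A) M) ×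
      Place (IsLocalRing.ResidueField A)
        (modularFunctionFieldFullC (IsLocalRing.ResidueField A) M)} (hp : p ∈ Sg) :
    (frobK A q hA M) ^ 2 • p.1 = p.1 := by
  rw [pow_two, mul_smul, ← node_eq₂ A q hA M hqM h49 S hp, ← node_eq₁ A q hA M hqM h49 S hp]

include hqM in
/-- the square of the coefficient Frobenius fixes the second branch of every node -/
theorem frobK_sq_node₂ (h49 : 4 ∣ M ∨ 9 ∣ M)
    (S : Setup2 A (IsLocalRing.residue A) (Joint.Red1 A q M) (Joint.Red2 A q M hqM)
      (Dsym q M) ((1 + q) • EJ A q hA M) ((1 + q) • EJ A q hA M) Sg g g₁ g₂ c c₁ c₂)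
    {p : Place (IsLocalRing.ResidueField A)
        (modularFunctionFieldFullC (IsLocalRing.ResidueField A) M) ×
      Place (IsLocalRing.ResidueField A)
        (modularFunctionFieldFullC (IsLocalRing.ResidueField A) M)} (hp : p ∈ Sg) :
    (frobK A q hA M) ^ 2 • p.2 = p.2 := by
  rw [pow_two, mul_smul, ← node_eq₁ A q hA M hqM h49 S hp, ← node_eq₂ A q hA M hqM h49 S hp]

theorem baseAut_frobK_sq (u : IsLocalRing.ResidueField A) :
    SemilinearAut.baseAut ((frobK A q hA M) ^ 2) u = u ^ (q ^ 2) := by
  rw [pow_two, SemilinearAut.baseAut_mul, RingAut.mul_apply, baseAut_frobK, baseAut_frobK,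
    ← pow_mul, pow_two]

/-! ### the instances of the abstract interfaces for `ψ = φ²` -/

include hqM in
/-- **the instance of `CompatTw`** for the square of a Frobenius element -/
theorem compatTw_frob_sq (h49 : 4 ∣ M ∨ 9 ∣ M)
    (S : Setup2 A (IsLocalRing.residue A) (Joint.Red1 A q M) (Joint.Red2 A q M hqM)
      (Dsym q M) ((1 + q) • EJ A q hA M) ((1 + q) • EJ A q hA M) Sg g g₁ g₂ c c₁ c₂)
    {φ : Gal} (hφ : A.IsFrobeniusAt φ q) :
    Fermat.Agent.S35.CompatTw A (Joint.Red1 A q M) (Joint.Red2 A q M hqM) Sg (q ^ 2)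
      (arithmeticGalois (modularFunctionFieldFull (M * q)) φ ^ 2)
      ((frobK A q hA M) ^ 2) ((frobK A q hA M) ^ 2) where
  red₁ := fun x a h => by
    rw [pow_two, pow_two, mul_smul, mul_smul]
    exact red1_frob A q hA M hφ (red1_frob A q hA M hφ h)
  red₂ := fun x a h => by
    rw [pow_two, pow_two, mul_smul, mul_smul]
    exact red2_frob A q hA M hqM hφ (red2_frob A q hA M hqM hφ h)
  val := fun c hc => by
    rw [← map_pow]
    exact val_decomp A q M (pow_mem hφ.mem_decompositionSubgroup 2) c hc
  base₁ := baseAut_frobK_sq A q hA M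
  base₂ := baseAut_frobK_sq A q hA M
  node₁ := fun p hp => frobK_sq_node₁ A q hA M hqM h49 S hp
  node₂ := fun p hp => frobK_sq_node₂ A q hA M hqM h49 S hp

include hqM in
/-- **the instance of `CompatTw`** for `ψ = arithmeticGalois (φ * φ)` -/
theorem compatTw_frob_mul (h49 : 4 ∣ M ∨ 9 ∣ M)
    (S : Setup2 A (IsLocalRing.residue A) (Joint.Red1 A q M) (Joint.Red2 A q M hqM)
      (Dsym q M) ((1 + q) • EJ A q hA M) ((1 + q) • EJ A q hA M) Sg g g₁ g₂ c c₁ c₂)
    {φ : Gal} (hφ : A.IsFrobeniusAt φ q) :
    Fermat.Agent.S35.CompatTw A (Joint.Red1 A q M) (Joint.Red2 A q M hqM) Sg (q ^ 2)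
      (arithmeticGalois (modularFunctionFieldFull (M * q)) (φ * φ))
      ((frobK A q hA M) ^ 2) ((frobK A q hA M) ^ 2) := by
  rw [map_mul, ← pow_two]
  exact compatTw_frob_sq A q hA M hqM h49 S hφ

include hqM in
/-- `ψ = arithmeticGalois (φ * φ)` fixes the divisor `Dsym` -/
theorem frob_mul_smul_dsym (φ : Gal) :
    arithmeticGalois (modularFunctionFieldFull (M * q)) (φ * φ) • Dsym q M = Dsym q M :=
  galois_smul_dsym q M hqM _

end Nodes

end Fermat.Agent.S35.FrobRed
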