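import Mathlib
import Fermat.Agent.S37.HInpMain
import Fermat.Agent.S37.PullInj

/-!
# C84 (S35), piece P1, part 1: the predicate `New`

* `IsNewAt N q x` (`x ∈ J₀(N q)`): the two degeneracy push-forwards `α_* x`, `β_* x ∈ J₀(N)` vanish,
  in divisor form: for every degree zero divisor `D` representing `x`, the divisors `α_* D` and
  `β_* D` are principal;
* `New q M x` (`x ∈ J₀(M)`): the level-generic form (`M = N q` through a heterogeneous equality),
  the parameter `New` of `KeySq`, `Core35`, `NewInput`;
* `new_iff : New q (N * q) x ↔ IsNewAt N q x`;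
* `isNewAt_of_mk`: one representative suffices.
-/

set_option autoImplicit false
set_option linter.unusedSectionVars false
set_option linter.unusedVariables false
set_option linter.style.haveILetI false
set_option synthInstance.maxHeartbeats 400000
set_option maxHeartbeats 1000000

noncomputable section

namespace Fermat.Agent.S35.NewDef

open AlgebraicCurve ModularCurve Fermat.Agent.S37

local notation "Qb" => AlgebraicClosure ℚ

/-- `x ∈ J₀(N q)` is killed by the two degeneracy push-forwards to `J₀(N)` (divisor form) -/
def IsNewAt (N q : ℕ) [NeZero N] [NeZero q] (x : JZero (N * q)) : Prop :=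
  ∀ D : Divisor.degZero (K := Qb) (F := modularFunctionFieldBar (N * q)),
    (Pic0.mk D : JZero (N * q)) = x →
      Divisor.pushforwardAlong (heckeAlphaBar Qb N q) (H.alphaInt N q)
          (D : Divisor Qb (modularFunctionFieldBar (N * q))) ∈
        Divisor.principal (K := Qb) (F := modularFunctionFieldBar N) ∧
      Divisor.pushforwardAlong (heckeBetaBar Qb N q) (H.betaInt N q)
          (D : Divisor Qb (modularFunctionFieldBar (N * q))) ∈
        Divisor.principal (K := Qb) (F := modularFunctionFieldBar N)

/-- the level-generic form of `IsNewAt`: the parameter `New` of `KeySq`, `Core35`, `NewInput` -/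
def New (q : ℕ) [NeZero q] (M : ℕ) [NeZero M] (x : JZero M) : Prop :=
  ∀ (N : ℕ) [NeZero N] (_ : M = N * q) (y : JZero (N * q)), HEq x y → IsNewAt N q y

theorem new_iff (N q : ℕ) [NeZero N] [NeZero q] (x : JZero (N * q)) :
    New q (N * q) x ↔ IsNewAt N q x := by
  constructor
  · intro h
    exact h N rfl x HEq.rfl
  · intro h N' _ hN' y hy
    have hq : q ≠ 0 := NeZero.ne q
    have hNN : N = N' := Nat.eq_of_mul_eq_mul_right (Nat.pos_of_ne_zero hq) hN'
    subst hNN
    have hxy : x = y := eq_of_heq hy
    subst hxy
    exact h

/-- the difference of two representatives of a point of `Pic0` is principal -/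
theorem sub_mem_principal_of_mk_eq {K F : Type*} [Field K] [Field F] [Algebra K F]
    {D D' : Divisor.degZero (K := K) (F := F)}
    (h : (Pic0.mk D : Pic0 K F) = Pic0.mk D') :
    ((D : Divisor K F) - (D' : Divisor K F)) ∈ Divisor.principal (K := K) (F := F) := by
  have h1 : ((QuotientAddGroup.mk (D - D') : Pic0 K F)) = 0 := by
    rw [QuotientAddGroup.mk_sub]
    exact sub_eq_zero.2 h
  have h2 := (QuotientAddGroup.eq_zero_iff _).1 h1
  rw [AddSubgroup.mem_addSubgroupOf] at h2
  simpa using h2

/-- **one representative suffices** -/
theorem isNewAt_of_mk (N q : ℕ) [NeZero N] [NeZero q]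
    (D : Divisor.degZero (K := Qb) (F := modularFunctionFieldBar (N * q)))
    (hα : Divisor.pushforwardAlong (heckeAlphaBar Qb N q) (H.alphaInt N q)
        (D : Divisor Qb (modularFunctionFieldBar (N * q))) ∈
      Divisor.principal (K := Qb) (F := modularFunctionFieldBar N))
    (hβ : Divisor.pushforwardAlong (heckeBetaBar Qb N q) (H.betaInt N q)
        (D : Divisor Qb (modularFunctionFieldBar (N * q))) ∈
      Divisor.principal (K := Qb) (F := modularFunctionFieldBar N)) :
    IsNewAt N q (Pic0.mk D) := by
  intro D' hD'
  have hsub := sub_mem_principal_of_mk_eq hD'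
  have e : (D' : Divisor Qb (modularFunctionFieldBar (N * q))) =
      (D : Divisor Qb (modularFunctionFieldBar (N * q))) +
        ((D' : Divisor Qb (modularFunctionFieldBar (N * q))) - D) := by abel
  constructor
  · rw [e, map_add]
    exact AddSubgroup.add_mem _ hα
      (Divisor.isPrincipal_pushforwardAlong _ _ (H.finiteAlong_alpha N q)
        (H.normFormula_alpha N q) hsub)
  · rw [e, map_add]
    exact AddSubgroup.add_mem _ hβ
      (Divisor.isPrincipal_pushforwardAlong _ _ (H.finiteAlong_beta N q)
        (H.normFormula_beta N q) hsub)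

/-- `IsNewAt` in terms of one representative -/
theorem isNewAt_iff_exists (N q : ℕ) [NeZero N] [NeZero q] (x : JZero (N * q)) :
    IsNewAt N q x ↔
      ∃ D : Divisor.degZero (K := Qb) (F := modularFunctionFieldBar (N * q)),
        (Pic0.mk D : JZero (N * q)) = x ∧
        Divisor.pushforwardAlong (heckeAlphaBar Qb N q) (H.alphaInt N q)
            (D : Divisor Qb (modularFunctionFieldBar (N * q))) ∈
          Divisor.principal (K := Qb) (F := modularFunctionFieldBar N) ∧
        Divisor.pushforwardAlong (heckeBetaBar Qb N q) (H.betaInt N q)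
            (D : Divisor Qb (modularFunctionFieldBar (N * q))) ∈
          Divisor.principal (K := Qb) (F := modularFunctionFieldBar N) := by
  constructor
  · intro h
    obtain ⟨D, rfl⟩ := Pic0.mk_surjective x
    exact ⟨D, rfl, h D rfl⟩
  · rintro ⟨D, rfl, hα, hβ⟩
    exact isNewAt_of_mk N q D hα hβ

/-- `New` at the level `N q`, in the form used by `Core35`: the two push-forwards of any
representative are principal -/
theorem new_pushforward {N q : ℕ} [NeZero N] [NeZero q] {x : JZero (N * q)}
    (h : New q (N * q) x)
    (D : Divisor.degZero (K := Qb) (F := modularFunctionFieldBar (N * q)))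
    (hD : (Pic0.mk D : JZero (N * q)) = x) :
    Divisor.pushforwardAlong (heckeAlphaBar Qb N q) (H.alphaInt N q)
        (D : Divisor Qb (modularFunctionFieldBar (N * q))) ∈
      Divisor.principal (K := Qb) (F := modularFunctionFieldBar N) ∧
    Divisor.pushforwardAlong (heckeBetaBar Qb N q) (H.betaInt N q)
        (D : Divisor Qb (modularFunctionFieldBar (N * q))) ∈
      Divisor.principal (K := Qb) (F := modularFunctionFieldBar N) :=
  (new_iff N q x).1 h D hD

end Fermat.Agent.S35.NewDef
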