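import Fermat.Agent.S35.SpecAlong
import Fermat.Agent.S34.InputAsm
import Fermat.Agent.S34.NodalProd
import Fermat.Agent.S37.GalFrob
import Fermat.Agent.S37.HInpMain

/-!
# C84 (S35), piece C3a (concrete): the specialisation of the places of `X₀(Mq)` at `q` commutes
with the two degeneracy maps

Level `M * q`, `q` prime, `q ∤ M`, `A` a valuation ring of `ℚ̄` over `q`, `k` its residue field.
`S : Setup2` the nodal reduction of `F(Mq)` (reductions `Joint.Red1`, `Joint.Red2`, divisors
`Dsym = Pol(j) + Pol(j_q)` and `(1 + q) • Pol(J)`), `sp` its specialisation map;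
`S' : Deuring.Setup` the good reduction of `F(M)` (divisors `Pol(j)`, `Pol(J)`), `rmap S'` its
reduction map; `α, β : F(M) → F(Mq)` the degeneracy maps; `t = frobSL` the coefficient Frobenius
of `F_k(M)` (`ord_Q (V a) = q · ord_{t • Q} a`).  Then

* `sp P = inl Q` ⇒ `rmap S' (P ∘ α) = Q`,     `rmap S' (P ∘ β) = t • Q`;
* `sp P = inr Q` ⇒ `rmap S' (P ∘ α) = t • Q`, `rmap S' (P ∘ β) = Q`.
-/

set_option autoImplicit false
set_option linter.unusedSectionVars false
set_option linter.unusedVariables false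
set_option linter.style.haveILetI false
set_option synthInstance.maxHeartbeats 400000
set_option maxHeartbeats 1000000

noncomputable section

open AlgebraicCurve ModularCurve Fermat.Agent.Lib.FF Fermat.Agent.S18 Fermat.Agent.S18.GV
open Fermat.Agent.S18.Deuring Fermat.Agent.S34 Fermat.Agent.S34.NodalSp

namespace Fermat.Agent.S35.SpecConc

local notation "Qb" => AlgebraicClosure ℚ

attribute [local instance] Fermat.Agent.S34.C3.neZero_q

/-! ### `V` and the coefficient Frobenius -/

section Frob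

variable (q : ℕ) [hq : Fact q.Prime] (M : ℕ) [NeZero M]
variable (k : Type*) [Field k] [CharP k q] [PerfectField k]

/-- `V (t • a) = a ^ q`, `t` the coefficient Frobenius -/
theorem Vk_frobSL_smul (a : modularFunctionFieldFullC k M) :
    Fermat.Agent.S34.Joint.Vk q M k (Fermat.Agent.S37.G.frobSL k q M • a) = a ^ q := by
  apply Subtype.ext
  rw [Fermat.Agent.S34.Joint.coe_Vk, Fermat.Agent.S37.G.coe_frobSL_smul,
    Fermat.Agent.S34.Joint.pow_q_eq_qExpand]

/-- `V a = (t⁻¹ • a) ^ q` -/
theorem Vk_eq_inv_smul_pow (a : modularFunctionFieldFullC k M) :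
    Fermat.Agent.S34.Joint.Vk q M k a = ((Fermat.Agent.S37.G.frobSL k q M)⁻¹ • a) ^ q := by
  rw [← Vk_frobSL_smul, smul_inv_smul]

/-- `ord_Q (V a) = q · ord_{t • Q} a` -/
theorem ord_Vk (Q : Place k (modularFunctionFieldFullC k M)) (a : modularFunctionFieldFullC k M) :
    Q.ord (Fermat.Agent.S34.Joint.Vk q M k a)
      = (q : ℤ) * (Fermat.Agent.S37.G.frobSL k q M • Q).ord a := by
  rw [Vk_eq_inv_smul_pow, ord_pow']
  have := SemilinearAut.ord_smul (Fermat.Agent.S37.G.frobSL k q M) Q
    ((Fermat.Agent.S37.G.frobSL k q M)⁻¹ • a)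
  rw [smul_inv_smul] at this
  rw [this]

/-- the pole divisor of `J` is stable under the coefficient Frobenius -/
theorem poleDiv_jK_frobSL (hpfk : PlaceFacts k (modularFunctionFieldFullC k M))
    (Q : Place k (modularFunctionFieldFullC k M)) :
    hpfk.poleDiv (jK k M) (Fermat.Agent.S37.G.frobSL k q M • Q) = hpfk.poleDiv (jK k M) Q := by
  rw [hpfk.poleDiv_apply, hpfk.poleDiv_apply]
  have := SemilinearAut.ord_smul (Fermat.Agent.S37.G.frobSL k q M) Q (jK k M)
  rw [Fermat.Agent.S37.G.frobSL, Fermat.Agent.S37.G.semiC_smul_jK] at this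
  rw [Fermat.Agent.S37.G.frobSL, this]

end Frob

/-! ### pole divisors along an embedding -/

section Pole

variable {K F F' : Type*} [Field K] [Field F] [Field F'] [Algebra K F] [Algebra K F']

theorem poleDiv_along (hpf : PlaceFacts K F) (hpf' : PlaceFacts K F') (φ : F →ₐ[K] F')
    (hφ : φ.toRingHom.IsIntegral) (x : F) (w : Place K F') :
    hpf'.poleDiv (φ x) w
      = (Place.ramificationIndexAlong φ w : ℤ) * hpf.poleDiv x (w.restrictAlong φ hφ) := by
  rw [hpf'.poleDiv_apply, hpf.poleDiv_apply, Place.ord_restrictAlong φ hφ]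
  have he : (0 : ℤ) ≤ (Place.ramificationIndexAlong φ w : ℤ) := Int.natCast_nonneg _
  rcases le_total 0 ((w.restrictAlong φ hφ).ord x) with h | h
  · rw [max_eq_right (by nlinarith), max_eq_right (by omega), mul_zero]
  · rw [max_eq_left (by nlinarith), max_eq_left (by omega)]
    ring

theorem ramificationIndexAlong_pos (φ : F →ₐ[K] F') (hφ : φ.toRingHom.IsIntegral)
    (w : Place K F') : 0 < Place.ramificationIndexAlong φ w := by
  letI := algebraAlong φ
  haveI := isIntegral_along φ hφ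
  exact w.ramificationIndex_pos (F := F)

end Pole

/-! ### the main theorem -/

section Main

variable (A : ValuationSubring (AlgebraicClosure ℚ)) (q : ℕ) [hq : Fact q.Prime]
variable (hA : A.LiesOverPrime q) (M : ℕ) [NeZero M] (hqM : ¬ q ∣ M)
variable [Infinite (IsLocalRing.ResidueField A)] [CharP (IsLocalRing.ResidueField A) q]
  [PerfectField (IsLocalRing.ResidueField A)]

variable {Sg : Finset (Place (IsLocalRing.ResidueField A)
        (modularFunctionFieldFullC (IsLocalRing.ResidueField A) M) ×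
      Place (IsLocalRing.ResidueField A)
        (modularFunctionFieldFullC (IsLocalRing.ResidueField A) M))}
  {g g₁ g₂ : ℕ} {c c₁ c₂ : ℤ} {g' : ℕ} {c' : ℤ}
  {sp : Place Qb (modularFunctionFieldBar (M * q)) →
    Place (IsLocalRing.ResidueField A)
        (modularFunctionFieldFullC (IsLocalRing.ResidueField A) M) ⊕
      Place (IsLocalRing.ResidueField A)
        (modularFunctionFieldFullC (IsLocalRing.ResidueField A) M)}

include hA in
/-- **specialisation along `α` and `β`** -/
theorem spec_along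
    (hpfN : PlaceFacts Qb (modularFunctionFieldBar (M * q)))
    (hpfM : PlaceFacts Qb (modularFunctionFieldBar M))
    (hpfk : PlaceFacts (IsLocalRing.ResidueField A)
      (modularFunctionFieldFullC (IsLocalRing.ResidueField A) M))
    (S : Setup2 A (IsLocalRing.residue A) (Fermat.Agent.S34.Joint.Red1 A q M)
      (Fermat.Agent.S34.Joint.Red2 A q M hqM)
      (hpfN.poleDiv (Fermat.Agent.S24.jBar (M * q)) + hpfN.poleDiv (Fermat.Agent.S34.C3.jq q M))
      ((1 + q) • hpfk.poleDiv (jK (IsLocalRing.ResidueField A) M))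
      ((1 + q) • hpfk.poleDiv (jK (IsLocalRing.ResidueField A) M)) Sg g g₁ g₂ c c₁ c₂)
    (hs : SpAx S sp)
    (S' : Setup A (IsLocalRing.residue A) (GV.RedF A M)
      (hpfM.poleDiv (Fermat.Agent.S24.jBar M))
      (hpfk.poleDiv (jK (IsLocalRing.ResidueField A) M)) g' c')
    (P : Place Qb (modularFunctionFieldBar (M * q))) :
    (∀ Q, sp P = Sum.inl Q →
      rmap S' (P.restrictAlong (heckeAlphaBar Qb M q) (Fermat.Agent.S37.H.alphaInt M q)) = Q ∧
      rmap S' (P.restrictAlong (heckeBetaBar Qb M q) (Fermat.Agent.S37.H.betaInt M q))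
        = Fermat.Agent.S37.G.frobSL (IsLocalRing.ResidueField A) q M • Q) ∧
    (∀ Q, sp P = Sum.inr Q →
      rmap S' (P.restrictAlong (heckeAlphaBar Qb M q) (Fermat.Agent.S37.H.alphaInt M q))
        = Fermat.Agent.S37.G.frobSL (IsLocalRing.ResidueField A) q M • Q ∧
      rmap S' (P.restrictAlong (heckeBetaBar Qb M q) (Fermat.Agent.S37.H.betaInt M q)) = Q) := by
  classical
  set t := Fermat.Agent.S37.G.frobSL (IsLocalRing.ResidueField A) q M with ht
  set V := Fermat.Agent.S34.Joint.Vk q M (IsLocalRing.ResidueField A) with hV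
  -- the reductions
  have r1α : ∀ b β', GV.RedF A M b β' →
      Fermat.Agent.S34.Joint.Red1 A q M ((heckeAlphaBar Qb M q).toRingHom b) ((RingHom.id _) β') :=
    fun b β' h => Fermat.Agent.S34.Joint.red1_alpha A q M h
  have r1β : ∀ b β', GV.RedF A M b β' →
      Fermat.Agent.S34.Joint.Red1 A q M ((heckeBetaBar Qb M q).toRingHom b) (V.toRingHom β') :=
    fun b β' h => Fermat.Agent.S34.Joint.red1_beta A q hA M h
  have r2α : ∀ b β', GV.RedF A M b β' →
      Fermat.Agent.S34.Joint.Red2 A q M hqM ((heckeAlphaBar Qb M q).toRingHom b) (V.toRingHom β') :=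
    fun b β' h => Fermat.Agent.S34.Joint.red2_alpha A q hA M hqM h
  have r2β : ∀ b β', GV.RedF A M b β' →
      Fermat.Agent.S34.Joint.Red2 A q M hqM ((heckeBetaBar Qb M q).toRingHom b) ((RingHom.id _) β') :=
    fun b β' h => Fermat.Agent.S34.Joint.red2_beta A q M hqM h
  -- the pole divisors
  have hmα : ∀ (n : ℕ) (b : modularFunctionFieldBar M),
      b ∈ riemannRochSpace (n • hpfM.poleDiv (Fermat.Agent.S24.jBar M)) →
      (heckeAlphaBar Qb M q).toRingHom b ∈ riemannRochSpace (n • hpfN.poleDiv (Fermat.Agent.S24.jBar (M * q))) :=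
    fun n b hb => Fermat.Agent.S34.NP.alpha_mem q M hpfM hpfN n hb
  have hmβ : ∀ (n : ℕ) (b : modularFunctionFieldBar M),
      b ∈ riemannRochSpace (n • hpfM.poleDiv (Fermat.Agent.S24.jBar M)) →
      (heckeBetaBar Qb M q).toRingHom b ∈ riemannRochSpace (n • hpfN.poleDiv (Fermat.Agent.S34.C3.jq q M)) :=
    fun n b hb => Fermat.Agent.S34.NP.beta_mem q M hpfM hpfN n hb
  -- the places
  have hPα : ∀ b, P.ord ((heckeAlphaBar Qb M q).toRingHom b)
      = (Place.ramificationIndexAlong (heckeAlphaBar Qb M q) P : ℤ)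
        * (P.restrictAlong (heckeAlphaBar Qb M q) (Fermat.Agent.S37.H.alphaInt M q)).ord b :=
    fun b => Place.ord_restrictAlong (heckeAlphaBar Qb M q) _ P b
  have hPβ : ∀ b, P.ord ((heckeBetaBar Qb M q).toRingHom b)
      = (Place.ramificationIndexAlong (heckeBetaBar Qb M q) P : ℤ)
        * (P.restrictAlong (heckeBetaBar Qb M q) (Fermat.Agent.S37.H.betaInt M q)).ord b :=
    fun b => Place.ord_restrictAlong (heckeBetaBar Qb M q) _ P b
  have heα := ramificationIndexAlong_pos (heckeAlphaBar Qb M q) (Fermat.Agent.S37.H.alphaInt M q) P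
  have heβ := ramificationIndexAlong_pos (heckeBetaBar Qb M q) (Fermat.Agent.S37.H.betaInt M q) P
  have hPDα : (Place.ramificationIndexAlong (heckeAlphaBar Qb M q) P : ℤ)
      * hpfM.poleDiv (Fermat.Agent.S24.jBar M)
          (P.restrictAlong (heckeAlphaBar Qb M q) (Fermat.Agent.S37.H.alphaInt M q))
      ≤ hpfN.poleDiv (Fermat.Agent.S24.jBar (M * q)) P := by
    have := poleDiv_along hpfM hpfN (heckeAlphaBar Qb M q) (Fermat.Agent.S37.H.alphaInt M q)
      (Fermat.Agent.S24.jBar M) P
    rw [Fermat.Agent.S34.C3.alpha_jBar] at this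
    rw [this]
  have hPDβ : (Place.ramificationIndexAlong (heckeBetaBar Qb M q) P : ℤ)
      * hpfM.poleDiv (Fermat.Agent.S24.jBar M)
          (P.restrictAlong (heckeBetaBar Qb M q) (Fermat.Agent.S37.H.betaInt M q))
      ≤ hpfN.poleDiv (Fermat.Agent.S34.C3.jq q M) P := by
    have := poleDiv_along hpfM hpfN (heckeBetaBar Qb M q) (Fermat.Agent.S37.H.betaInt M q)
      (Fermat.Agent.S24.jBar M) P
    exact le_of_eq this.symm
  -- the residue side
  have hQid : ∀ (Q : Place (IsLocalRing.ResidueField A)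
      (modularFunctionFieldFullC (IsLocalRing.ResidueField A) M))
      (a : modularFunctionFieldFullC (IsLocalRing.ResidueField A) M),
      Q.ord ((RingHom.id _) a) = ((1 : ℕ) : ℤ) * Q.ord a := fun Q a => by
    rw [RingHom.id_apply, Nat.cast_one, one_mul]
  have hQV : ∀ (Q : Place (IsLocalRing.ResidueField A)
      (modularFunctionFieldFullC (IsLocalRing.ResidueField A) M))
      (a : modularFunctionFieldFullC (IsLocalRing.ResidueField A) M),
      Q.ord (V.toRingHom a) = ((q : ℕ) : ℤ) * (t • Q).ord a := fun Q a =>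
    ord_Vk q M (IsLocalRing.ResidueField A) Q a
  have hEt : ∀ Q : Place (IsLocalRing.ResidueField A)
      (modularFunctionFieldFullC (IsLocalRing.ResidueField A) M), hpfk.poleDiv (jK (IsLocalRing.ResidueField A) M) (t • Q)
        = hpfk.poleDiv (jK (IsLocalRing.ResidueField A) M) Q :=
    fun Q => poleDiv_jK_frobSL q M (IsLocalRing.ResidueField A) hpfk Q
  have hQD : ∀ Q : Place (IsLocalRing.ResidueField A)
      (modularFunctionFieldFullC (IsLocalRing.ResidueField A) M),
      ((1 + q) • hpfk.poleDiv (jK (IsLocalRing.ResidueField A) M)) Q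
        ≤ ((1 : ℕ) : ℤ) * hpfk.poleDiv (jK (IsLocalRing.ResidueField A) M) Q
          + ((q : ℕ) : ℤ) * hpfk.poleDiv (jK (IsLocalRing.ResidueField A) M) (t • Q) := fun Q => by
    rw [hEt, Finsupp.smul_apply, nsmul_eq_mul]
    push_cast
    linarith
  have hQD' : ∀ Q : Place (IsLocalRing.ResidueField A)
      (modularFunctionFieldFullC (IsLocalRing.ResidueField A) M),
      ((1 + q) • hpfk.poleDiv (jK (IsLocalRing.ResidueField A) M)) Q
        ≤ ((q : ℕ) : ℤ) * hpfk.poleDiv (jK (IsLocalRing.ResidueField A) M) (t • Q)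
          + ((1 : ℕ) : ℤ) * hpfk.poleDiv (jK (IsLocalRing.ResidueField A) M) Q := fun Q => by
    rw [hEt, Finsupp.smul_apply, nsmul_eq_mul]
    push_cast
    linarith
  have hDαβ : hpfN.poleDiv (Fermat.Agent.S24.jBar (M * q))
      + hpfN.poleDiv (Fermat.Agent.S34.C3.jq q M)
      ≤ hpfN.poleDiv (Fermat.Agent.S24.jBar (M * q))
        + hpfN.poleDiv (Fermat.Agent.S34.C3.jq q M) := le_refl _
  have hDβα : hpfN.poleDiv (Fermat.Agent.S34.C3.jq q M)
      + hpfN.poleDiv (Fermat.Agent.S24.jBar (M * q))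
      ≤ hpfN.poleDiv (Fermat.Agent.S24.jBar (M * q))
        + hpfN.poleDiv (Fermat.Agent.S34.C3.jq q M) := le_of_eq (add_comm _ _)
  refine ⟨fun Q hsp => ⟨?_, ?_⟩, fun Q hsp => ⟨?_, ?_⟩⟩
  · exact Fermat.Agent.S35.SpecAlong.rmap_eq_of_inl S hs S' (heckeAlphaBar Qb M q).toRingHom (heckeBetaBar Qb M q).toRingHom
      (RingHom.id _) V.toRingHom V.toRingHom (RingHom.id _) r1α r2α r1β r2β _ _ hDαβ hmα hmβ hsp
      heα hPα hPDα (hQid Q) (hQV Q) (hQD Q)
  · exact Fermat.Agent.S35.SpecAlong.rmap_eq_of_inl S hs S' (heckeBetaBar Qb M q).toRingHom (heckeAlphaBar Qb M q).toRingHom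
      V.toRingHom (RingHom.id _) (RingHom.id _) V.toRingHom r1β r2β r1α r2α _ _ hDβα hmβ hmα hsp
      heβ hPβ hPDβ (hQV Q) (hQid Q) (hQD' Q)
  · exact Fermat.Agent.S35.SpecAlong.rmap_eq_of_inr S hs S' (heckeAlphaBar Qb M q).toRingHom (heckeBetaBar Qb M q).toRingHom
      (RingHom.id _) V.toRingHom V.toRingHom (RingHom.id _) r1α r2α r1β r2β _ _ hDαβ hmα hmβ hsp
      heα hPα hPDα (hQV Q) (hQid Q) (hQD' Q)
  · exact Fermat.Agent.S35.SpecAlong.rmap_eq_of_inr S hs S' (heckeBetaBar Qb M q).toRingHom (heckeAlphaBar Qb M q).toRingHom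
      V.toRingHom (RingHom.id _) (RingHom.id _) V.toRingHom r1β r2β r1α r2α _ _ hDβα hmβ hmα hsp
      heβ hPβ hPDβ (hQid Q) (hQV Q) (hQD Q)

end Main

end Fermat.Agent.S35.SpecConc
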