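import Fermat.Agent.S35.KeyTw

/-!
# C84 (S35), glue piece (GlueKey): the key identity on `Pic⁰`

`key_pic0`: `ψ` acting on the special fibre through `τ₁, τ₂` (`CompatTw`), `Tor` (`TorStatement`),
`x ∈ Pic⁰(F)` killed by `m` with `m ≠ 0` in `k`, and for every representative `(D₀, f)` of `x`
(`m • D₀ = div f`) the reductions of `f` are `τ_i`-invariant up to `m`-th powers and constants.
Then `ψ • (ψ • x - x) - Q • (ψ • x - x) = 0`, i.e. `(ψ - Q)(ψ - 1) x = 0`.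
-/

set_option autoImplicit false
set_option linter.unusedSectionVars false
set_option linter.style.haveILetI false
set_option linter.unusedVariables false
set_option maxHeartbeats 1000000

open AlgebraicCurve Fermat.Agent.Lib.FF Fermat.Agent.S18.Deuring

namespace Fermat.Agent.S35

open Fermat.Agent.S34

variable {L k F Fk₁ Fk₂ : Type*} [Field L] [Field k] [Field F] [Field Fk₁] [Field Fk₂]
  [Algebra L F] [Algebra k Fk₁] [Algebra k Fk₂]
variable {A : ValuationSubring L} {res : A →+* k} {Red₁ : F → Fk₁ → Prop}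
  {Red₂ : F → Fk₂ → Prop} {D : Divisor L F} {D₁ : Divisor k Fk₁} {D₂ : Divisor k Fk₂}
  {Sg : Finset (Place k Fk₁ × Place k Fk₂)} {g g₁ g₂ : ℕ} {c c₁ c₂ : ℤ}

/-- the hypothesis on a function `f`: its reductions are `τ_i`-invariant up to `m`-th powers -/
def TwInv (A : ValuationSubring L) (Red₁ : F → Fk₁ → Prop) (Red₂ : F → Fk₂ → Prop)
    (τ₁ : SemilinearAut k Fk₁)
    (τ₂ : SemilinearAut k Fk₂) (m : ℕ) (f : F) : Prop :=
  (∀ (c : L) (a : Fk₁), c ≠ 0 → a ≠ 0 → Red₁ (c • f) a →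
      ∃ (e : k) (β : Fk₁), e ≠ 0 ∧ β ≠ 0 ∧ τ₁ • a * a⁻¹ = algebraMap k Fk₁ e * β ^ m) ∧
  (∀ (c : L) (a : Fk₂), c ≠ 0 → a ≠ 0 → Red₂ (c • f) a →
      ∃ (e : k) (β : Fk₂), e ≠ 0 ∧ β ≠ 0 ∧ τ₂ • a * a⁻¹ = algebraMap k Fk₂ e * β ^ m)

/-- **the key identity on `Pic⁰`** -/
theorem key_pic0 (S : Setup2 A res Red₁ Red₂ D D₁ D₂ Sg g g₁ g₂ c c₁ c₂) (Fc : Facts S)
    {Q : ℕ} {ψ : SemilinearAut L F} {τ₁ : SemilinearAut k Fk₁} {τ₂ : SemilinearAut k Fk₂}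
    (hψ : CompatTw A Red₁ Red₂ Sg Q ψ τ₁ τ₂) (htor : TorStatement S Fc Q ψ)
    (m : ℕ) (hm : (m : k) ≠ 0) (x : Pic0 L F) (hx : m • x = 0)
    (hinv : ∀ (D₀ : Divisor.degZero (K := L) (F := F)) (f : F),
      (Pic0.mk D₀ : Pic0 L F) = x → f ≠ 0 →
      (∀ P : Place L F, (m : ℤ) * (D₀ : Divisor L F) P = P.ord f) → TwInv A Red₁ Red₂ τ₁ τ₂ m f) :
    ψ • (ψ • x - x) - Q • (ψ • x - x) = 0 := by
  obtain ⟨D₀, hD₀⟩ := Pic0.mk_surjective x
  subst hD₀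
  -- `m • D₀` is principal
  have h1 : (m • D₀ : Divisor.degZero (K := L) (F := F)) ∈
      (Divisor.principal (K := L) (F := F)).addSubgroupOf
        (Divisor.degZero (K := L) (F := F)) := by
    have : Pic0.mk (m • D₀) = (0 : Pic0 L F) := hx
    exact (QuotientAddGroup.eq_zero_iff _).1 this
  rw [AddSubgroup.mem_addSubgroupOf, AddSubgroupClass.coe_nsmul] at h1
  obtain ⟨f, hf, hfD⟩ := h1
  have hfD' : ∀ P : Place L F, (m : ℤ) * (D₀ : Divisor L F) P = P.ord f := by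
    intro P
    rw [← hfD P, Finsupp.smul_apply, nsmul_eq_mul]
  obtain ⟨hβ₁, hβ₂⟩ := hinv D₀ f rfl hf hfD'
  obtain ⟨s, hs, hsD⟩ := key_tw S Fc hψ htor hm hf hfD' hβ₁ hβ₂
  -- the class
  have e : ψ • (ψ • Pic0.mk D₀ - Pic0.mk D₀) - Q • (ψ • Pic0.mk D₀ - Pic0.mk D₀)
      = Pic0.mk (SemilinearAut.degZeroSMulHom ψ (SemilinearAut.degZeroSMulHom ψ D₀ - D₀)
          - Q • (SemilinearAut.degZeroSMulHom ψ D₀ - D₀)) := by
    rw [SemilinearAut.pic0_smul_mk]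
    show ψ • (Pic0.mk (SemilinearAut.degZeroSMulHom ψ D₀ - D₀))
      - Q • Pic0.mk (SemilinearAut.degZeroSMulHom ψ D₀ - D₀) = _
    rw [SemilinearAut.pic0_smul_mk]
    rfl
  rw [e]
  apply (QuotientAddGroup.eq_zero_iff _).2
  rw [AddSubgroup.mem_addSubgroupOf]
  refine ⟨s, hs, fun P => ?_⟩
  rw [← hsD P]
  rfl

end Fermat.Agent.S35
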