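import Fermat.Agent.S35.SpecDiv
import Fermat.Agent.S35.GlueKey

/-!
# C84 (S35), piece C3c: `TwInv` from the principality of the two push-forwards

`twInv_of_pushforward`: in the setting of `SpecDiv` with `a = restriction along α`,
`b = restriction along β` (two homomorphisms `F' → F` of function fields, all inertia degrees
one), if `m D₀ = div f` and the push-forwards `α_* D₀`, `β_* D₀` are principal divisors of `F'`,
then `TwInv A Red₁ Red₂ (φ * φ) (φ * φ) m f` (the hypothesis `hinv` of `key_pic0`).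
-/

set_option autoImplicit false
set_option linter.unusedSectionVars false
set_option linter.style.haveILetI false
set_option linter.unusedVariables false

open AlgebraicCurve Fermat.Agent.Lib.FF Fermat.Agent.S18.Deuring

namespace Fermat.Agent.S35.SpecDiv

open Fermat.Agent.S34

variable {L k F F' Fk : Type*} [Field L] [Field k] [Field F] [Field F'] [Field Fk]
  [Algebra L F] [Algebra L F'] [Algebra k Fk] [Infinite k]
variable {A : ValuationSubring L} {res : A →+* k} {Red₁ Red₂ : F → Fk → Prop}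
  {Red' : F' → Fk → Prop}
  {D : Divisor L F} {D₁ D₂ : Divisor k Fk}
  {Sg : Finset (Place k Fk × Place k Fk)} {g g₁ g₂ : ℕ} {c c₁ c₂ : ℤ}
  {D' : Divisor L F'} {Dk' : Divisor k Fk} {g' : ℕ} {c' : ℤ}

/-- a principal divisor is the divisor of a function -/
theorem exists_divOf_of_isPrincipal (hpf : PlaceFacts L F') {E : Divisor L F'}
    (hE : E ∈ Divisor.principal (K := L) (F := F')) :
    ∃ u : F', u ≠ 0 ∧ E = hpf.divOf u := by
  obtain ⟨u, hu, h⟩ := hE
  refine ⟨u, hu, ?_⟩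
  ext v
  rw [hpf.divOf_apply, h v]

/-- **C3c**: `TwInv` from the principality of the two push-forwards -/
theorem twInv_of_pushforward (S : Setup2 A res Red₁ Red₂ D D₁ D₂ Sg g g₁ g₂ c c₁ c₂)
    (Fc : Facts S) (S' : Setup A res Red' D' Dk' g' c')
    (α β : F' →ₐ[L] F) (hαi : α.toRingHom.IsIntegral) (hβi : β.toRingHom.IsIntegral)
    (hdegα : ∀ w : Place L F, w.inertiaDegAlong α hαi = 1)
    (hdegβ : ∀ w : Place L F, w.inertiaDegAlong β hβi = 1)
    (φ : SemilinearAut k Fk)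
    (ha₁ : ∀ P Q, Fc.sp P = Sum.inl Q → rmap S' (P.restrictAlong α hαi) = Q)
    (ha₂ : ∀ P Q, Fc.sp P = Sum.inr Q → rmap S' (P.restrictAlong α hαi) = φ • Q)
    (hb₁ : ∀ P Q, Fc.sp P = Sum.inl Q → rmap S' (P.restrictAlong β hβi) = φ • Q)
    (hb₂ : ∀ P Q, Fc.sp P = Sum.inr Q → rmap S' (P.restrictAlong β hβi) = Q)
    (hnode₁ : ∀ p ∈ Sg, (φ * φ) • p.1 = p.1) (hnode₂ : ∀ p ∈ Sg, (φ * φ) • p.2 = p.2)
    {m : ℕ} {f : F} {D₀ : Divisor L F} (hdiv : ∀ P, (m : ℤ) * D₀ P = P.ord f)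
    (hpα : Divisor.pushforwardAlong α hαi D₀ ∈ Divisor.principal (K := L) (F := F'))
    (hpβ : Divisor.pushforwardAlong β hβi D₀ ∈ Divisor.principal (K := L) (F := F')) :
    TwInv A Red₁ Red₂ (φ * φ) (φ * φ) m f := by
  obtain ⟨uα, huα, eα⟩ := exists_divOf_of_isPrincipal S'.hpf hpα
  obtain ⟨uβ, huβ, eβ⟩ := exists_divOf_of_isPrincipal S'.hpf hpβ
  rw [pushforwardAlong_eq_mapDomain α hαi hdegα] at eα
  rw [pushforwardAlong_eq_mapDomain β hβi hdegβ] at eβ
  exact hbeta_of_principal S Fc S' (fun P => P.restrictAlong α hαi)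
    (fun P => P.restrictAlong β hβi) φ ha₁ ha₂ hb₁ hb₂ hnode₁ hnode₂ hdiv huα huβ eα eβ

end Fermat.Agent.S35.SpecDiv
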