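import Fermat.Agent.S35.MovTw
import Fermat.Agent.S35.TwDefs

/-!
# C84 (S35), piece A3: the abstract key identity

`ψ` acting on the special fibre through `τ₁, τ₂` (`CompatTw`), `m • D₀ = div f`, `(m : k) ≠ 0`.
If the reductions `a_i` of the scalings of `f` satisfy `τ_i a_i / a_i = e_i β_i ^ m` (this is what
the vanishing of the two degeneracy push-forwards gives, piece C3), then

  `(ψ - Q)(ψ - 1) D₀ = ψ (ψ D₀ - D₀) - Q (ψ D₀ - D₀)`  is principal,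

by `Mov'` (`MovTw.mov_tw`) and `Tor` (`TorStatement`, piece A2).
-/

set_option autoImplicit false
set_option linter.unusedSectionVars false
set_option linter.style.haveILetI false
set_option linter.unusedVariables false
set_option maxHeartbeats 1000000

open AlgebraicCurve Fermat.Agent.Lib.FF Fermat.Agent.S18.Deuring

namespace Fermat.Agent.S35

open Fermat.Agent.S34

variable {L k F Fk₁ Fk₂ : Type*} [Field L] [Field k] [Field F] [Field Fk₁] [Field Fk₂]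
  [Algebra L F] [Algebra k Fk₁] [Algebra k Fk₂]
variable {A : ValuationSubring L} {res : A →+* k} {Red₁ : F → Fk₁ → Prop}
  {Red₂ : F → Fk₂ → Prop} {D : Divisor L F} {D₁ : Divisor k Fk₁} {D₂ : Divisor k Fk₂}
  {Sg : Finset (Place k Fk₁ × Place k Fk₂)} {g g₁ g₂ : ℕ} {c c₁ c₂ : ℤ}

/-- the reduction of `ψ f / f` in the form `e β ^ m` -/
theorem red_tw_pow {Fk : Type*} [Field Fk] [Algebra k Fk] {Red : F → Fk → Prop}
    (ax : RedAx A res Red) (ψ : SemilinearAut L F) (τ : SemilinearAut k Fk)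
    (hred : ∀ x a, Red x a → Red (ψ • x) (τ • a))
    (hval : ∀ c : L, c ≠ 0 →
      SemilinearAut.baseAut ψ c / c ∈ A ∧ c / SemilinearAut.baseAut ψ c ∈ A)
    {f : F} (hf : f ≠ 0) {m : ℕ}
    (hβ : ∀ (c : L) (a : Fk), c ≠ 0 → a ≠ 0 → Red (c • f) a →
      ∃ (e : k) (β : Fk), e ≠ 0 ∧ β ≠ 0 ∧ τ • a * a⁻¹ = algebraMap k Fk e * β ^ m) :
    ∃ (e : k) (β : Fk), e ≠ 0 ∧ β ≠ 0 ∧ Red (ψ • f * f⁻¹) (algebraMap k Fk e * β ^ m) := by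
  obtain ⟨c, a, e, hc, ha, he, hR, hw⟩ := red_tw_div ax ψ τ hred hval hf
  obtain ⟨e', β, he', hβ0, h⟩ := hβ c a hc ha hR
  refine ⟨e * e', β, mul_ne_zero he he', hβ0, ?_⟩
  rw [h, ← mul_assoc, ← map_mul] at hw
  exact hw

/-- **the abstract key identity**: `(ψ - Q)(ψ - 1) D₀` is principal -/
theorem key_tw (S : Setup2 A res Red₁ Red₂ D D₁ D₂ Sg g g₁ g₂ c c₁ c₂) (Fc : Facts S)
    {Q : ℕ} {ψ : SemilinearAut L F} {τ₁ : SemilinearAut k Fk₁} {τ₂ : SemilinearAut k Fk₂}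
    (hψ : CompatTw A Red₁ Red₂ Sg Q ψ τ₁ τ₂) (htor : TorStatement S Fc Q ψ)
    {m : ℕ} (hm : (m : k) ≠ 0) {f : F} (hf : f ≠ 0) {D₀ : Divisor L F}
    (hdiv : ∀ P, (m : ℤ) * D₀ P = P.ord f)
    (hβ₁ : ∀ (c : L) (a : Fk₁), c ≠ 0 → a ≠ 0 → Red₁ (c • f) a →
      ∃ (e : k) (β : Fk₁), e ≠ 0 ∧ β ≠ 0 ∧ τ₁ • a * a⁻¹ = algebraMap k Fk₁ e * β ^ m)
    (hβ₂ : ∀ (c : L) (a : Fk₂), c ≠ 0 → a ≠ 0 → Red₂ (c • f) a →
      ∃ (e : k) (β : Fk₂), e ≠ 0 ∧ β ≠ 0 ∧ τ₂ • a * a⁻¹ = algebraMap k Fk₂ e * β ^ m) :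
    ∃ s : F, s ≠ 0 ∧ ∀ P, (ψ • (ψ • D₀ - D₀) - Q • (ψ • D₀ - D₀)) P = P.ord s := by
  have ax₁ := S.ax₁
  have ax₂ := S.ax₂
  have hψf : ψ • f ≠ 0 := by
    rw [Ne, Fermat.Agent.S37.G.smul_eq_zero_iff']
    exact hf
  set w : F := ψ • f * f⁻¹ with hw
  have hw0 : w ≠ 0 := mul_ne_zero hψf (inv_ne_zero hf)
  set D' : Divisor L F := ψ • D₀ - D₀ with hD'
  have hdivw : ∀ P, (m : ℤ) * D' P = P.ord w := by
    intro P
    have h1 := SemilinearAut.ord_smul ψ (ψ⁻¹ • P) f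
    rw [smul_inv_smul] at h1
    rw [hD', Finsupp.sub_apply, SemilinearAut.divisor_smul_apply, mul_sub, hdiv, hdiv, hw,
      P.ord_mul hψf (inv_ne_zero hf), P.ord_inv, h1]
    ring
  obtain ⟨e₁, β₁, he₁, hβ₁0, hRw₁⟩ := red_tw_pow ax₁ ψ τ₁ hψ.red₁ hψ.val hf hβ₁
  obtain ⟨e₂, β₂, he₂, hβ₂0, hRw₂⟩ := red_tw_pow ax₂ ψ τ₂ hψ.red₂ hψ.val hf hβ₂
  obtain ⟨E, f₁, s, σ₁, σ₂, hs0, hf₁0, hE, hEnode, hEdiv, hR₁, hR₂, hσ₁, hσ₂, hn₁, hn₂⟩ :=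
    MovTw.mov_tw S Fc hm hw0 hdivw he₁ he₂ hβ₁0 hβ₂0 hRw₁ hRw₂
  obtain ⟨u, hu0, hu⟩ := htor m hm E f₁ e₁ e₂ σ₁ σ₂ he₁ he₂ hσ₁ hσ₂ hf₁0 hEnode hEdiv hR₁ hR₂
    hn₁ hn₂
  have hψs : ψ • s ≠ 0 := by
    rw [Ne, Fermat.Agent.S37.G.smul_eq_zero_iff']
    exact hs0
  refine ⟨u * (s ^ Q * (ψ • s)⁻¹), mul_ne_zero hu0 (mul_ne_zero (pow_ne_zero _ hs0)
    (inv_ne_zero hψs)), fun P => ?_⟩
  have h1 := SemilinearAut.ord_smul ψ (ψ⁻¹ • P) s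
  rw [smul_inv_smul] at h1
  have h2 := hu P
  rw [Finsupp.sub_apply, SemilinearAut.divisor_smul_apply, Finsupp.smul_apply, hE, hE] at h2
  rw [Finsupp.sub_apply, SemilinearAut.divisor_smul_apply, Finsupp.smul_apply,
    P.ord_mul hu0 (mul_ne_zero (pow_ne_zero _ hs0) (inv_ne_zero hψs)),
    P.ord_mul (pow_ne_zero _ hs0) (inv_ne_zero hψs), P.ord_inv, ord_pow', h1, ← h2]
  simp only [nsmul_eq_mul]
  ring

end Fermat.Agent.S35
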