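import Fermat.Agent.S35.Tor
import Fermat.Agent.S35.KeyTw

/-!
# C84 (S35), piece A2 (`Tor`), in the form of the contract `TorStatement`

* `hasValue_smul` : a semilinear automorphism transports the values;
* `tor_core`      : `Tor` from the minimal hypotheses on `ψ`;
* `tor_tw`        : `CompatTw` and `NodeStable` imply `TorStatement`.
-/

set_option autoImplicit false
set_option linter.unusedSectionVars false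
set_option linter.unusedVariables false
set_option linter.style.haveILetI false
set_option maxHeartbeats 1000000

open AlgebraicCurve Fermat.Agent.Lib.FF Fermat.Agent.S18.Deuring Fermat.Agent.S34
open Fermat.Agent.S34.NodalSp Fermat.Agent.S34.NodalR5 Fermat.Agent.S34.Nodal
open scoped Classical

namespace Fermat.Agent.S35.TorTw

variable {L k F Fk₁ Fk₂ : Type*} [Field L] [Field k] [Field F] [Field Fk₁] [Field Fk₂]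
  [Algebra L F] [Algebra k Fk₁] [Algebra k Fk₂]
variable {A : ValuationSubring L} {res : A →+* k} {Red₁ : F → Fk₁ → Prop}
  {Red₂ : F → Fk₂ → Prop} {D : Divisor L F} {D₁ : Divisor k Fk₁} {D₂ : Divisor k Fk₂}
  {Sg : Finset (Place k Fk₁ × Place k Fk₂)} {g g₁ g₂ : ℕ} {c c₁ c₂ : ℤ}
variable {S : Setup2 A res Red₁ Red₂ D D₁ D₂ Sg g g₁ g₂ c c₁ c₂}
  {sp : Place L F → Place k Fk₁ ⊕ Place k Fk₂}

/-- a semilinear automorphism transports the values -/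
theorem hasValue_smul {Fk : Type*} [Field Fk] [Algebra k Fk] (τ : SemilinearAut k Fk)
    {x : Place k Fk} {φ : Fk} {v : k} (h : Nodal.HasValue x φ v) :
    Nodal.HasValue (τ • x) (τ • φ) (SemilinearAut.baseAut τ v) := by
  obtain ⟨hm, he⟩ := h
  have hm' : τ • φ ∈ (τ • x).toValuationSubring :=
    ValuationSubring.smul_mem_pointwise_smul τ φ x.toValuationSubring hm
  refine ⟨hm', ?_⟩
  have h1 := SemilinearAut.smulResidueRingEquiv_algebraMap τ x v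
  rw [← he] at h1
  rw [← h1]
  rfl

/-- the values at a fixed point are raised to the power `Q` -/
theorem hasValue_smul_of_fixed {Fk : Type*} [Field Fk] [Algebra k Fk] (τ : SemilinearAut k Fk)
    {Q : ℕ} (hbase : ∀ u : k, SemilinearAut.baseAut τ u = u ^ Q)
    {x : Place k Fk} (hx : τ • x = x) {φ : Fk} {v : k} (h : Nodal.HasValue x φ v) :
    Nodal.HasValue x (τ • φ) (v ^ Q) := by
  have h1 := hasValue_smul τ h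
  rwa [hx, hbase] at h1

variable {Q : ℕ} {ψ : SemilinearAut L F}

/-- **`Tor`** from the minimal hypotheses -/
theorem tor_core [Infinite k] (hB : BarAx S sp) {Φ₁ : Fk₁ ≃+* Fk₁} {Φ₂ : Fk₂ ≃+* Fk₂}
    (hred₁ : ∀ x a, Red₁ x a → Red₁ (ψ • x) (Φ₁ a))
    (hred₂ : ∀ x a, Red₂ x a → Red₂ (ψ • x) (Φ₂ a))
    (hconst₁ : ∀ e : k, Φ₁ (algebraMap k Fk₁ e) = algebraMap k Fk₁ (e ^ Q))
    (hconst₂ : ∀ e : k, Φ₂ (algebraMap k Fk₂ e) = algebraMap k Fk₂ (e ^ Q))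
    (hnode₁ : ∀ p ∈ Sg, ∀ (a : Fk₁) (v : k), Nodal.HasValue p.1 a v →
      Nodal.HasValue p.1 (Φ₁ a) (v ^ Q))
    (hnode₂ : ∀ p ∈ Sg, ∀ (a : Fk₂) (v : k), Nodal.HasValue p.2 a v →
      Nodal.HasValue p.2 (Φ₂ a) (v ^ Q))
    (hns : ∀ P, ∀ p ∈ Sg, sp P = Sum.inl p.1 → sp (ψ⁻¹ • P) = Sum.inl p.1)
    {m : ℕ} (hm : (m : k) ≠ 0) {E : Divisor L F} {f₁ : F} {e₁ e₂ : k} {τ₁ : Fk₁} {τ₂ : Fk₂}
    (he₁ : e₁ ≠ 0) (he₂ : e₂ ≠ 0)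
    (hE : ∀ P, ∀ p ∈ Sg, sp P = Sum.inl p.1 → E P = 0)
    (hdiv : ∀ P, (m : ℤ) * E P = P.ord f₁)
    (h₁ : Red₁ f₁ (algebraMap k Fk₁ e₁ * τ₁ ^ m)) (h₂ : Red₂ f₁ (algebraMap k Fk₂ e₂ * τ₂ ^ m))
    (hτ₁ : τ₁ ≠ 0) (hτ₂ : τ₂ ≠ 0) (ho₁ : ∀ p ∈ Sg, p.1.ord τ₁ = 0)
    (ho₂ : ∀ p ∈ Sg, p.2.ord τ₂ = 0) :
    ∃ s : F, s ≠ 0 ∧ ∀ P, (ψ • E - Q • E) P = P.ord s := by
  have ax₁ := S.ax₁
  have ax₂ := S.ax₂
  have hs := hB.spAx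
  have heF₁ : algebraMap k Fk₁ e₁ ≠ 0 := (map_ne_zero _).mpr he₁
  have heF₂ : algebraMap k Fk₂ e₂ ≠ 0 := (map_ne_zero _).mpr he₂
  have ha₁ : algebraMap k Fk₁ e₁ * τ₁ ^ m ≠ 0 := mul_ne_zero heF₁ (pow_ne_zero _ hτ₁)
  have ha₂ : algebraMap k Fk₂ e₂ * τ₂ ^ m ≠ 0 := mul_ne_zero heF₂ (pow_ne_zero _ hτ₂)
  have hf₁0 : f₁ ≠ 0 := ax₁.ne_zero h₁ ha₁
  have hΦτ₁ : Φ₁ τ₁ ≠ 0 := (map_ne_zero_iff _ Φ₁.injective).mpr hτ₁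
  have hΦτ₂ : Φ₂ τ₂ ≠ 0 := (map_ne_zero_iff _ Φ₂.injective).mpr hτ₂
  -- the pair `(w₁, w₂)`
  set w₁ : Fk₁ := Φ₁ τ₁ * (τ₁ ^ Q)⁻¹ with hw₁def
  set w₂ : Fk₂ := Φ₂ τ₂ * (τ₂ ^ Q)⁻¹ with hw₂def
  have hw₁0 : w₁ ≠ 0 := mul_ne_zero hΦτ₁ (inv_ne_zero (pow_ne_zero _ hτ₁))
  have hw₂0 : w₂ ≠ 0 := mul_ne_zero hΦτ₂ (inv_ne_zero (pow_ne_zero _ hτ₂))
  obtain ⟨u, hu0, hu₁, hu₂, huord⟩ := Tor.exists_lift_units hs hw₁0 hw₂0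
    (fun p hp => Tor.hasValue_frob_div S.hpf₁ hτ₁ (ho₁ p hp) (hnode₁ p hp))
    (fun p hp => Tor.hasValue_frob_div S.hpf₂ hτ₂ (ho₂ p hp) (hnode₂ p hp))
  -- the function `f₃`
  have hψf0 : ψ • f₁ ≠ 0 := (smul_ne_zero_iff_ne ψ).mpr hf₁0
  set f₃ : F := (ψ • f₁) * (f₁ ^ Q)⁻¹ * (u ^ m)⁻¹ with hf₃def
  have hR₁ : Red₁ f₃ 1 := by
    have h3 := ax₁.mul (ax₁.mul (hred₁ _ _ h₁) (ax₁.inv (ax₁.pow h₁ Q) (pow_ne_zero _ ha₁)))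
      (ax₁.inv (ax₁.pow hu₁ m) (pow_ne_zero _ hw₁0))
    have e : Φ₁ (algebraMap k Fk₁ e₁ * τ₁ ^ m) * ((algebraMap k Fk₁ e₁ * τ₁ ^ m) ^ Q)⁻¹
        * (w₁ ^ m)⁻¹ = 1 := by
      rw [map_mul, map_pow, hconst₁, hw₁def, map_pow]
      exact Tor.frob_algebra (pow_ne_zero _ heF₁) hΦτ₁ hτ₁ m Q rfl
    rwa [e] at h3
  have hR₂ : Red₂ f₃ 1 := by
    have h3 := ax₂.mul (ax₂.mul (hred₂ _ _ h₂) (ax₂.inv (ax₂.pow h₂ Q) (pow_ne_zero _ ha₂)))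
      (ax₂.inv (ax₂.pow hu₂ m) (pow_ne_zero _ hw₂0))
    have e : Φ₂ (algebraMap k Fk₂ e₂ * τ₂ ^ m) * ((algebraMap k Fk₂ e₂ * τ₂ ^ m) ^ Q)⁻¹
        * (w₂ ^ m)⁻¹ = 1 := by
      rw [map_mul, map_pow, hconst₂, hw₂def, map_pow]
      exact Tor.frob_algebra (pow_ne_zero _ heF₂) hΦτ₂ hτ₂ m Q rfl
    rwa [e] at h3
  -- the divisor
  set D₀ : Divisor L F := ψ • E - Q • E - S.hpf.divOf u with hD₀
  have hordψ : ∀ P : Place L F, P.ord (ψ • f₁) = (m : ℤ) * (ψ • E) P := by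
    intro P
    have h3 := SemilinearAut.ord_smul ψ (ψ⁻¹ • P) f₁
    rw [smul_inv_smul] at h3
    rw [h3, SemilinearAut.divisor_smul_apply, hdiv]
  have hdiv₀ : ∀ P, (m : ℤ) * D₀ P = P.ord f₃ := by
    intro P
    rw [hf₃def, P.ord_mul (mul_ne_zero hψf0 (inv_ne_zero (pow_ne_zero _ hf₁0)))
      (inv_ne_zero (pow_ne_zero _ hu0)), P.ord_mul hψf0 (inv_ne_zero (pow_ne_zero _ hf₁0)),
      P.ord_inv, P.ord_inv, ord_pow', ord_pow', hordψ, ← hdiv, hD₀, Finsupp.sub_apply,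
      Finsupp.sub_apply, Finsupp.smul_apply, S.hpf.divOf_apply, nsmul_eq_mul]
    ring
  have hsm : ∀ P, D₀ P ≠ 0 → ∀ p ∈ Sg, (factsOfBarAx hB).sp P ≠ Sum.inl p.1 := by
    intro P hP p hp hsp
    apply hP
    have hsp' : sp P = Sum.inl p.1 := hsp
    rw [hD₀, Finsupp.sub_apply, Finsupp.sub_apply, Finsupp.smul_apply, S.hpf.divOf_apply,
      SemilinearAut.divisor_smul_apply, hE P p hp hsp',
      hE _ p hp (hns P p hp hsp'), huord P p hp hsp']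
    simp
  obtain ⟨s, hs0, hsD⟩ := NodalInj.star_nodal (factsOfBarAx hB) hR₁ hR₂ D₀ hsm m hm hdiv₀
  refine ⟨s * u, mul_ne_zero hs0 hu0, fun P => ?_⟩
  have h4 := hsD P
  rw [hD₀, Finsupp.sub_apply, S.hpf.divOf_apply] at h4
  rw [P.ord_mul hs0 hu0, ← h4]
  ring

variable {τ₁ : SemilinearAut k Fk₁} {τ₂ : SemilinearAut k Fk₂}

/-- **`Tor` in the form of the contract**: `CompatTw` and `NodeStable` imply `TorStatement` -/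
theorem tor_tw [Infinite k] (hB : BarAx S sp) (hψ : CompatTw A Red₁ Red₂ Sg Q ψ τ₁ τ₂)
    (hns : NodeStable (factsOfBarAx hB) ψ) : TorStatement S (factsOfBarAx hB) Q ψ := by
  intro m hm E f₁ e₁ e₂ σ₁ σ₂ he₁ he₂ hσ₁ hσ₂ hf₁0 hEnode hEdiv hR₁ hR₂ hn₁ hn₂
  exact tor_core hB (Φ₁ := SemilinearAut.toRingAut τ₁) (Φ₂ := SemilinearAut.toRingAut τ₂)
    hψ.red₁ hψ.red₂
    (fun e => by
      have := SemilinearAut.smul_algebraMap τ₁ e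
      rw [hψ.base₁] at this
      exact this)
    (fun e => by
      have := SemilinearAut.smul_algebraMap τ₂ e
      rw [hψ.base₂] at this
      exact this)
    (fun p hp a v hv => hasValue_smul_of_fixed τ₁ hψ.base₁ (hψ.node₁ p hp) hv)
    (fun p hp a v hv => hasValue_smul_of_fixed τ₂ hψ.base₂ (hψ.node₂ p hp) hv)
    hns hm he₁ he₂ hEnode hEdiv hR₁ hR₂ hσ₁ hσ₂ hn₁ hn₂

/-- the orders at a fixed point are preserved -/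
theorem ord_smul_of_fixed {Fk : Type*} [Field Fk] [Algebra k Fk] (τ : SemilinearAut k Fk)
    {x : Place k Fk} (hx : τ • x = x) (a : Fk) : x.ord (τ • a) = x.ord a := by
  have h1 := SemilinearAut.ord_smul τ x a
  rwa [hx] at h1

/-- **`NodeStable`** from `CompatTw` and `ψ • D = D` -/
theorem nodeStable_of_fixD [Infinite k] (hB : BarAx S sp)
    (hψ : CompatTw A Red₁ Red₂ Sg Q ψ τ₁ τ₂) (hD : ψ • D = D) :
    NodeStable (factsOfBarAx hB) ψ := by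
  intro P p hp hP
  have hs := hB.spAx
  have hP' : sp P = Sum.inl p.1 := hP
  show sp (ψ⁻¹ • P) = Sum.inl p.1
  by_contra hne
  obtain ⟨n, x, a₁, a₂, hx, hx₁, hx₂, hex⟩ :=
    hs.sep (y := Sum.inl p.1) (fun _ _ => Sum.inl_ne_inr) hne
  have hv := hs.van (smul_inv_mem_rrSpace_sub_single hD hx) (hψ.red₁ _ _ hx₁)
    (hψ.red₂ _ _ hx₂)
  rw [hP'] at hv
  apply hv
  obtain ⟨h0, h1⟩ := hex
  exact ⟨(smul_ne_zero_iff_ne τ₁).mpr h0, by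
    rw [ord_smul_of_fixed τ₁ (hψ.node₁ p hp), h1]⟩

/-- the contract for the specialisation of `Setup2` -/
theorem tor_tw_setup2 [Infinite k] (S : Setup2 A res Red₁ Red₂ D D₁ D₂ Sg g g₁ g₂ c c₁ c₂)
    (hψ : CompatTw A Red₁ Red₂ Sg Q ψ τ₁ τ₂)
    (hns : NodeStable (Nodal.factsOfSetup2 S) ψ) :
    TorStatement S (Nodal.factsOfSetup2 S) Q ψ :=
  tor_tw (Nodal.barAx S) hψ hns

/-- **the key identity for `Setup2`**: `(ψ - Q)(ψ - 1) D₀` is principal -/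
theorem key_tw_setup2 [Infinite k] (S : Setup2 A res Red₁ Red₂ D D₁ D₂ Sg g g₁ g₂ c c₁ c₂)
    (hψ : CompatTw A Red₁ Red₂ Sg Q ψ τ₁ τ₂)
    (hns : NodeStable (Nodal.factsOfSetup2 S) ψ)
    {m : ℕ} (hm : (m : k) ≠ 0) {f : F} (hf : f ≠ 0) {D₀ : Divisor L F}
    (hdiv : ∀ P, (m : ℤ) * D₀ P = P.ord f)
    (hβ₁ : ∀ (c : L) (a : Fk₁), c ≠ 0 → a ≠ 0 → Red₁ (c • f) a →
      ∃ (e : k) (β : Fk₁), e ≠ 0 ∧ β ≠ 0 ∧ τ₁ • a * a⁻¹ = algebraMap k Fk₁ e * β ^ m)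
    (hβ₂ : ∀ (c : L) (a : Fk₂), c ≠ 0 → a ≠ 0 → Red₂ (c • f) a →
      ∃ (e : k) (β : Fk₂), e ≠ 0 ∧ β ≠ 0 ∧ τ₂ • a * a⁻¹ = algebraMap k Fk₂ e * β ^ m) :
    ∃ s : F, s ≠ 0 ∧ ∀ P, (ψ • (ψ • D₀ - D₀) - Q • (ψ • D₀ - D₀)) P = P.ord s :=
  key_tw S (Nodal.factsOfSetup2 S) hψ (tor_tw_setup2 S hψ hns) hm hf hdiv hβ₁ hβ₂

/-- **the key identity for `Setup2`**, with `ψ • D = D` instead of `NodeStable` -/
theorem key_tw_of_fixD [Infinite k] (S : Setup2 A res Red₁ Red₂ D D₁ D₂ Sg g g₁ g₂ c c₁ c₂)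
    (hψ : CompatTw A Red₁ Red₂ Sg Q ψ τ₁ τ₂) (hD : ψ • D = D)
    {m : ℕ} (hm : (m : k) ≠ 0) {f : F} (hf : f ≠ 0) {D₀ : Divisor L F}
    (hdiv : ∀ P, (m : ℤ) * D₀ P = P.ord f)
    (hβ₁ : ∀ (c : L) (a : Fk₁), c ≠ 0 → a ≠ 0 → Red₁ (c • f) a →
      ∃ (e : k) (β : Fk₁), e ≠ 0 ∧ β ≠ 0 ∧ τ₁ • a * a⁻¹ = algebraMap k Fk₁ e * β ^ m)
    (hβ₂ : ∀ (c : L) (a : Fk₂), c ≠ 0 → a ≠ 0 → Red₂ (c • f) a →
      ∃ (e : k) (β : Fk₂), e ≠ 0 ∧ β ≠ 0 ∧ τ₂ • a * a⁻¹ = algebraMap k Fk₂ e * β ^ m) :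
    ∃ s : F, s ≠ 0 ∧ ∀ P, (ψ • (ψ • D₀ - D₀) - Q • (ψ • D₀ - D₀)) P = P.ord s :=
  key_tw_setup2 S hψ (nodeStable_of_fixD (Nodal.barAx S) hψ hD) hm hf hdiv hβ₁ hβ₂

end Fermat.Agent.S35.TorTw
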