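import Fermat.Agent.S35.GlueKeyJ
import Fermat.Agent.S35.TorTw
import Fermat.Agent.S35.FrobRed
import Fermat.Agent.S35.SpecConc
import Fermat.Agent.S35.SpecTw
import Fermat.Agent.S35.NewDef
import Fermat.Agent.S34.InputFin
import Fermat.Agent.S34.CondConc
import Fermat.Agent.S37.RedInjM

/-!
# C84 (S35): the assembly of the core `Core35 q (New q)`

Level `M * q`, `q` prime, `q ∤ M`, `4 ∣ M` or `9 ∣ M`, `A` a valuation ring of `ℚ̄` over `q`.

* the instance of `Setup2` of S34 (`InputAsm.exists_setup2`, conductor `CondC.condInput'`);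
* `CompatTw` for `ψ = arithmeticGalois (φ * φ)`, `τ₁ = τ₂ = frobK ^ 2` (`FrobRed`);
* `TorStatement` (`TorTw.tor_tw_setup2`, `TorTw.nodeStable_of_fixD`);
* `TwInv` for the new points (`SpecDiv.twInv_of_pushforward`, `SpecConc.spec_along`,
  the good reduction `S37.R.exists_setup` at the level `M`);

* `core_at` : the core at the level `M * q`;
* `core35`  : `Core35 q (NewDef.New q)`.
-/

set_option autoImplicit false
set_option linter.unusedSectionVars false
set_option linter.unusedVariables false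
set_option linter.style.haveILetI false
set_option synthInstance.maxHeartbeats 400000
set_option maxHeartbeats 1000000

noncomputable section

namespace Fermat.Agent.S35.CoreAsm35

open AlgebraicCurve ModularCurve Fermat.Agent.Lib.FF Fermat.Agent.S18 Fermat.Agent.S18.GV
open Fermat.Agent.S18.Deuring Fermat.Agent.S34 Fermat.Agent.S34.Nodal
open Fermat.Agent.S34.InputAsm

local notation "Qb" => AlgebraicClosure ℚ
local notation "Gal" => (AlgebraicClosure ℚ ≃ₐ[ℚ] AlgebraicClosure ℚ)

local instance isAlgebraicQbCoreAsm35 : Algebra.IsAlgebraic ℚ (AlgebraicClosure ℚ) :=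
  AlgebraicClosure.isAlgebraic ℚ

variable (A : ValuationSubring (AlgebraicClosure ℚ)) (q : ℕ) [hq : Fact q.Prime]
variable (hA : A.LiesOverPrime q) (M : ℕ) [NeZero M] (hqM : ¬ q ∣ M)

attribute [local instance] C3.neZero_q

/-- what the concrete side delivers at the level `M * q` for a given instance of `Setup2` -/
def CoreAt {Sg : Finset (Place (IsLocalRing.ResidueField A)
      (modularFunctionFieldFullC (IsLocalRing.ResidueField A) M) ×
      Place (IsLocalRing.ResidueField A)
      (modularFunctionFieldFullC (IsLocalRing.ResidueField A) M))}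
    {g g₁ g₂ : ℕ} {c c₁ c₂ : ℤ}
    (S : Setup2 A (IsLocalRing.residue A) (Joint.Red1 A q M) (Joint.Red2 A q M hqM)
      (Dsym q M) ((1 + q) • EJ A q hA M) ((1 + q) • EJ A q hA M) Sg g g₁ g₂ c c₁ c₂)
    (Fc : Facts S) : Prop :=
  (∀ φ : Gal, A.IsFrobeniusAt φ q →
    CompatTw A (Joint.Red1 A q M) (Joint.Red2 A q M hqM) Sg (q ^ 2)
        (arithmeticGalois (modularFunctionFieldFull (M * q)) (φ * φ))
        ((FrobRed.frobK A q hA M) ^ 2) ((FrobRed.frobK A q hA M) ^ 2) ∧
      TorStatement S Fc (q ^ 2)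
        (arithmeticGalois (modularFunctionFieldFull (M * q)) (φ * φ))) ∧
  ∀ (m : ℕ), ((m : ℕ) : IsLocalRing.ResidueField A) ≠ 0 →
    ∀ (D₀ : Divisor Qb (modularFunctionFieldBar (M * q))) (f : modularFunctionFieldBar (M * q)),
      (∀ Pl : Place Qb (modularFunctionFieldBar (M * q)), (m : ℤ) * D₀ Pl = Pl.ord f) →
      Divisor.pushforwardAlong (heckeAlphaBar Qb M q) (Fermat.Agent.S37.H.alphaInt M q) D₀ ∈
        Divisor.principal (K := Qb) (F := modularFunctionFieldBar M) →
      Divisor.pushforwardAlong (heckeBetaBar Qb M q) (Fermat.Agent.S37.H.betaInt M q) D₀ ∈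
        Divisor.principal (K := Qb) (F := modularFunctionFieldBar M) →
      TwInv A (Joint.Red1 A q M) (Joint.Red2 A q M hqM)
        ((FrobRed.frobK A q hA M) ^ 2) ((FrobRed.frobK A q hA M) ^ 2) m f

include hA hqM in
/-- **the core for any instance of `Setup2`** of the concrete reductions -/
theorem coreAt_of_setup2 (h49 : 4 ∣ M ∨ 9 ∣ M)
    {Sg : Finset (Place (IsLocalRing.ResidueField A)
      (modularFunctionFieldFullC (IsLocalRing.ResidueField A) M) ×
      Place (IsLocalRing.ResidueField A)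
      (modularFunctionFieldFullC (IsLocalRing.ResidueField A) M))}
    {g g₁ g₂ : ℕ} {c c₁ c₂ : ℤ}
    (S : Setup2 A (IsLocalRing.residue A) (Joint.Red1 A q M) (Joint.Red2 A q M hqM)
      (Dsym q M) ((1 + q) • EJ A q hA M) ((1 + q) • EJ A q hA M) Sg g g₁ g₂ c c₁ c₂)
    [Infinite (IsLocalRing.ResidueField A)] :
    CoreAt A q hA M hqM S (Nodal.factsOfSetup2 S) := by
  haveI := GV.charP_residueField A q hA
  haveI := Fermat.Agent.S18.ResClosed.perfectField_residueField A
  constructor
  · intro φ hφ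
    have hC := FrobRed.compatTw_frob_mul A q hA M hqM h49 S hφ
    refine ⟨hC, ?_⟩
    exact TorTw.tor_tw_setup2 S hC
      (TorTw.nodeStable_of_fixD (Nodal.barAx S) hC (FrobRed.frob_mul_smul_dsym q M hqM φ))
  · intro m hm D₀ f hdiv hpα hpβ
    obtain ⟨g', c', -, S'⟩ := Fermat.Agent.S37.R.exists_setup A q hA M hqM h49
    have hspec := fun P => SpecConc.spec_along A q hA M hqM (C3.placeFacts_N q M)
      (Final.placeFacts_bar M) (C3.placeFacts_k A q hA M) S (Nodal.spAx S) S' P
    have key := SpecDiv.twInv_of_pushforward S (Nodal.factsOfSetup2 S) S'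
      (heckeAlphaBar Qb M q) (heckeBetaBar Qb M q)
      (Fermat.Agent.S37.H.alphaInt M q) (Fermat.Agent.S37.H.betaInt M q)
      (fun w => Fermat.Agent.S37.H.inertiaDegAlong_eq_one (Fermat.Agent.S24.isFF1_jBar M)
        (Fermat.Agent.S24.isFF1_jBar (M * q)) _ _ w)
      (fun w => Fermat.Agent.S37.H.inertiaDegAlong_eq_one (Fermat.Agent.S24.isFF1_jBar M)
        (Fermat.Agent.S24.isFF1_jBar (M * q)) _ _ w)
      (FrobRed.frobK A q hA M)
      (fun P Q h => ((hspec P).1 Q h).1)
      (fun P Q h => ((hspec P).2 Q h).1)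
      (fun P Q h => ((hspec P).1 Q h).2)
      (fun P Q h => ((hspec P).2 Q h).2)
      (fun p hp => by
        have := FrobRed.frobK_sq_node₁ A q hA M hqM h49 S hp
        rwa [pow_two] at this)
      (fun p hp => by
        have := FrobRed.frobK_sq_node₂ A q hA M hqM h49 S hp
        rwa [pow_two] at this)
      hdiv hpα hpβ
    rw [pow_two]
    exact key

include hA hqM in
/-- **the core at the level `M * q`** -/
theorem core_at (h49 : 4 ∣ M ∨ 9 ∣ M) :
    ∃ (Sg : Finset (Place (IsLocalRing.ResidueField A)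
        (modularFunctionFieldFullC (IsLocalRing.ResidueField A) M) ×
        Place (IsLocalRing.ResidueField A)
        (modularFunctionFieldFullC (IsLocalRing.ResidueField A) M)))
      (g g₁ : ℕ) (c c₁ : ℤ)
      (S : Setup2 A (IsLocalRing.residue A) (Joint.Red1 A q M) (Joint.Red2 A q M hqM)
        (Dsym q M) ((1 + q) • EJ A q hA M) ((1 + q) • EJ A q hA M) Sg g g₁ g₁ c c₁ c₁)
      (Fc : Facts S), CoreAt A q hA M hqM S Fc := by
  haveI : IsAlgClosed (IsLocalRing.ResidueField A) :=
    Fermat.Agent.S18.ResClosed.isAlgClosed_residueField A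
  haveI : Infinite (IsLocalRing.ResidueField A) := IsAlgClosed.instInfinite
  obtain ⟨Sg, g, g₁, c, c₁, ⟨S⟩⟩ := InputAsm.exists_setup2 A q hA M hqM h49
    (InputFin.h1Input A q hA M hqM) (Joint.jointFin A q hA M hqM)
    (CondC.condInput' A q hA M hqM h49)
  exact ⟨Sg, g, g₁, c, c₁, S, Nodal.factsOfSetup2 S, coreAt_of_setup2 A q hA M hqM h49 S⟩

omit hq in
/-- **the core of C84**: `Core35 q (New q)` -/
theorem core35 (q : ℕ) [NeZero q] (hq : q.Prime) : Core35 q (NewDef.New q) := by
  intro M _ h49 hqM hq2 P hP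
  obtain ⟨N, hN⟩ : ∃ N, M = N * q := ⟨M / q, (Nat.div_mul_cancel hqM).symm⟩
  subst hN
  haveI : Fact q.Prime := ⟨hq⟩
  have hqN : ¬ q ∣ N := CoreAsm.not_dvd_of_not_sq_dvd hq2
  have h49' : 4 ∣ N ∨ 9 ∣ N := CoreAsm.four_or_nine_dvd hq hqN h49
  haveI iN : NeZero N := ⟨left_ne_zero_of_mul (NeZero.ne (N * q))⟩
  obtain ⟨Sg, g, g₁, c, c₁, S, Fc, hcore, hinv⟩ := core_at P q hP N hqN h49'
  refine ⟨modularFunctionFieldFullC (IsLocalRing.ResidueField P) N,
    modularFunctionFieldFullC (IsLocalRing.ResidueField P) N, inferInstance, inferInstance,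
    inferInstance, inferInstance, Joint.Red1 P q N, Joint.Red2 P q N hqN, Dsym q N,
    (1 + q) • EJ P q hP N, (1 + q) • EJ P q hP N, Sg, g, g₁, g₁, c, c₁, c₁, S, Fc,
    (FrobRed.frobK P q hP N) ^ 2, (FrobRed.frobK P q hP N) ^ 2, hcore, ?_⟩
  intro m hm x hx hnew D₀ f hD₀ hf hdiv
  obtain ⟨hpα, hpβ⟩ := NewDef.new_pushforward hnew D₀ hD₀
  exact hinv m hm D₀ f hdiv hpα hpβ

end Fermat.Agent.S35.CoreAsm35
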