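import Mathlib
import Fermat.Agent.S29.ThetaJ
import Fermat.Agent.S41.DegenLam

/-!
# C84 (S35), piece C6 (Bridge), part 1: the product of a function with character along a coset
family

For a coset family `F : CosetFam H G X` (`r x * g = κ g x * r (x · g)`, `r x ∈ GL₂⁺(ℝ)`) and a
meromorphic function `h` on `ℍ` with `h ∘ η = χ(η) h` for `η ∈ H`, the product
`famProd F h = ∏_x h ∘ r x` satisfies `(famProd F h) ∘ g = (∏_x χ (κ g x)) famProd F h` for `g ∈ G`.
For `χ = χ_c` this is the character of `F.op c` (the transfer of `c` along `F`).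
-/

set_option autoImplicit false
set_option linter.unusedSectionVars false
set_option linter.unusedVariables false
set_option linter.style.haveILetI false

open UpperHalfPlane CongruenceSubgroup Matrix.SpecialLinearGroup AlgebraicCurve
open scoped MatrixGroups
open Fermat.Agent.Lib.ModC Fermat.Agent.Lib.ModCK Fermat.Agent.S29.D1 Fermat.Agent.S29.D2
  Fermat.Agent.S29.D3 Fermat.Agent.S41.P3

noncomputable section

namespace Fermat.Agent.S35.Bridge

variable {H G : Subgroup SL(2, ℤ)} {X : Type*} [Fintype X]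

/-- the product of the translates of `h` along a coset family -/
def famProd (F : CosetFam H G X) (hdet : ∀ x, 0 < (F.r x).det.val) (h : Mer) : Mer :=
  ∏ x : X, merPre (F.r x) (hdet x) h

theorem famProd_pow (F : CosetFam H G X) (hdet : ∀ x, 0 < (F.r x).det.val) (h : Mer) (n : ℕ) :
    famProd F hdet (h ^ n) = famProd F hdet h ^ n := by
  unfold famProd
  rw [← Finset.prod_pow]
  exact Finset.prod_congr rfl fun x _ => map_pow _ _ _

theorem famProd_ne_zero (F : CosetFam H G X) (hdet : ∀ x, 0 < (F.r x).det.val) {h : Mer}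
    (hh : h ≠ 0) : famProd F hdet h ≠ 0 := by
  unfold famProd
  rw [Finset.prod_ne_zero_iff]
  intro x _
  exact (map_ne_zero_iff _ (merPre (F.r x) (hdet x)).injective).mpr hh

/-- `(h ∘ r x) ∘ g = (h ∘ κ(g, x)) ∘ r (x · g)` -/
theorem merAct_merPre_fam (F : CosetFam H G X) (hdet : ∀ x, 0 < (F.r x).det.val) (g : G) (x : X)
    (h : Mer) :
    merAct ((g : SL(2, ℤ))⁻¹) (merPre (F.r x) (hdet x) h) =
      merPre (F.r (F.act g x)) (hdet _)
        (merAct ((((F.κ g x : H) : SL(2, ℤ)))⁻¹) h) := by
  rw [← merPre_mapGL, ← merPre_mapGL, ← merPre_mul, ← merPre_mul]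
  exact congrFun (congrArg DFunLike.coe (merPre_congr (F.spec g x) _ _)) h

/-- **the character of the product along a coset family** -/
theorem act_famProd (F : CosetFam H G X) (hdet : ∀ x, 0 < (F.r x).det.val) (χ : H → ℂ) (h : Mer)
    (hact : ∀ η : H, merAct ((η : SL(2, ℤ))⁻¹) h = algebraMap Hol Mer (constHol (χ η)) * h)
    (g : G) :
    merAct ((g : SL(2, ℤ))⁻¹) (famProd F hdet h) =
      algebraMap Hol Mer (constHol (∏ x : X, χ (F.κ g x))) * famProd F hdet h := by
  unfold famProd
  rw [map_prod]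
  have h1 : ∀ x : X, merAct ((g : SL(2, ℤ))⁻¹) (merPre (F.r x) (hdet x) h) =
      algebraMap Hol Mer (constHol (χ (F.κ g x))) *
        merPre (F.r (F.actEquiv g x)) (hdet _) h := by
    intro x
    rw [merAct_merPre_fam F hdet, hact, map_mul, merPre_const]
    rfl
  rw [Finset.prod_congr rfl (fun x _ => h1 x), Finset.prod_mul_distrib, map_prod, map_prod]
  congr 1
  exact Equiv.prod_comp (F.actEquiv g) (fun x => merPre (F.r x) (hdet x) h)

section Char

variable {M N : ℕ} {p : ℕ} [NeZero p]

/-- `χ_{F.op c}(g) = ∏_x χ_c(κ(g, x))` -/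
theorem chi_op (F : CosetFam (Gamma0 M) (Gamma0 N) X) (c : Additive ↥(Gamma0 M) →+ ZMod p)
    (g : Gamma0 N) :
    chi N p (F.op (ZMod p) c) g = ∏ x : X, chi M p c (F.κ g x) := by
  unfold chi
  rw [CosetFam.op_apply, zetaP_pow_val_sum]

/-- the product along a coset family of a function with character `χ_c` transforms with the
character `χ_{F.op c}` -/
theorem act_famProd_chi [NeZero M] (F : CosetFam (Gamma0 M) (Gamma0 N) X)
    (hdet : ∀ x, 0 < (F.r x).det.val) {c : Additive ↥(Gamma0 M) →+ ZMod p} {h : Mer}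
    (hh : HasChar M p c h) (g : Gamma0 N) :
    merAct ((g : SL(2, ℤ))⁻¹) (famProd F hdet h) =
      algebraMap Hol Mer (constHol (chi N p (F.op (ZMod p) c) g)) * famProd F hdet h := by
  rw [act_famProd F hdet (chi M p c) h hh.act g, chi_op]

end Char

end Fermat.Agent.S35.Bridge
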