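import Mathlib
import Fermat.Agent.S35.BridgeChar

/-!
# C84 (S35), piece C6 (Bridge), part 2: the norm along `α` is the product along `alphaDown`

For a field `K` with `σ : K →+* ℂ`, a prime `q ∤ N` and `y ∈ F_K(N q)`:
`embAn N (N_α y) = ∏_x (embAn (N q) y) ∘ t_x = famProd (alphaDown hqN) (embAn (N q) y)`,
where `t_x = tInf hqN x` are the representatives of `Γ₀(N q) \ Γ₀(N)` of S41 (P3).
-/

set_option autoImplicit false
set_option linter.unusedSectionVars false
set_option linter.unusedVariables false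
set_option linter.style.haveILetI false

open UpperHalfPlane CongruenceSubgroup Matrix.SpecialLinearGroup AlgebraicCurve
open scoped MatrixGroups
open Fermat.Agent.Lib.ModC Fermat.Agent.Lib.ModJ Fermat.Agent.S29.D1 OnePoint
open ModularForm ModularCurve Fermat.Agent.S37.AL IntermediateField
open Fermat.Agent.S29.D3 Fermat.Agent.S41.P3

local notation "embAnK" => Fermat.Agent.Lib.ModCK.embAn
local notation "tauK" => Fermat.Agent.Lib.ModCK.tau

noncomputable section

namespace Fermat.Agent.S35.Bridge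

variable {K : Type*} [Field K] [Algebra ℚ K] (σ : K →+* ℂ) {N q : ℕ} [NeZero N] [NeZero q]
  [Fact q.Prime]

theorem det_alphaDown_pos (hqN : ¬ q ∣ N) (x : OnePoint (ZMod q)) :
    0 < ((alphaDown hqN).r x).det.val :=
  det_mapGL_pos' _

/-- the embedding of `F(N q)` attached to `x ∈ ℙ¹(𝔽_q)` (representatives `tInf`) -/
def tauInf' (hqN : ¬ q ∣ N) (x : OnePoint (ZMod q)) : ↥(FFK K (N * q)) →+* Mer :=
  tauK σ (N * q) (((tInf hqN x : Gamma0 N) : SL(2, ℤ))⁻¹)

theorem tauInf'_eq (hqN : ¬ q ∣ N) (x : OnePoint (ZMod q)) (y : ↥(FFK K (N * q))) :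
    tauInf' σ hqN x y = merPre ((alphaDown hqN).r x) (det_alphaDown_pos hqN x)
      (embAnK σ (N * q) y) := by
  rw [tauInf', Fermat.Agent.Lib.ModCK.tau_apply]
  exact (merPre_mapGL _ _).symm

theorem tauInf'_alpha (hqN : ¬ q ∣ N) (x : OnePoint (ZMod q)) (f : ↥(FFK K N)) :
    tauInf' σ hqN x (heckeAlphaBar K N q f) = embAnK σ N f := by
  rw [tauInf', tau_alpha]
  exact tau_of_mem σ (tInf hqN x)⁻¹ f

theorem tauInf'_injective (hqN : ¬ q ∣ N) :
    Function.Injective (tauInf' (K := K) σ (N := N) hqN) := by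
  intro x y h
  rw [tauInf', tauInf', Fermat.Agent.Lib.ModCK.tau_eq_iff, inv_inv] at h
  have h1 : (q : ℤ) ∣ (((tInf hqN x : Gamma0 N) : SL(2, ℤ)) *
      ((tInf hqN y : Gamma0 N) : SL(2, ℤ))⁻¹) 1 0 :=
    (Int.natCast_dvd_natCast.mpr (Dvd.intro_left N rfl)).trans (dvd_of_mem_Gamma0 h)
  have h2 := perm_infty_of_mem _ h1
  rw [perm_mul, perm_tInf] at h2
  have h3 := congrArg (perm ((tInf hqN y : Gamma0 N) : SL(2, ℤ))) h2
  rw [← perm_mul, inv_mul_cancel, perm_one, perm_tInf] at h3
  exact h3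

/-- **the norm along `α` is the product along `alphaDown`** -/
theorem embAn_norm_alphaDown (hqN : ¬ q ∣ N) (y : ↥(FFK K (N * q))) :
    letI := algebraAlong (heckeAlphaBar K N q)
    embAnK σ N (Algebra.norm ↥(FFK K N) y) =
      famProd (alphaDown hqN) (det_alphaDown_pos hqN) (embAnK σ (N * q) y) := by
  letI := algebraAlong (heckeAlphaBar K N q)
  haveI := finiteDimensional_alphaK σ (N := N) (ℓ := q) hqN
  haveI : CharZero K := algebraRat.charZero K
  haveI : CharZero ↥(FFK K N) := charZero_of_injective_algebraMap (algebraMap K _).injective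
  have h := norm_eq_prod (embAnK σ N) (tauInf' σ hqN) (fun x f => tauInf'_alpha σ hqN x f)
    (tauInf'_injective σ hqN) (by
      rw [finrank_alphaK σ Fact.out hqN, Fermat.Agent.S29.D3.card_onePoint]) y
  rw [h]
  unfold famProd
  exact Finset.prod_congr rfl fun x _ => tauInf'_eq σ hqN x y

end Fermat.Agent.S35.Bridge
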