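import Mathlib
import Fermat.Agent.S35.BridgeChar
import Fermat.Agent.S29.ThetaHeckeNorm
import Fermat.Agent.S37.ALFinal

/-!
# C84 (S35), piece C6 (Bridge), β-side: the norm along `β` is the product along `betaDown`

For a prime `q ∤ N` and `e : ℚ̄ →+* ℂ`:
* `det_betaDown_pos`: the representatives of `betaDown` have positive determinant;
* `sigmaB e hqN y = (· ∘ r y) ∘ embAn (N q)`, `r y = diag(1, q) · t_y`: the `q + 1` embeddings of
  `F(N q)` over `β F(N)`; `sigmaB_beta` (`σ_y ∘ β = embAn N`), `sigmaB_alpha`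
  (`σ_y ∘ α = (· ∘ α_y) ∘ embAn N`), `sigmaB_injective`;
* `embAn_norm_betaDown`: `embAn N (N_β z) = famProd (betaDown hqN) _ (embAn (N q) z)`.
-/

set_option autoImplicit false
set_option linter.unusedSectionVars false
set_option linter.unusedVariables false
set_option linter.style.haveILetI false

open UpperHalfPlane CongruenceSubgroup Matrix.SpecialLinearGroup AlgebraicCurve
open scoped Manifold MatrixGroups
open Fermat.Agent.Lib.ModC Fermat.Agent.Lib.ModJ Fermat.Agent.S29.D1 Fermat.Agent.S29.D3 OnePoint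
open P2MW.S_ModularForm_heckeT_slash_eq_self_of_mem_Gamma0.ModularForm.HeckeSlashInvariance
open ModularForm ModularCurve Fermat.Agent.S37.AL Fermat.Agent.S41.P3

local notation "embAnK" => Fermat.Agent.Lib.ModCK.embAn
local notation "Qb" => AlgebraicClosure ℚ

noncomputable section

namespace Fermat.Agent.S35.Bridge

/-! ### precomposition with a matrix acting trivially -/

theorem merPre_of_smul_eq (g : GL (Fin 2) ℝ) (hg : 0 < g.det.val) (h : ∀ z : ℍ, g • z = z)
    (u : Mer) : merPre g hg u = u := by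
  obtain ⟨a, b, hb, rfl⟩ := IsFractionRing.div_surjective (A := Hol) u
  simp only [map_div₀, merPre_algebraMap]
  congr 2 <;>
  · ext z
    simp only [holPre_apply, h]

section Scalar

variable {q : ℕ} [Fact q.Prime]

theorem heckeRep_zero_smul (z : ℍ) :
    ((heckeRep q ((0 : ZMod q) : OnePoint (ZMod q)) • z : ℍ) : ℂ) = (z : ℂ) / q := by
  have hq : q ≠ 0 := (Fact.out : q.Prime).ne_zero
  rw [coe_smul_of_det_pos (det_heckeRep_pos (ℓ := q) _)]
  simp [heckeRep_coe, UpperHalfPlane.num, UpperHalfPlane.denom, val_heckeMatrix hq]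

theorem heckeRep_infty_zero_smul (z : ℍ) :
    (heckeRep q (∞ : OnePoint (ZMod q)) * heckeRep q ((0 : ZMod q) : OnePoint (ZMod q))) • z
      = z := by
  haveI : NeZero q := ⟨(Fact.out : q.Prime).ne_zero⟩
  have hq : (q : ℂ) ≠ 0 := Nat.cast_ne_zero.mpr (Fact.out : q.Prime).ne_zero
  rw [mul_smul]
  apply UpperHalfPlane.ext
  rw [heckeRep_infty_smul, heckeRep_zero_smul]
  field_simp

end Scalar

/-! ### the representatives of `betaDown` -/

section Rep

variable {q : ℕ} [Fact q.Prime] {N : ℕ}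

theorem betaDown_r (hqN : ¬ q ∣ N) (y : OnePoint (ZMod q) × Unit) :
    (betaDown hqN).r y = heckeRep q ((0 : ZMod q) : OnePoint (ZMod q)) *
      mapGL ℝ ((tZero hqN y.1 : Gamma0 N) : SL(2, ℤ)) := rfl

theorem det_betaDown_pos (hqN : ¬ q ∣ N) (y : OnePoint (ZMod q) × Unit) :
    0 < ((betaDown hqN).r y).det.val := by
  rw [betaDown_r]
  exact det_mul_pos (det_heckeRep_pos _) (det_mapGL_pos' _)

end Rep

/-! ### the embeddings of `F(N q)` over `β F(N)` -/

section Emb

variable {K : Type*} [Field K] [Algebra ℚ K] (σ : K →+* ℂ) {q : ℕ} [Fact q.Prime] {N : ℕ}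
  [NeZero N] [NeZero q]

/-- the embedding of `F(N q)` attached to `y`: `f ↦ f_an ∘ (diag(1, q) t_y)` -/
def sigmaB (hqN : ¬ q ∣ N) (y : OnePoint (ZMod q) × Unit) : ↥(FFK K (N * q)) →+* Mer :=
  (merPre ((betaDown hqN).r y) (det_betaDown_pos hqN y)).comp (embAnK σ (N * q))

theorem sigmaB_apply (hqN : ¬ q ∣ N) (y : OnePoint (ZMod q) × Unit) (f : ↥(FFK K (N * q))) :
    sigmaB σ hqN y f = merPre ((betaDown hqN).r y) (det_betaDown_pos hqN y) (embAnK σ (N * q) f) :=
  rfl

/-- `σ_y ∘ β = embAn N` -/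
theorem sigmaB_beta (hqN : ¬ q ∣ N) (y : OnePoint (ZMod q) × Unit) (f : ↥(FFK K N)) :
    sigmaB σ hqN y (heckeBetaBar K N q f) = embAnK σ N f := by
  rw [sigmaB_apply, embAn_beta, merRep]
  have hI : 0 < (heckeRep q (∞ : OnePoint (ZMod q))).det.val := det_heckeRep_pos _
  have h0 : 0 < (heckeRep q ((0 : ZMod q) : OnePoint (ZMod q))).det.val := det_heckeRep_pos _
  have ht : 0 < (mapGL ℝ ((tZero hqN y.1 : Gamma0 N) : SL(2, ℤ))).det.val := det_mapGL_pos' _
  have hmat : heckeRep q (∞ : OnePoint (ZMod q)) * (betaDown hqN).r y =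
      (heckeRep q (∞ : OnePoint (ZMod q)) * heckeRep q ((0 : ZMod q) : OnePoint (ZMod q))) *
        mapGL ℝ ((tZero hqN y.1 : Gamma0 N) : SL(2, ℤ)) := by
    rw [betaDown_r, mul_assoc]
  have e1 : merPre ((betaDown hqN).r y) (det_betaDown_pos hqN y)
      (merPre (heckeRep q (∞ : OnePoint (ZMod q))) (det_heckeRep_pos _) (embAnK σ N f)) =
      merPre (heckeRep q (∞ : OnePoint (ZMod q)) * (betaDown hqN).r y)
        (det_mul_pos hI (det_betaDown_pos hqN y)) (embAnK σ N f) :=
    (merPre_mul _ _ _ _ _).symm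
  have e2 : merPre (heckeRep q (∞ : OnePoint (ZMod q)) * (betaDown hqN).r y)
        (det_mul_pos hI (det_betaDown_pos hqN y)) (embAnK σ N f) =
      merPre ((heckeRep q (∞ : OnePoint (ZMod q)) *
        heckeRep q ((0 : ZMod q) : OnePoint (ZMod q))) *
        mapGL ℝ ((tZero hqN y.1 : Gamma0 N) : SL(2, ℤ))) (det_mul_pos (det_mul_pos hI h0) ht)
        (embAnK σ N f) :=
    congrFun (congrArg DFunLike.coe (merPre_congr hmat _ _)) _
  have e3 : merPre ((heckeRep q (∞ : OnePoint (ZMod q)) *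
        heckeRep q ((0 : ZMod q) : OnePoint (ZMod q))) *
        mapGL ℝ ((tZero hqN y.1 : Gamma0 N) : SL(2, ℤ))) (det_mul_pos (det_mul_pos hI h0) ht)
        (embAnK σ N f) =
      merPre (mapGL ℝ ((tZero hqN y.1 : Gamma0 N) : SL(2, ℤ))) ht
        (merPre (heckeRep q (∞ : OnePoint (ZMod q)) *
          heckeRep q ((0 : ZMod q) : OnePoint (ZMod q))) (det_mul_pos hI h0) (embAnK σ N f)) :=
    merPre_mul _ _ _ _ _
  rw [e1, e2, e3, merPre_of_smul_eq _ _ heckeRep_infty_zero_smul, merPre_mapGL]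
  exact merAct_embAn σ (tZero hqN y.1)⁻¹ f

/-- `σ_y ∘ α = (· ∘ α_y) ∘ embAn N` -/
theorem sigmaB_alpha (hqN : ¬ q ∣ N) (y : OnePoint (ZMod q) × Unit) (f : ↥(FFK K N)) :
    sigmaB σ hqN y (heckeAlphaBar K N q f) = merRep q y.1 (embAnK σ N f) := by
  rw [sigmaB_apply, embAn_alpha]
  have h0 : 0 < (heckeRep q ((0 : ZMod q) : OnePoint (ZMod q))).det.val := det_heckeRep_pos _
  have ht : 0 < (mapGL ℝ ((tZero hqN y.1 : Gamma0 N) : SL(2, ℤ))).det.val := det_mapGL_pos' _
  have e1 : merPre ((betaDown hqN).r y) (det_betaDown_pos hqN y) (embAnK σ N f) =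
      merPre (mapGL ℝ ((tZero hqN y.1 : Gamma0 N) : SL(2, ℤ))) ht
        (merPre (heckeRep q ((0 : ZMod q) : OnePoint (ZMod q))) h0 (embAnK σ N f)) :=
    merPre_mul _ _ h0 ht _
  rw [e1, merPre_mapGL]
  have h := merAct_merRep hqN (tZero hqN y.1) ((0 : ZMod q) : OnePoint (ZMod q)) (embAnK σ N f)
  rw [perm_tZero, merRep] at h
  rw [h]
  congr 1
  exact merAct_embAn σ (kap hqN (tZero hqN y.1) _)⁻¹ f

/-- every divisor of `N q` is a divisor of `N` or `q` times a divisor of `N` -/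
theorem exists_idxA_or_idxB (d : DivIdx (N * q)) :
    (∃ d' : DivIdx N, idxA N q d' = d) ∨ (∃ d' : DivIdx N, idxB N q d' = d) := by
  have hq : q.Prime := Fact.out
  by_cases h : q ∣ ((d.1 : ℕ+) : ℕ)
  · right
    obtain ⟨k, hk⟩ := h
    have hkpos : 0 < k := by
      rcases Nat.eq_zero_or_pos k with h0 | h0
      · rw [h0, mul_zero] at hk
        exact absurd hk d.1.pos.ne'
      · exact h0
    have hkN : k ∣ N := by
      have h1 := d.2
      rw [hk, mul_comm q k] at h1
      exact Nat.dvd_of_mul_dvd_mul_right hq.pos h1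
    let kp : ℕ+ := ⟨k, hkpos⟩
    have hkp : ((kp : ℕ+) : ℕ) = k := rfl
    refine ⟨⟨kp, hkN⟩, ?_⟩
    apply Subtype.ext
    apply PNat.eq
    show ((kp * lP q : ℕ+) : ℕ) = ((d.1 : ℕ+) : ℕ)
    rw [PNat.mul_coe, hk, mul_comm, hkp]
    rfl
  · left
    have hcop : Nat.Coprime ((d.1 : ℕ+) : ℕ) q :=
      Nat.Coprime.symm ((Nat.Prime.coprime_iff_not_dvd hq).mpr h)
    exact ⟨⟨d.1, hcop.dvd_of_dvd_mul_right d.2⟩, Subtype.ext rfl⟩

/-- two ring homomorphisms on `F(N q)` which agree on `α F(N)` and on `β F(N)` are equal -/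
theorem ringHom_ext_alpha_beta {Ω : Type*} [Field Ω] (τ τ' : ↥(FFK K (N * q)) →+* Ω)
    (hα : ∀ f : ↥(FFK K N), τ (heckeAlphaBar K N q f) = τ' (heckeAlphaBar K N q f))
    (hβ : ∀ f : ↥(FFK K N), τ (heckeBetaBar K N q f) = τ' (heckeBetaBar K N q f)) : τ = τ' := by
  apply ringHom_ext (N * q)
  intro P
  induction P using MvPolynomial.induction_on with
  | C a =>
    have h := alpha_aevalFK (K := K) (N := N) (ℓ := q) (MvPolynomial.C a)
    rw [MvPolynomial.rename_C] at h
    rw [← h]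
    exact hα _
  | add p p' hp hp' => rw [aevalF_add, map_add, map_add, hp, hp']
  | mul_X p i hp =>
    rw [aevalF_mul, map_mul, map_mul, hp]
    congr 1
    rcases exists_idxA_or_idxB (N := N) (q := q) i with ⟨d, rfl⟩ | ⟨d, rfl⟩
    · have h := alpha_aevalFK (K := K) (N := N) (ℓ := q) (MvPolynomial.X d)
      rw [MvPolynomial.rename_X] at h
      rw [← h]
      exact hα _
    · have h := beta_aevalFK (K := K) (N := N) (ℓ := q) (MvPolynomial.X d)
      rw [MvPolynomial.rename_X] at h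
      rw [← h]
      exact hβ _

theorem sigmaB_injective (hqN : ¬ q ∣ N) :
    Function.Injective (sigmaB (K := K) σ (N := N) hqN) := by
  intro y y' h
  have h1 : tauRep σ hqN y.1 = tauRep σ hqN y'.1 := by
    apply ringHom_ext_alpha_beta
    · intro f
      rw [tauRep_alpha, tauRep_alpha]
    · intro f
      rw [tauRep_beta, tauRep_beta, ← sigmaB_alpha σ hqN y, ← sigmaB_alpha σ hqN y', h]
  exact Prod.ext (tauRep_injective σ hqN h1) (Subsingleton.elim _ _)

end Emb

/-! ### the norm along `β` -/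

section Norm

variable {q : ℕ} [Fact q.Prime] {N : ℕ} [NeZero N] [NeZero q]

theorem card_betaDown_idx : Fintype.card (OnePoint (ZMod q) × Unit) = q + 1 := by
  rw [Fintype.card_prod, Fermat.Agent.S29.D3.card_onePoint, Fintype.card_unit, mul_one]

/-- **The norm along `β` is the product along the coset family `betaDown`.** -/
theorem embAn_norm_betaDown (e : Qb →+* ℂ) (hqN : ¬ q ∣ N) (z : ↥(FFK Qb (N * q))) :
    letI := algebraAlong (heckeBetaBar Qb N q)
    embAnK e N (Algebra.norm ↥(FFK Qb N) z) =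
      famProd (betaDown hqN) (det_betaDown_pos hqN) (embAnK e (N * q) z) := by
  letI := algebraAlong (heckeBetaBar Qb N q)
  haveI := finite_along_beta (N := N) (ℓ := q) Fact.out
  haveI : CharZero ↥(FFK Qb N) := charZero_of_injective_algebraMap (algebraMap Qb _).injective
  refine norm_eq_prod (embAnK e N) (sigmaB e hqN) (fun y f => sigmaB_beta e hqN y f)
    (sigmaB_injective e hqN) ?_ z
  rw [finrank_beta Fact.out hqN, card_betaDown_idx]

end Norm

end Fermat.Agent.S35.Bridge
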