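import Mathlib
import Fermat.Agent.S29.ThetaJ
import Fermat.Agent.S35.BridgeChar

/-!
# C84 (S35), piece C6 (Bridge), step 2: theta data over `ℚ̄`

* `embC_bcF`: the analytic embedding over `ℂ` of the base change along `e : K →+* ℂ` is the
  analytic embedding along `e`;
* `exists_thetaData_bar`: for a class `x ∈ J₀(M)` which base-changes to `thetaC c` and ANY
  representative `D` of `x`, there are `h` with character `c` and `u ∈ F_ℚ̄(M)` with
  `embAn u = h ^ m` and `m D = div u`.
-/

set_option autoImplicit false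
set_option linter.unusedSectionVars false
set_option linter.unusedVariables false
set_option linter.style.haveILetI false

open UpperHalfPlane CongruenceSubgroup AlgebraicCurve ModularCurve
open scoped MatrixGroups
open Fermat.Agent.S29.BC Fermat.Agent.S29.D1 Fermat.Agent.S29.D2 Fermat.Agent.S29.ThetaJ
  Fermat.Agent.Lib.ModCK Fermat.Agent.Lib.ModC Fermat.Agent.Lib.ModJ Fermat.Agent.Lib.FF

local notation "Qb" => AlgebraicClosure ℚ
local notation "embAnK" => Fermat.Agent.Lib.ModCK.embAn

noncomputable section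

namespace Fermat.Agent.S35.Bridge

/-! ### the analytic embedding and base change -/

section Emb

variable {K K' : Type*} [Field K] [Field K'] [Algebra ℚ K] [Algebra ℚ K']

theorem coeffMap_aeval_gensK_hom (e : K →+* K') (N : ℕ) (P : MvPolynomial (DivIdx N) K) :
    coeffMap e (MvPolynomial.aeval (gensK K N) P)
      = MvPolynomial.aeval (gensK K' N) (MvPolynomial.map e P) := by
  induction P using MvPolynomial.induction_on with
  | C c =>
    rw [MvPolynomial.map_C, MvPolynomial.aeval_C, MvPolynomial.aeval_C,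
      coeffMap_algebraMap_hom]
  | add P Q hP hQ => rw [map_add, map_add, map_add, map_add, hP, hQ]
  | mul_X P d hP =>
    simp only [map_mul, MvPolynomial.map_X, MvPolynomial.aeval_X, hP]
    rw [gensK_eq, gensK_eq, coeffMap_coeffEmb_hom]

theorem bcF_aevalF (e : K →+* K') (N : ℕ) (P : MvPolynomial (DivIdx N) K) :
    bcF e (modularFunctionFieldFull N) (aevalF N P) = aevalF N (MvPolynomial.map e P) :=
  Subtype.ext (coeffMap_aeval_gensK_hom e N P)

theorem evalHol_map (e : K →+* ℂ) (N : ℕ) (P : MvPolynomial (DivIdx N) K) :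
    Fermat.Agent.Lib.ModCK.evalHol (RingHom.id ℂ) N (MvPolynomial.map e P)
      = Fermat.Agent.Lib.ModCK.evalHol e N P := by
  simp only [Fermat.Agent.Lib.ModCK.evalHol, MvPolynomial.coe_eval₂Hom, MvPolynomial.eval₂_map]
  rfl

/-- **compatibility**: the analytic embedding over `ℂ` of the base change is the analytic
embedding along `e` -/
theorem embC_bcF (e : K →+* ℂ) (N : ℕ) [NeZero N] (f : ↥(FFK K N)) :
    embC N (bcF e (modularFunctionFieldFull N) f) = embAnK e N f := by
  have h : (embC N).comp (bcF e (modularFunctionFieldFull N)) = embAnK e N := by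
    apply ringHom_ext N
    intro P
    show embC N (bcF e (modularFunctionFieldFull N) (aevalF N P)) = embAnK e N (aevalF N P)
    rw [bcF_aevalF, embC, Fermat.Agent.Lib.ModCK.embAn_aevalF,
      Fermat.Agent.Lib.ModCK.embAn_aevalF, evalHol_map]
  exact congrFun (congrArg DFunLike.coe h) f

end Emb

/-! ### theta data over `ℚ̄` -/

section Data

variable (M m : ℕ) [NeZero M] [NeZero m]

/-- **theta data over `ℚ̄`** for ANY representative of a class which base-changes to
`thetaC c` -/
theorem exists_thetaData_bar (c : parFin M m) (x : JZero M)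
    (hx : bcJ embQ M x = ((thetaC M m c : Pic0.torsion ℂ (FC M) m) : Pic0 ℂ (FC M)))
    (D : Divisor.degZero (K := Qb) (F := modularFunctionFieldBar M)) (hD : Pic0.mk D = x) :
    ∃ (h : Mer) (u : ↥(FFK Qb M)),
      HasChar M m (c : Additive ↥(CongruenceSubgroup.Gamma0 M) →+ ZMod m) h ∧ u ≠ 0 ∧
      embAnK embQ M u = h ^ m ∧ ∀ v : Place Qb ↥(FFK Qb M), (m : ℤ) * D.1 v = v.ord u := by
  have hm : m ≠ 0 := NeZero.ne m
  have hmZ : (m : ℤ) ≠ 0 := by exact_mod_cast hm
  -- a. `m • x = 0`, so `m D = div ū`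
  have hmx : (m : ℤ) • x = 0 := by
    apply Fermat.Agent.S29.D4.bcJ_injective embQ M
    rw [map_zsmul, hx, map_zero]
    exact Pic0.mem_torsion.mp (thetaC M m c).2
  have hmD : (((m : ℤ) • D : Divisor.degZero (K := Qb) (F := modularFunctionFieldBar M)) :
      Divisor Qb (modularFunctionFieldBar M))
        ∈ Divisor.principal (K := Qb) (F := modularFunctionFieldBar M) := by
    have h1 : (m : ℤ) • Pic0.mk D = Pic0.mk ((m : ℤ) • D) := rfl
    rw [← hD, h1] at hmx
    exact (QuotientAddGroup.eq_zero_iff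
      ((m : ℤ) • D : Divisor.degZero (K := Qb) (F := modularFunctionFieldBar M))).mp hmx
  obtain ⟨ū, hū0, hū⟩ := hmD
  have hū' : ∀ v : Place Qb (modularFunctionFieldBar M), (m : ℤ) * D.1 v = v.ord ū := by
    intro v
    rw [← hū v]
    show _ = ((m : ℤ) • (D : Divisor Qb (modularFunctionFieldBar M))) v
    rw [Finsupp.smul_apply, smul_eq_mul]
  -- b. a datum over `ℂ`
  obtain ⟨h₀, u₀, Dc, d⟩ :=
    exists_isThetaData (parFin M m) (hex_parFin M m) (hdvd_parFin M m) c
  have hθ : ((thetaC M m c : Pic0.torsion ℂ (FC M) m) : Pic0 ℂ (FC M)) = Pic0.mk Dc :=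
    thetaC_spec M m c d.hasChar d.emb Dc d.div
  -- c. `bcDiv D - D_ℂ` is principal
  have hbc : bcJ embQ M (Pic0.mk D) = Pic0.mk Dc := by rw [hD, hx, hθ]
  rw [bcJ_mk] at hbc
  obtain ⟨w, hw0, hw⟩ := (QuotientAddGroup.eq).mp hbc
  have hw' : ∀ Q : Place ℂ (FC M),
      - bcDiv (bcPlace embQ M) (D : Divisor Qb (modularFunctionFieldBar M)) Q + Dc.1 Q
        = Q.ord w := fun Q => hw Q
  -- d. the divisor of `bcF ū`
  have hQ : ∀ Q : Place ℂ (FC M),
      (m : ℤ) * bcDiv (bcPlace embQ M) (D : Divisor Qb (modularFunctionFieldBar M)) Q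
        = Q.ord (bcF embQ (modularFunctionFieldFull M) ū) := by
    intro Q
    have h1 := bcDiv_bcPlace_principal embQ M hū0
      (D := (m : ℤ) • (D : Divisor Qb (modularFunctionFieldBar M)))
      (fun v => by rw [Finsupp.smul_apply, smul_eq_mul, hū' v]) Q
    rw [map_zsmul, Finsupp.smul_apply, smul_eq_mul] at h1
    exact h1
  have hbū0 : bcF embQ (modularFunctionFieldFull M) ū ≠ 0 :=
    (map_ne_zero (bcF embQ (modularFunctionFieldFull M))).mpr hū0
  have hu₀ : u₀ ≠ 0 := d.u_ne_zero
  have hf0 : bcF embQ (modularFunctionFieldFull M) ū * w ^ m / u₀ ≠ 0 :=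
    div_ne_zero (mul_ne_zero hbū0 (pow_ne_zero m hw0)) hu₀
  have hford : ∀ Q : Place ℂ (FC M),
      0 ≤ Q.ord (bcF embQ (modularFunctionFieldFull M) ū * w ^ m / u₀) := by
    intro Q
    rw [div_eq_mul_inv, Q.ord_mul (mul_ne_zero hbū0 (pow_ne_zero m hw0)) (inv_ne_zero hu₀),
      Q.ord_mul hbū0 (pow_ne_zero m hw0), Q.ord_inv, ord_pow', ← hQ Q, ← d.div Q, ← hw' Q]
    apply le_of_eq
    ring
  obtain ⟨a, ha⟩ := exists_const_of_ord_nonneg (isFF1_jFC M) _ hford
  have ha0 : a ≠ 0 := by
    intro h1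
    rw [h1, map_zero] at ha
    exact hf0 ha
  obtain ⟨b, hb⟩ := IsAlgClosed.exists_pow_nat_eq a (Nat.pos_of_ne_zero hm)
  have hb0 : b ≠ 0 := by
    intro h1
    rw [h1, zero_pow hm] at hb
    exact ha0 hb.symm
  -- e. the function `h`
  have hW : embC M w ≠ 0 := (map_ne_zero (embC M)).mpr hw0
  have hchar : HasChar M m (c : Additive ↥(CongruenceSubgroup.Gamma0 M) →+ ZMod m)
      (algebraMap Hol Mer (constHol b) * h₀ * (embC M w)⁻¹) := by
    have h1 := ((hasChar_cst (N := M) (p := m) hb0).mul d.hasChar).mul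
      (hasChar_embC (N := M) (p := m) hw0).inv
    rwa [zero_add, neg_zero, add_zero] at h1
  refine ⟨algebraMap Hol Mer (constHol b) * h₀ * (embC M w)⁻¹, ū, hchar, hū0, ?_, hū'⟩
  have hbū : bcF embQ (modularFunctionFieldFull M) ū
      = algebraMap ℂ (FC M) a * u₀ * (w ^ m)⁻¹ := by
    rw [← ha]
    field_simp
  rw [← embC_bcF embQ M ū, hbū, map_mul, map_mul, map_inv₀, map_pow, embC_algebraMap, d.emb,
    ← hb, mul_pow, mul_pow, inv_pow, map_pow, map_pow]

end Data

end Fermat.Agent.S35.Bridge
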