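import Mathlib
import Fermat.Agent.S35.BridgeDesc
import Fermat.Agent.S35.BridgeAlpha
import Fermat.Agent.S35.BridgeBeta
import Fermat.Agent.S37.HInpMain

/-!
# C84 (S35), piece C6 (Bridge), assembly

For a prime `q ∤ N` and `m ≥ 1` there is a Hecke-equivariant parametrisation
`Θ : Λ_{N q} → J₀(N q)[m]` with kernel `m Λ` such that for `c ∈ Λ_{N q}` with `α_* c = 0`
(resp. `β_* c = 0`) the push-forward along `α` (resp. `β`) of every divisor representing `Θ c` is
principal.

Proof: `Θ c` is the class of `D = div(u) / m` where `u_an = h ^ m` and `h` has character `c mod m`;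
the product `P` of the translates of `h` along the coset family `alphaDown` has character
`α_* c = 0`, so `P = w_an` for a function `w` of level `N`, and `(N_α u)_an = P ^ m = (w ^ m)_an`;
hence `m α_* D = div (N_α u) = m div(w)`.
-/

set_option autoImplicit false
set_option linter.unusedSectionVars false
set_option linter.unusedVariables false
set_option linter.style.haveILetI false
set_option synthInstance.maxHeartbeats 400000
set_option maxHeartbeats 1000000

open AlgebraicCurve ModularCurve Fermat.Agent.Lib.FF Fermat.Agent.Lib.ModCK Fermat.Agent.Lib.ModJ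
  Fermat.Agent.Lib.ModC Fermat.Agent.S29.BC Fermat.Agent.S29.D1 Fermat.Agent.S29.D2
  Fermat.Agent.S29.ThetaJ CongruenceSubgroup Fermat.Agent.S41.P3 Fermat.Agent.S31.Lat

local notation "Qb" => AlgebraicClosure ℚ
local notation "embAnK" => Fermat.Agent.Lib.ModCK.embAn

noncomputable section

namespace Fermat.Agent.S35.Bridge

/-- **the bridge, abstract form**: if the norm along `φ : F(N) → F(M)` is the product along the
coset family `F` and `F.op c = 0`, then the push-forward along `φ` of every representative of the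
class `x` with `bcJ x = Θ_ℂ c` is principal. -/
theorem isPrincipal_pushforward_of_famProd {N M : ℕ} [NeZero N] [NeZero M] (m : ℕ) [NeZero m]
    (φ : ↥(FFK Qb N) →ₐ[Qb] ↥(FFK Qb M)) (hφ : φ.toRingHom.IsIntegral)
    (hfin : FiniteAlong Qb φ) (hNF : NormFormulaAlong Qb φ hfin)
    {X : Type*} [Fintype X] (F : CosetFam (Gamma0 M) (Gamma0 N) X)
    (hdet : ∀ x, 0 < (F.r x).det.val)
    (hnorm : ∀ z : ↥(FFK Qb M),
      letI := algebraAlong φ
      embAnK embQ N (Algebra.norm ↥(FFK Qb N) z) = famProd F hdet (embAnK embQ M z))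
    (c : parFin M m) (hc : F.op (ZMod m) (c : Additive ↥(Gamma0 M) →+ ZMod m) = 0)
    (x : JZero M)
    (hx : bcJ embQ M x = ((thetaC M m c : Pic0.torsion ℂ (FC M) m) : Pic0 ℂ (FC M)))
    (D : Divisor.degZero (K := Qb) (F := modularFunctionFieldBar M)) (hD : Pic0.mk D = x) :
    Divisor.IsPrincipal (Divisor.pushforwardAlong φ hφ
      (D : Divisor Qb (modularFunctionFieldBar M))) := by
  have hm : (m : ℤ) ≠ 0 := by exact_mod_cast NeZero.ne m
  obtain ⟨h, u, hh, hu0, hu, hDu⟩ := exists_thetaData_bar M m c x hx D hD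
  letI := algebraAlong φ
  haveI := isScalarTower_along φ
  haveI : Module.Finite ↥(FFK Qb N) ↥(FFK Qb M) := hfin
  have hn0 : Algebra.norm ↥(FFK Qb N) u ≠ 0 := Algebra.norm_ne_zero_iff.mpr hu0
  -- the product of the translates
  have hPm : famProd F hdet h ^ m =
      embC N (bcF embQ (modularFunctionFieldFull N) (Algebra.norm ↥(FFK Qb N) u)) := by
    rw [embC_bcF, hnorm u, hu, famProd_pow]
  have hPchar : HasChar N m 0 (famProd F hdet h) := by
    refine ⟨famProd_ne_zero F hdet hh.ne_zero, ⟨_, hPm.symm⟩, fun γ => ?_⟩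
    have h1 := act_famProd_chi F hdet hh γ
    rw [hc] at h1
    exact h1
  obtain ⟨w, hw⟩ := hrange_all N m _ hPchar
  have hw0 : w ≠ 0 := by
    rintro rfl
    rw [map_zero] at hw
    exact hPchar.ne_zero hw.symm
  have hnormw : bcF embQ (modularFunctionFieldFull N) (Algebra.norm ↥(FFK Qb N) u) = w ^ m := by
    apply (embC N).injective
    rw [← hPm, map_pow, hw]
  -- the norm formula
  have hnf : ∀ v : Place Qb ↥(FFK Qb N),
      Divisor.pushforwardAlong φ hφ ((m : ℤ) • (D : Divisor Qb (modularFunctionFieldBar M))) v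
        = v.ord (Algebra.norm ↥(FFK Qb N) u) :=
    fun v => hNF u hu0 _ (fun w' => by rw [Finsupp.smul_apply, smul_eq_mul, hDu]) v
  have hbc : ∀ Q : Place ℂ (FC N),
      bcDiv (bcPlace embQ N) (Divisor.pushforwardAlong φ hφ
        (D : Divisor Qb (modularFunctionFieldBar M))) Q = Q.ord w := by
    intro Q
    have h1 := bcDiv_bcPlace_principal embQ N hn0
      (D := (m : ℤ) • Divisor.pushforwardAlong φ hφ (D : Divisor Qb (modularFunctionFieldBar M)))
      (fun v => by rw [← map_zsmul]; exact hnf v) Q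
    rw [hnormw, ord_pow', map_zsmul, Finsupp.smul_apply, smul_eq_mul] at h1
    exact mul_left_cancel₀ hm h1
  -- descent
  have hE : Divisor.pushforwardAlong φ hφ (D : Divisor Qb (modularFunctionFieldBar M)) ∈
      Divisor.degZero (K := Qb) (F := modularFunctionFieldBar N) :=
    Divisor.pushforwardAlong_mem_degZero φ hφ D.2
  have h0 : bcJ embQ N (Pic0.mk ⟨_, hE⟩) = 0 :=
    (bcPic0_mk_eq_zero_iff (placeExt_bcPlace embQ N) (isFF1_jK embQ N) (isFF1_jFC N) ⟨_, hE⟩).mpr
      ⟨w, hw0, hbc⟩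
  have h1 : (Pic0.mk ⟨_, hE⟩ : JZero N) = 0 :=
    Fermat.Agent.S29.D4.bcJ_injective embQ N (by rw [h0, map_zero])
  have h2 := (QuotientAddGroup.eq_zero_iff _).mp h1
  rw [AddSubgroup.mem_addSubgroupOf] at h2
  exact h2

/-- `ΘJ` on `parFin M m`, together with its base change to `ℂ` -/
theorem exists_thetaJ_parFin_bc (M m : ℕ) [NeZero M] [NeZero m] :
    ∃ ΘJ : parFin M m →+ JZero M,
      (∀ c, m • ΘJ c = 0) ∧ Function.Injective ΘJ ∧
      (∀ (ℓ : ℕ) (hℓ : ℓ.Prime), ¬ ℓ ∣ M →
        ∀ c, ΘJ (heckeParFin M m ℓ hℓ c) = heckeOperatorBar M ⟨ℓ, hℓ⟩ (ΘJ c)) ∧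
      ∀ c, bcJ embQ M (ΘJ c) = ((thetaC M m c : Pic0.torsion ℂ (FC M) m) : Pic0 ℂ (FC M)) := by
  have hm : m ≠ 0 := NeZero.ne m
  let Θ : parFin M m →+ Pic0 ℂ (FC M) :=
    (Pic0.torsion ℂ (FC M) m).subtype.comp (thetaC M m).toAddMonoidHom
  have hΘ : ∀ c, m • Θ c = 0 := fun c => by
    have := Pic0.mem_torsion.mp (thetaC M m c).2
    show m • ((thetaC M m c : Pic0.torsion ℂ (FC M) m) : Pic0 ℂ (FC M)) = 0
    exact_mod_cast this
  have hinj : Function.Injective Θ := fun c c' h => thetaC_injective M m (Subtype.ext h)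
  obtain ⟨ΘJ, h1, h2, h3, h4, h5⟩ := Fermat.Agent.S29.D4.exists_thetaJ embQ M m hm Θ hΘ
  refine ⟨ΘJ, h1, h4 hinj, fun ℓ hℓ hℓN c => ?_, fun c => h2 c⟩
  exact h5 ⟨ℓ, hℓ⟩ c (heckeParFin M m ℓ hℓ c) (thetaC_hecke M m hℓ hℓN c)

section Final

variable {N q : ℕ} [NeZero N] [NeZero q] [Fact q.Prime]

theorem alphaDown_op_redMod (hqN : ¬ q ∣ N) (m : ℕ) (c : Lam (N * q))
    (hc : aDown ℤ ℤ hqN c = 0) :
    (alphaDown hqN).op (ZMod m)
      ((redMod (N * q) m c : parFin (N * q) m) : Additive ↥(Gamma0 (N * q)) →+ ZMod m) = 0 := by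
  have h1 : (alphaDown hqN).op ℤ c.1 = 0 := by
    have := congrArg Subtype.val hc
    rwa [coe_aDown] at this
  have h2 := alphaDown_comp_hom (Int.castAddHom (ZMod m)) hqN c.1
  rw [h1, AddMonoidHom.comp_zero] at h2
  exact h2

theorem betaDown_op_redMod (hqN : ¬ q ∣ N) (m : ℕ) (c : Lam (N * q))
    (hc : bDown ℤ ℤ hqN c = 0) :
    (betaDown hqN).op (ZMod m)
      ((redMod (N * q) m c : parFin (N * q) m) : Additive ↥(Gamma0 (N * q)) →+ ZMod m) = 0 := by
  have h1 : (betaDown hqN).op ℤ c.1 = 0 := by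
    have := congrArg Subtype.val hc
    rwa [coe_bDown] at this
  have h2 := betaDown_comp_hom (Int.castAddHom (ZMod m)) hqN c.1
  rw [h1, AddMonoidHom.comp_zero] at h2
  exact h2

/-- **the bridge** (piece C6 of C84): a Hecke-equivariant parametrisation
`Θ : Λ_{N q} → J₀(N q)[m]` with kernel `m Λ` such that the push-forward along `α` (resp. `β`) of
every divisor representing `Θ c` is principal as soon as `α_* c = 0` (resp. `β_* c = 0`). -/
theorem exists_theta_bridge (hqN : ¬ q ∣ N) (m : ℕ) [NeZero m] :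
    ∃ Θ : Lam (N * q) →+ JZero (N * q),
      (∀ c, m • Θ c = 0) ∧ (∀ c, Θ c = 0 → ∃ c', c = m • c') ∧
      (∀ (ℓ : ℕ) (hℓ : ℓ.Prime) (hℓN : ¬ ℓ ∣ N * q) (c : Lam (N * q)),
          Θ (Tpar hℓ hℓN c) = heckeOperatorBar (N * q) ⟨ℓ, hℓ⟩ (Θ c)) ∧
      (∀ c : Lam (N * q), aDown ℤ ℤ hqN c = 0 →
        ∀ D : Divisor.degZero (K := Qb) (F := modularFunctionFieldBar (N * q)),
          (Pic0.mk D : JZero (N * q)) = Θ c →
          Divisor.IsPrincipal (Divisor.pushforwardAlong (heckeAlphaBar Qb N q)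
            (Fermat.Agent.S37.H.alphaInt N q)
            (D : Divisor Qb (modularFunctionFieldBar (N * q))))) ∧
      (∀ c : Lam (N * q), bDown ℤ ℤ hqN c = 0 →
        ∀ D : Divisor.degZero (K := Qb) (F := modularFunctionFieldBar (N * q)),
          (Pic0.mk D : JZero (N * q)) = Θ c →
          Divisor.IsPrincipal (Divisor.pushforwardAlong (heckeBetaBar Qb N q)
            (Fermat.Agent.S37.H.betaInt N q)
            (D : Divisor Qb (modularFunctionFieldBar (N * q))))) := by
  obtain ⟨ΘJ, h1, h2, h3, h4⟩ := exists_thetaJ_parFin_bc (N * q) m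
  refine ⟨ΘJ.comp (redMod (N * q) m), fun c => h1 _, fun c hc => ?_, fun ℓ hℓ hℓN c => ?_,
    fun c hc D hD => ?_, fun c hc D hD => ?_⟩
  · apply exists_eq_smul_of_redMod_eq_zero m c
    apply h2
    rw [map_zero]
    exact hc
  · show ΘJ (redMod (N * q) m (Tpar hℓ hℓN c))
      = heckeOperatorBar (N * q) ⟨ℓ, hℓ⟩ (ΘJ (redMod (N * q) m c))
    rw [redMod_Tpar, h3 ℓ hℓ hℓN]
  · exact isPrincipal_pushforward_of_famProd m (heckeAlphaBar Qb N q)
      (Fermat.Agent.S37.H.alphaInt N q) (Fermat.Agent.S37.H.finiteAlong_alpha N q)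
      (Fermat.Agent.S37.H.normFormula_alpha N q) (alphaDown hqN) (det_alphaDown_pos hqN)
      (fun z => embAn_norm_alphaDown embQ hqN z) (redMod (N * q) m c)
      (alphaDown_op_redMod hqN m c hc) (ΘJ (redMod (N * q) m c)) (h4 _) D hD
  · exact isPrincipal_pushforward_of_famProd m (heckeBetaBar Qb N q)
      (Fermat.Agent.S37.H.betaInt N q) (Fermat.Agent.S37.H.finiteAlong_beta N q)
      (Fermat.Agent.S37.H.normFormula_beta N q) (betaDown hqN) (det_betaDown_pos hqN)
      (fun z => embAn_norm_betaDown embQ hqN z) (redMod (N * q) m c)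
      (betaDown_op_redMod hqN m c hc) (ΘJ (redMod (N * q) m c)) (h4 _) D hD

end Final

end Fermat.Agent.S35.Bridge
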