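import Mathlib
import Fermat.Agent.S49.Eigen

/-!
# C84 (S35), piece C4 (Eta), abstract part

* `exists_exact_eigenvector` : a ring `A` acting on a finite-dimensional vector space `V` over an
  algebraically closed field `K` of characteristic zero through commuting operators, and a
  character `χ : A →+* K` such that `χ t` is an eigenvalue of `ρ t` for EVERY `t : A`; then `χ`
  is the character of a common eigenvector.
* `hasEigenvalue_baseChange` : for an endomorphism `f` of a finite free `ℤ`-module, every complex
  root of the characteristic polynomial of `f` is an eigenvalue of `f ⊗ ℂ`.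
* `commute_lift` : the values of `FreeAlgebra.lift` at commuting elements commute.
-/

set_option autoImplicit false
set_option linter.unusedSectionVars false
set_option linter.unusedVariables false
set_option linter.style.haveILetI false

namespace Fermat.Agent.S35.Eta

open Module TensorProduct

section Exact

variable {K V A : Type*} [Field K] [IsAlgClosed K] [CharZero K]
  [AddCommGroup V] [Module K V] [FiniteDimensional K V] [Ring A]

theorem exists_exact_eigenvector_aux
    (ρ : A →+* Module.End K V) (hc : ∀ s t, Commute (ρ s) (ρ t)) (χ : A →+* K) :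
    ∀ (d : ℕ) (W : Submodule K V), Module.finrank K W ≤ d →
      (∀ t, ∀ w ∈ W, ρ t w ∈ W) →
      (∀ t, ∃ v ∈ W, v ≠ 0 ∧ ρ t v = χ t • v) →
      ∃ v ∈ W, v ≠ 0 ∧ ∀ t, ρ t v = χ t • v := by
  intro d
  induction d with
  | zero =>
    intro W hd hinv hex
    obtain ⟨v, hvW, hv0, -⟩ := hex 0
    exfalso
    have h0 : Module.finrank K W = 0 := Nat.le_zero.mp hd
    have hW : W = ⊥ := Submodule.finrank_eq_zero.mp h0
    rw [hW, Submodule.mem_bot] at hvW
    exact hv0 hvW
  | succ d ih =>
    intro W hd hinv hex
    by_cases hall : ∀ t, ∀ w ∈ W, ρ t w = χ t • w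
    · obtain ⟨v, hvW, hv0, -⟩ := hex 0
      exact ⟨v, hvW, hv0, fun t => hall t v hvW⟩
    · rw [not_forall] at hall
      obtain ⟨t₀, ht₀⟩ := hall
      rw [not_forall] at ht₀
      obtain ⟨w₀, hw⟩ := ht₀
      rw [Classical.not_imp] at hw
      obtain ⟨hw₀W, hw₀⟩ := hw
      -- the eigenspace of `t₀` in `W`
      let W' : Submodule K V := W ⊓ LinearMap.ker (ρ t₀ - χ t₀ • (1 : Module.End K V))
      have hW'le : W' ≤ W := inf_le_left
      have hmem : ∀ v, v ∈ W' ↔ v ∈ W ∧ ρ t₀ v = χ t₀ • v := by
        intro v
        simp only [W', Submodule.mem_inf, LinearMap.mem_ker, LinearMap.sub_apply,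
          LinearMap.smul_apply, Module.End.one_apply, sub_eq_zero]
      have hlt : W' < W := by
        refine lt_of_le_of_ne hW'le ?_
        intro h
        have : w₀ ∈ W' := h ▸ hw₀W
        exact hw₀ ((hmem w₀).mp this).2
      have hfr : Module.finrank K W' ≤ d := by
        have := Submodule.finrank_lt_finrank_of_lt hlt
        omega
      have hinv' : ∀ t, ∀ w ∈ W', ρ t w ∈ W' := by
        intro t w hw
        rw [hmem] at hw ⊢
        refine ⟨hinv t w hw.1, ?_⟩
        have e : ρ t₀ (ρ t w) = ρ t (ρ t₀ w) :=
          congrArg (fun f : Module.End K V => f w) (hc t₀ t).eq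
        rw [e, hw.2, map_smul]
      have key : ∀ t, ∃ v ∈ W', v ≠ 0 ∧ ρ t v = χ t • v := by
        intro t
        -- for every `n` a common eigenvector in the eigenspace of `t + n t₀`
        have hn : ∀ n : ℕ, ∃ (v : V) (a b : K), v ∈ W ∧ v ≠ 0 ∧ ρ t v = a • v ∧ ρ t₀ v = b • v ∧
            a + (n : K) * b = χ t + (n : K) * χ t₀ := by
          intro n
          set tn : A := t + n • t₀ with htn
          let U : Submodule K V := W ⊓ LinearMap.ker (ρ tn - χ tn • (1 : Module.End K V))
          have hmemU : ∀ v, v ∈ U ↔ v ∈ W ∧ ρ tn v = χ tn • v := by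
            intro v
            simp only [U, Submodule.mem_inf, LinearMap.mem_ker, LinearMap.sub_apply,
              LinearMap.smul_apply, Module.End.one_apply, sub_eq_zero]
          have hU : U ≠ ⊥ := by
            obtain ⟨v, hvW, hv0, hv⟩ := hex tn
            intro hbot
            have : v ∈ U := (hmemU v).mpr ⟨hvW, hv⟩
            rw [hbot, Submodule.mem_bot] at this
            exact hv0 this
          have hinvU : ∀ a ∈ Set.range ρ, ∀ w ∈ U, a w ∈ U := by
            rintro _ ⟨s, rfl⟩ w hw
            rw [hmemU] at hw ⊢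
            refine ⟨hinv s w hw.1, ?_⟩
            have e : ρ tn (ρ s w) = ρ s (ρ tn w) :=
              congrArg (fun f : Module.End K V => f w) (hc tn s).eq
            rw [e, hw.2, map_smul]
          have hcomm : ∀ a ∈ Set.range ρ, ∀ b ∈ Set.range ρ, Commute a b := by
            rintro _ ⟨s, rfl⟩ _ ⟨s', rfl⟩
            exact hc s s'
          obtain ⟨v, hvU, hv0, hv⟩ :=
            Fermat.Agent.S49.exists_common_eigenvector (Set.range ρ) hcomm U hU hinvU
          obtain ⟨a, ha⟩ := hv (ρ t) ⟨t, rfl⟩
          obtain ⟨b, hb⟩ := hv (ρ t₀) ⟨t₀, rfl⟩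
          refine ⟨v, a, b, ((hmemU v).mp hvU).1, hv0, ha, hb, ?_⟩
          have h1 := ((hmemU v).mp hvU).2
          have h2 : ρ tn v = (a + (n : K) * b) • v := by
            rw [htn, map_add, map_nsmul, LinearMap.add_apply, LinearMap.smul_apply, ha, hb,
              add_smul, mul_smul, Nat.cast_smul_eq_nsmul]
          have h3 : χ tn = χ t + (n : K) * χ t₀ := by
            rw [htn, map_add, map_nsmul, nsmul_eq_mul]
          rw [h2, h3] at h1
          exact smul_left_injective K hv0 h1
        choose v a b hvW hv0 ha hb hab using hn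
        have hEa : ∀ n, (ρ t).HasEigenvalue (a n) := fun n =>
          Module.End.hasEigenvalue_of_hasEigenvector
            ⟨Module.End.mem_eigenspace_iff.mpr (ha n), hv0 n⟩
        have hEb : ∀ n, (ρ t₀).HasEigenvalue (b n) := fun n =>
          Module.End.hasEigenvalue_of_hasEigenvector
            ⟨Module.End.mem_eigenspace_iff.mpr (hb n), hv0 n⟩
        haveI : Finite {μ : K | (ρ t).HasEigenvalue μ} :=
          (Module.End.finite_hasEigenvalue (ρ t)).to_subtype
        haveI : Finite {μ : K | (ρ t₀).HasEigenvalue μ} :=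
          (Module.End.finite_hasEigenvalue (ρ t₀)).to_subtype
        let F : ℕ → {μ : K | (ρ t).HasEigenvalue μ} × {μ : K | (ρ t₀).HasEigenvalue μ} :=
          fun n => (⟨a n, hEa n⟩, ⟨b n, hEb n⟩)
        obtain ⟨n, n', hne, hF⟩ := Finite.exists_ne_map_eq_of_infinite F
        have hae : a n = a n' := congrArg (fun x => (x.1 : K)) hF
        have hbe : b n = b n' := congrArg (fun x => (x.2 : K)) hF
        have h1 := hab n
        have h2 := hab n'
        rw [← hae, ← hbe] at h2
        have hnn : (n : K) - (n' : K) ≠ 0 := by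
          rw [sub_ne_zero]
          exact_mod_cast hne
        have h3 : ((n : K) - (n' : K)) * (b n - χ t₀) = 0 := by linear_combination h1 - h2
        have hb0 : b n = χ t₀ := by
          rcases mul_eq_zero.mp h3 with h | h
          · exact absurd h hnn
          · exact sub_eq_zero.mp h
        have ha0 : a n = χ t := by
          rw [hb0] at h1
          exact add_right_cancel h1
        refine ⟨v n, (hmem (v n)).mpr ⟨hvW n, ?_⟩, hv0 n, ?_⟩
        · rw [hb n, hb0]
        · rw [ha n, ha0]
      obtain ⟨v, hv, h0, h⟩ := ih W' hfr hinv' key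
      exact ⟨v, hW'le hv, h0, h⟩

/-- **the exact character**: if `χ t` is an eigenvalue of `ρ t` for every `t`, then `χ` is the
character of a common eigenvector -/
theorem exists_exact_eigenvector
    (ρ : A →+* Module.End K V) (hc : ∀ s t, Commute (ρ s) (ρ t)) (χ : A →+* K)
    (h : ∀ t, (ρ t).HasEigenvalue (χ t)) :
    ∃ v : V, v ≠ 0 ∧ ∀ t, ρ t v = χ t • v := by
  obtain ⟨v, -, hv0, hv⟩ := exists_exact_eigenvector_aux ρ hc χ (Module.finrank K V) ⊤
    (by rw [finrank_top]) (fun _ _ _ => Submodule.mem_top) (fun t => by
      obtain ⟨v, hv⟩ := (h t).exists_hasEigenvector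
      exact ⟨v, Submodule.mem_top, hv.2, Module.End.mem_eigenspace_iff.mp hv.1⟩)
  exact ⟨v, hv0, hv⟩

end Exact

section Charpoly

variable {Λ : Type*} [AddCommGroup Λ] [Module.Free ℤ Λ] [Module.Finite ℤ Λ]

/-- every complex root of the characteristic polynomial of an endomorphism of a finite free
`ℤ`-module is an eigenvalue of its complexification -/
theorem hasEigenvalue_baseChange (f : Module.End ℤ Λ) (c : ℂ)
    (hc : Polynomial.aeval c f.charpoly = 0) :
    Module.End.HasEigenvalue (f.baseChange ℂ) c := by
  rw [Module.End.hasEigenvalue_iff_isRoot_charpoly, LinearMap.charpoly_baseChange,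
    Polynomial.IsRoot.def, Polynomial.eval_map]
  exact hc

end Charpoly

section Lift

variable {X B : Type*} [Ring B]

theorem commute_lift_gen (f : X → B) (hf : ∀ i j, Commute (f i) (f j)) (i : X)
    (G : FreeAlgebra ℤ X) : Commute (f i) (FreeAlgebra.lift ℤ f G) := by
  induction G using FreeAlgebra.induction with
  | grade0 r =>
    rw [AlgHom.commutes]
    exact (Algebra.commutes r (f i)).symm
  | grade1 j =>
    rw [FreeAlgebra.lift_ι_apply]
    exact hf i j
  | mul a b ha hb =>
    rw [map_mul]
    exact ha.mul_right hb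
  | add a b ha hb =>
    rw [map_add]
    exact ha.add_right hb

/-- the values of `FreeAlgebra.lift` at pairwise commuting elements commute -/
theorem commute_lift (f : X → B) (hf : ∀ i j, Commute (f i) (f j))
    (F G : FreeAlgebra ℤ X) :
    Commute (FreeAlgebra.lift ℤ f F) (FreeAlgebra.lift ℤ f G) := by
  induction F using FreeAlgebra.induction with
  | grade0 r =>
    rw [AlgHom.commutes]
    exact Algebra.commutes r _
  | grade1 j =>
    rw [FreeAlgebra.lift_ι_apply]
    exact commute_lift_gen f hf j G
  | mul a b ha hb =>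
    rw [map_mul]
    exact ha.mul_left hb
  | add a b ha hb =>
    rw [map_add]
    exact ha.add_left hb

end Lift

end Fermat.Agent.S35.Eta
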