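import Mathlib
import Fermat.Agent.S29
import Fermat.Agent.Lib.FrobDensity.Generates
import Fermat.Agent.Lib.Frobenius
import Fermat.Agent.S31.MainLucas

/-!
# C84 (S35), piece C4 (Eta): strong multiplicity one for the coefficients at good primes

Two normalised eigenforms `g₁` (level `N₁`), `g₂` (level `N₂`) with `a_ℓ(g₁) = a_ℓ(g₂)` for all
primes `ℓ` outside a finite set `S` (containing the primes dividing `N₁ N₂`) have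
`a_ℓ(g₁) = a_ℓ(g₂)` for EVERY prime `ℓ ∤ N₁ N₂`.

Proof: the residual representations (S29) modulo every maximal ideal of `ℤ̄` of residue
characteristic `p ≠ ℓ` have the same traces at a Frobenius element at `ℓ` (weak Chebotarev:
it is a power of a Frobenius element at a prime outside `S ∪ {p}`); so `a_ℓ(g₁) - a_ℓ(g₂)`
lies in infinitely many maximal ideals of different residue characteristics, hence is `0`.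
-/

set_option autoImplicit false
set_option linter.unusedSectionVars false
set_option linter.unusedVariables false
set_option linter.style.haveILetI false

noncomputable section

namespace Fermat.Agent.S35.Eta

open Polynomial CongruenceSubgroup ModularFormClass

local notation "Zbar" => integralClosure ℤ ℂ
local notation "Qb" => AlgebraicClosure ℚ
local notation "Gal" => (AlgebraicClosure ℚ ≃ₐ[ℚ] AlgebraicClosure ℚ)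

variable {N₁ N₂ : ℕ} {g₁ : CuspForm (Gamma0 N₁) 2} {g₂ : CuspForm (Gamma0 N₂) 2}

/-- the congruence at one prime `ℓ₀` modulo one residue map of characteristic `p ≠ ℓ₀` -/
theorem phi_eq_of_agree (hg₁ : g₁.IsNormalizedEigenform) (hg₂ : g₂.IsNormalizedEigenform)
    (S : Finset ℕ) (hS₁ : ∀ p : ℕ, p.Prime → p ∣ N₁ → p ∈ S)
    (hS₂ : ∀ p : ℕ, p.Prime → p ∣ N₂ → p ∈ S)
    (hagree : ∀ ℓ : ℕ, ℓ.Prime → ℓ ∉ S → qCoeff g₁ ℓ = qCoeff g₂ ℓ)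
    {ℓ₀ : ℕ} (hℓ₀ : ℓ₀.Prime) (h₁ : ¬ ℓ₀ ∣ N₁) (h₂ : ¬ ℓ₀ ∣ N₂)
    {p : ℕ} (hp : p.Prime) (hpℓ : p ≠ ℓ₀) {k : Type} [Field k] [CharP k p] (φ : Zbar →+* k) :
    ∃ a₁ a₂ : Zbar, (a₁ : ℂ) = qCoeff g₁ ℓ₀ ∧ (a₂ : ℂ) = qCoeff g₂ ℓ₀ ∧ φ a₁ = φ a₂ := by
  classical
  obtain ⟨ρ₁, hatt₁, -⟩ := Fermat.Agent.S29.result hg₁ hp φ
  obtain ⟨ρ₂, hatt₂, -⟩ := Fermat.Agent.S29.result hg₂ hp φ
  obtain ⟨L₁, hL₁f, hL₁⟩ := ρ₁.factorsThroughFiniteLevel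
  obtain ⟨L₂, hL₂f, hL₂⟩ := ρ₂.factorsThroughFiniteLevel
  haveI := hL₁f
  haveI := hL₂f
  have hLf : FiniteDimensional ℚ (L₁ ⊔ L₂ : IntermediateField ℚ Qb) :=
    IntermediateField.finiteDimensional_sup L₁ L₂
  have hne : ∀ ℓ : ℕ, ℓ.Prime → ℓ ≠ p → ((ℓ : ℕ) : k) ≠ 0 := by
    intro ℓ hℓ hℓp h0
    rw [CharP.cast_eq_zero_iff k p ℓ] at h0
    exact hℓp ((Nat.prime_dvd_prime_iff_eq hp hℓ).mp h0).symm
  obtain ⟨A₀, hA₀, σ₀, hσ₀⟩ := Fermat.Agent.Lib.Frobenius.exists_isFrobeniusAt hℓ₀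
  obtain ⟨a₁, ha₁, hch₁⟩ := hatt₁ ℓ₀ hℓ₀ h₁ (hne ℓ₀ hℓ₀ hpℓ.symm) A₀ hA₀ σ₀ hσ₀
  obtain ⟨a₂, ha₂, hch₂⟩ := hatt₂ ℓ₀ hℓ₀ h₂ (hne ℓ₀ hℓ₀ hpℓ.symm) A₀ hA₀ σ₀ hσ₀
  refine ⟨a₁, a₂, ha₁, ha₂, ?_⟩
  obtain ⟨ℓ', A', σ', m, hℓ', hℓ'S, hA', hσ', hag⟩ :=
    Fermat.Agent.Lib.FrobDensity.frobeniusGenerates (L₁ ⊔ L₂) hLf (insert p S) σ₀
  have hℓ'p : ℓ' ≠ p := fun h => hℓ'S (h ▸ Finset.mem_insert_self _ _)
  have hℓ'S' : ℓ' ∉ S := fun h => hℓ'S (Finset.mem_insert_of_mem h)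
  have hℓ'N₁ : ¬ ℓ' ∣ N₁ := fun h => hℓ'S' (hS₁ ℓ' hℓ' h)
  have hℓ'N₂ : ¬ ℓ' ∣ N₂ := fun h => hℓ'S' (hS₂ ℓ' hℓ' h)
  obtain ⟨b₁, hb₁, hcb₁⟩ := hatt₁ ℓ' hℓ' hℓ'N₁ (hne ℓ' hℓ' hℓ'p) A' hA' σ' hσ'
  obtain ⟨b₂, hb₂, hcb₂⟩ := hatt₂ ℓ' hℓ' hℓ'N₂ (hne ℓ' hℓ' hℓ'p) A' hA' σ' hσ'
  have hb : b₁ = b₂ := Subtype.ext (hb₁.trans ((hagree ℓ' hℓ' hℓ'S').trans hb₂.symm))
  -- the values at `σ₀`
  have e₁ : ρ₁.ρ σ₀ = (ρ₁.ρ σ') ^ m := by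
    rw [← map_pow]
    exact Fermat.Agent.Lib.GalRep.eq_of_agree ρ₁.ρ hL₁
      (fun x hx => hag x ((le_sup_left : L₁ ≤ L₁ ⊔ L₂) hx))
  have e₂ : ρ₂.ρ σ₀ = (ρ₂.ρ σ') ^ m := by
    rw [← map_pow]
    exact Fermat.Agent.Lib.GalRep.eq_of_agree ρ₂.ρ hL₂
      (fun x hx => hag x ((le_sup_right : L₂ ≤ L₁ ⊔ L₂) hx))
  have hc : ∀ ℓ : ℕ, (C ((ℓ : ℕ) : k) : k[X]) = C (((ℓ : ℤ) : ℤ) : k) := fun ℓ => by
    rw [Int.cast_natCast]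
  have t₁ := Fermat.Agent.S31.Main.trace_of_charpoly (ρ₁.ρ σ₀) (φ a₁) _ ρ₁.finrank_eq hch₁
  have t₂ := Fermat.Agent.S31.Main.trace_of_charpoly (ρ₂.ρ σ₀) (φ a₂) _ ρ₂.finrank_eq hch₂
  have p₁ := (Fermat.Agent.S31.Main.trace_pow_eq (ρ₁.ρ σ') (φ b₁) (ℓ' : ℤ) ρ₁.finrank_eq
    (by rw [hcb₁, hc])  m).1
  have p₂ := (Fermat.Agent.S31.Main.trace_pow_eq (ρ₂.ρ σ') (φ b₂) (ℓ' : ℤ) ρ₂.finrank_eq
    (by rw [hcb₂, hc])  m).1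
  rw [← e₁, t₁] at p₁
  rw [← e₂, t₂] at p₂
  rw [p₁, p₂, hb]

/-- a maximal ideal of `ℤ̄` over a rational prime -/
theorem exists_maximal_zbar {p : ℕ} (hp : p.Prime) :
    ∃ Q : Ideal Zbar, Q.IsMaximal ∧ Q.comap (algebraMap ℤ Zbar) = Ideal.span {(p : ℤ)} := by
  haveI : Fact p.Prime := ⟨hp⟩
  haveI : (Ideal.span {(p : ℤ)}).IsMaximal := Int.ideal_span_isMaximal_of_prime p
  refine Ideal.exists_ideal_over_maximal_of_isIntegral (S := Zbar) (Ideal.span {(p : ℤ)}) ?_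
  intro x hx
  have h := (RingHom.mem_ker).mp hx
  have : x = 0 := (FaithfulSMul.algebraMap_injective ℤ Zbar) (by rw [h, map_zero])
  rw [this]
  exact Ideal.zero_mem _

/-- **strong multiplicity one at the good primes** -/
theorem qCoeff_eq_of_agree (hg₁ : g₁.IsNormalizedEigenform) (hg₂ : g₂.IsNormalizedEigenform)
    (S : Finset ℕ) (hS₁ : ∀ p : ℕ, p.Prime → p ∣ N₁ → p ∈ S)
    (hS₂ : ∀ p : ℕ, p.Prime → p ∣ N₂ → p ∈ S)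
    (hagree : ∀ ℓ : ℕ, ℓ.Prime → ℓ ∉ S → qCoeff g₁ ℓ = qCoeff g₂ ℓ)
    {ℓ₀ : ℕ} (hℓ₀ : ℓ₀.Prime) (h₁ : ¬ ℓ₀ ∣ N₁) (h₂ : ¬ ℓ₀ ∣ N₂) :
    qCoeff g₁ ℓ₀ = qCoeff g₂ ℓ₀ := by
  classical
  -- the key congruence modulo every maximal ideal of residue characteristic `≠ ℓ₀`
  have key : ∀ (p : ℕ) (hp : p.Prime), p ≠ ℓ₀ → ∀ Q : Ideal Zbar, Q.IsMaximal →
      Q.comap (algebraMap ℤ Zbar) = Ideal.span {(p : ℤ)} →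
      ∃ a₁ a₂ : Zbar, (a₁ : ℂ) = qCoeff g₁ ℓ₀ ∧ (a₂ : ℂ) = qCoeff g₂ ℓ₀ ∧ a₁ - a₂ ∈ Q := by
    intro p hp hpℓ Q hQ hQp
    haveI := hQ
    letI : Field (Zbar ⧸ Q) := Ideal.Quotient.field Q
    have hpQ : ((p : ℕ) : Zbar ⧸ Q) = 0 := by
      have h1 : (p : ℤ) ∈ Q.comap (algebraMap ℤ Zbar) := by
        rw [hQp]
        exact Ideal.mem_span_singleton_self _
      have h2 : algebraMap ℤ Zbar (p : ℤ) ∈ Q := h1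
      have h3 : Ideal.Quotient.mk Q (algebraMap ℤ Zbar (p : ℤ)) = 0 :=
        Ideal.Quotient.eq_zero_iff_mem.mpr h2
      rw [eq_intCast, map_intCast, Int.cast_natCast] at h3
      exact h3
    haveI : CharP (Zbar ⧸ Q) p := (CharP.charP_iff_prime_eq_zero hp).mpr hpQ
    obtain ⟨a₁, a₂, ha₁, ha₂, h⟩ := phi_eq_of_agree hg₁ hg₂ S hS₁ hS₂ hagree hℓ₀ h₁ h₂ hp hpℓ
      (Ideal.Quotient.mk Q)
    exact ⟨a₁, a₂, ha₁, ha₂, (Ideal.Quotient.mk_eq_mk_iff_sub_mem a₁ a₂).mp h⟩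
  obtain ⟨p₀, hp₀ge, hp₀⟩ := Nat.exists_infinite_primes (ℓ₀ + 1)
  have hp₀ℓ : p₀ ≠ ℓ₀ := by omega
  obtain ⟨Q₀, hQ₀, hQ₀p⟩ := exists_maximal_zbar hp₀
  obtain ⟨a₁, a₂, ha₁, ha₂, -⟩ := key p₀ hp₀ hp₀ℓ Q₀ hQ₀ hQ₀p
  by_contra hne
  have hd : a₁ - a₂ ≠ 0 := by
    intro h
    apply hne
    rw [← ha₁, ← ha₂, sub_eq_zero.mp h]
  have hI : (Ideal.span {a₁ - a₂}).comap (algebraMap ℤ Zbar) ≠ ⊥ :=
    Ideal.comap_ne_bot_of_integral_mem hd (Ideal.mem_span_singleton_self _)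
      (Algebra.IsIntegral.isIntegral (a₁ - a₂))
  obtain ⟨c₀, hc₀mem, hc₀⟩ := (Submodule.ne_bot_iff _).mp hI
  obtain ⟨p, hpge, hp⟩ := Nat.exists_infinite_primes (ℓ₀ + c₀.natAbs + 1)
  have hpℓ : p ≠ ℓ₀ := by omega
  obtain ⟨Q, hQ, hQp⟩ := exists_maximal_zbar hp
  obtain ⟨a₁', a₂', ha₁', ha₂', hmem⟩ := key p hp hpℓ Q hQ hQp
  have e₁ : a₁' = a₁ := Subtype.ext (ha₁'.trans ha₁.symm)
  have e₂ : a₂' = a₂ := Subtype.ext (ha₂'.trans ha₂.symm)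
  rw [e₁, e₂] at hmem
  have hle : Ideal.span {a₁ - a₂} ≤ Q := (Ideal.span_singleton_le_iff_mem Q).mpr hmem
  have hc₀Q : c₀ ∈ Q.comap (algebraMap ℤ Zbar) := Ideal.comap_mono hle hc₀mem
  rw [hQp, Ideal.mem_span_singleton] at hc₀Q
  have h1 : p ∣ c₀.natAbs := Int.natCast_dvd.mp hc₀Q
  have h2 : p ≤ c₀.natAbs := Nat.le_of_dvd (Int.natAbs_pos.mpr hc₀) h1
  omega

end Fermat.Agent.S35.Eta
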