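import Mathlib
import Fermat.Agent.S35.EtaAbs
import Fermat.Agent.S35.EtaSMO
import Fermat.Agent.S41.EigForm
import Fermat.Agent.S41.TparComm
import Fermat.Agent.S41.DegenLam
import Fermat.Agent.S31.LatRes
import Fermat.Agent.S31.LatEigT
import Fermat.Prelude.Def_CuspForm_Newforms

/-!
# C84 (S35), piece C4 (Eta): the Hecke element `η` of a newform

Level `N * q`, `q` prime, `q ∤ N`, `g` a newform of level `N * q`, `S` a finite set of primes
containing the primes dividing `N * q`, `χ_g` the character of the Hecke algebra away from `S`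
given by `g`.

* `evParLow` : evaluation of noncommutative polynomials in the `T_ℓ` (`ℓ ∤ N q`, `ℓ ∉ S`) on the
  lattice `Λ_N` of the LOWER level `N`;
* `iLamDual_evPar` : the adjoint degeneracy map `i† : Λ_{N q} → Λ_N × Λ_N` intertwines `evPar`
  at level `N q` and `evParLow`;
* `exists_eta` : **there is `η` with `evParLow η = 0` and `χ_g(η) ≠ 0`** (newness is used here,
  and only here);
* `iLamDual_eta` : for such `η`, `i† (η c) = 0` for all `c ∈ Λ_{N q}`.
-/

set_option autoImplicit false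
set_option linter.unusedSectionVars false
set_option linter.unusedVariables false
set_option linter.style.haveILetI false
set_option maxHeartbeats 400000

noncomputable section

open Matrix.SpecialLinearGroup CongruenceSubgroup UpperHalfPlane TensorProduct
open scoped MatrixGroups
open ModularCurve ModularCurve.Period ModularFormClass
open Fermat.Agent.S29.D1 Fermat.Agent.S41.P3 Fermat.Agent.S21 Fermat.Agent.S49
open Fermat.Agent.S31.Lat Fermat.Agent.S41.P7

namespace Fermat.Agent.S35.Eta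

/-! ### from an eigenvector of the good Hecke operators to a normalised eigenform -/

section Norm

variable {M : ℕ} [NeZero M]

/-- a nonzero cusp form `h` with `T_ℓ h = λ_ℓ h` for the primes `ℓ ∤ M` with `P ℓ` gives a
normalised eigenform `g` with `a_ℓ(g) = λ_ℓ` for these primes -/
theorem exists_normalizedEigenform_of_eigen (P : ℕ → Prop) (lam : ℕ → ℂ)
    (h : CuspForm (Gamma0 M) 2) (h0 : h ≠ 0)
    (hT : ∀ (ℓ : ℕ) (hℓ : ℓ.Prime) (hℓM : ¬ ℓ ∣ M), P ℓ →
      CuspForm.heckeTLin 2 hℓ hℓM h = lam ℓ • h) :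
    ∃ g : CuspForm (Gamma0 M) 2, g.IsNormalizedEigenform ∧
      ∀ (ℓ : ℕ), ℓ.Prime → ¬ ℓ ∣ M → P ℓ → qCoeff (⇑g) ℓ = lam ℓ := by
  classical
  haveI : FiniteDimensional ℂ (CuspForm (Gamma0 M) 2) := finiteDimensional_cuspForm_wt2 M
  let W : Submodule ℂ (CuspForm (Gamma0 M) 2) :=
    { carrier := {v | ∀ (ℓ : ℕ) (hℓ : ℓ.Prime) (hℓM : ¬ ℓ ∣ M), P ℓ →
          CuspForm.heckeTLin 2 hℓ hℓM v = lam ℓ • v}
      zero_mem' := fun ℓ hℓ hℓM _ => by rw [map_zero, smul_zero]
      add_mem' := by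
        intro a b ha hb ℓ hℓ hℓM hS
        rw [map_add, ha ℓ hℓ hℓM hS, hb ℓ hℓ hℓM hS, smul_add]
      smul_mem' := by
        intro c a ha ℓ hℓ hℓM hS
        rw [map_smul, ha ℓ hℓ hℓM hS, smul_comm] }
  have hW : W ≠ ⊥ := by
    intro hbot
    have hm : h ∈ W := hT
    rw [hbot, Submodule.mem_bot] at hm
    exact h0 hm
  have hinv : ∀ a ∈ heckeSet M, ∀ w ∈ W, a w ∈ W := by
    intro a ha w hw ℓ hℓ hℓM hS
    have hc : Commute (CuspForm.heckeTLin 2 hℓ hℓM) a :=
      heckeSet_commute _ (Or.inl ⟨ℓ, hℓ, hℓM, rfl⟩) a ha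
    have e : CuspForm.heckeTLin 2 hℓ hℓM (a w) = a (CuspForm.heckeTLin 2 hℓ hℓM w) :=
      congrArg (fun f : Module.End ℂ (CuspForm (Gamma0 M) 2) => f w) hc.eq
    rw [e, hw ℓ hℓ hℓM hS, map_smul]
  obtain ⟨v, hvW, hv0, hv⟩ := exists_common_eigenvector (heckeSet M) heckeSet_commute W hW hinv
  obtain ⟨g, hg, b, hb0, hgb⟩ := exists_normalized_of_common_eigen v hv0 hv
  have hgW : g ∈ W := by
    rw [hgb]
    exact W.smul_mem b hvW
  exact ⟨g, hg, fun ℓ hℓ hℓM hS => qCoeff_of_heckeT_eq hg.qCoeff_one hℓ hℓM (hgW ℓ hℓ hℓM hS)⟩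

end Norm

/-! ### the Hecke operators of level `N q` on the lattice of level `N` -/

variable {N : ℕ} [NeZero N] {q : ℕ} [Fact q.Prime]

section Low

variable (N q) (S : Set ℕ)

/-- `T_ℓ` on `Λ_N`, for `ℓ` a good prime of level `N q` outside `S` -/
def TparLow (i : HIdx (N * q) S) : Module.End ℤ (Lam N) :=
  Tpar i.2.1 (not_dvd_of_not_dvd_mul i.2.2.1)

/-- evaluation at the `T_ℓ` on `Λ_N` -/
def evParLow : FreeAlgebra ℤ (HIdx (N * q) S) →ₐ[ℤ] Module.End ℤ (Lam N) :=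
  FreeAlgebra.lift ℤ (TparLow N q S)

@[simp]
theorem evParLow_ι (i : HIdx (N * q) S) :
    evParLow N q S (FreeAlgebra.ι ℤ i) = TparLow N q S i :=
  FreeAlgebra.lift_ι_apply _ _

theorem commute_evParLow (F G : FreeAlgebra ℤ (HIdx (N * q) S)) :
    Commute (evParLow N q S F) (evParLow N q S G) :=
  commute_lift (TparLow N q S)
    (fun i j => Fermat.Agent.S41.TC.Tpar_commute i.2.1 _ j.2.1 _) F G

variable {N q S}

/-- the adjoint degeneracy map intertwines the Hecke actions of the two levels -/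
theorem iLamDual_evPar (hqN : ¬ q ∣ N) (F : FreeAlgebra ℤ (HIdx (N * q) S))
    (c : Lam (N * q)) :
    iLamDual hqN (evPar (N * q) S F c)
      = (evParLow N q S F (iLamDual hqN c).1, evParLow N q S F (iLamDual hqN c).2) := by
  induction F using FreeAlgebra.induction generalizing c with
  | grade0 r =>
    rw [AlgHom.commutes, AlgHom.commutes, Module.algebraMap_end_apply,
      Module.algebraMap_end_apply, Module.algebraMap_end_apply, map_smul]
    rfl
  | grade1 i =>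
    rw [evPar_ι, evParLow_ι]
    exact iLamDual_Tpar hqN i.2.1 i.2.2.1 c
  | mul a b ha hb =>
    rw [map_mul, map_mul, Module.End.mul_apply, ha, hb]
    rfl
  | add a b ha hb =>
    rw [map_add, map_add, LinearMap.add_apply, map_add, ha, hb]
    rfl

/-- **step 2 of the bridge**: if `η` vanishes on the lattice of level `N`, then `η c` lies in the
kernel of the adjoint degeneracy map, for every `c ∈ Λ_{N q}` -/
theorem iLamDual_eta (hqN : ¬ q ∣ N) (F : FreeAlgebra ℤ (HIdx (N * q) S))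
    (hF : evParLow N q S F = 0) (c : Lam (N * q)) :
    iLamDual hqN (evPar (N * q) S F c) = 0 := by
  rw [iLamDual_evPar hqN F c, hF]
  rfl

end Low

/-! ### the complexified lattice -/

section Tensor

/-- the homomorphisms in the image of `ℂ ⊗ Λ` are parabolic -/
theorem isParabolicHom_tensorToHomO (v : ℂ ⊗[ℤ] Lam N) :
    IsParabolicHom (Gamma0 N) (tensorToHomO (N := N) ℂ v) := by
  induction v using TensorProduct.induction_on with
  | zero =>
    rw [map_zero]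
    exact fun _ _ => rfl
  | tmul e c =>
    rw [tensorToHomO_tmul]
    intro γ hγ
    show (c.1 (Additive.ofMul γ)) • e = 0
    rw [c.2 γ hγ, zero_smul]
  | add x y hx hy =>
    rw [map_add]
    intro γ hγ
    show tensorToHomO ℂ x (Additive.ofMul γ) + tensorToHomO ℂ y (Additive.ofMul γ) = 0
    rw [hx γ hγ, hy γ hγ, add_zero]

end Tensor

/-! ### the element `η` -/

section Main

open CuspForm

/-- **C4 (Eta)**: for a newform `g` of level `N q` there is a noncommutative polynomial `η` in the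
Hecke operators `T_ℓ` (`ℓ ∤ N q`, `ℓ ∉ S`) which vanishes on the lattice of level `N` and such
that `χ_g(η) ≠ 0`. -/
theorem exists_eta (hqN : ¬ q ∣ N) {g : CuspForm (Gamma0 (N * q)) 2} (hg : g.IsNewform)
    (S : Finset ℕ) (hS : ∀ p : ℕ, p.Prime → p ∣ N * q → p ∈ S)
    (chig : CuspForm.heckeAlgebra (N * q) 2 (↑S : Set ℕ) →+* ℂ)
    (hchig : ∀ (ℓ : ℕ) (hℓ : ℓ.Prime) (hℓM : ¬ ℓ ∣ N * q) (hℓS : ℓ ∉ (↑S : Set ℕ)),
      chig (CuspForm.heckeAlgebra.T hℓ hℓM hℓS) = qCoeff g ℓ) :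
    ∃ F : FreeAlgebra ℤ (HIdx (N * q) (↑S : Set ℕ)),
      evParLow N q (↑S : Set ℕ) F = 0 ∧ chig (evT (N * q) (↑S : Set ℕ) F) ≠ 0 := by
  classical
  by_contra hcon
  have hcon' : ∀ F : FreeAlgebra ℤ (HIdx (N * q) (↑S : Set ℕ)),
      evParLow N q (↑S : Set ℕ) F = 0 → chig (evT (N * q) (↑S : Set ℕ) F) = 0 := by
    intro F hF
    by_contra hne
    exact hcon ⟨F, hF, hne⟩
  -- the two ring homomorphisms
  let ρ : FreeAlgebra ℤ (HIdx (N * q) (↑S : Set ℕ)) →+* Module.End ℂ (ℂ ⊗[ℤ] Lam N) :=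
    (Module.End.baseChangeHom ℤ ℂ (Lam N)).toRingHom.comp (evParLow N q (↑S : Set ℕ)).toRingHom
  let χ : FreeAlgebra ℤ (HIdx (N * q) (↑S : Set ℕ)) →+* ℂ :=
    chig.comp (evT (N * q) (↑S : Set ℕ)).toRingHom
  have hρ : ∀ F, ρ F = (evParLow N q (↑S : Set ℕ) F).baseChange ℂ := fun F => rfl
  have hχ : ∀ F, χ F = chig (evT (N * q) (↑S : Set ℕ) F) := fun F => rfl
  have hc : ∀ s t, Commute (ρ s) (ρ t) := fun s t =>
    (commute_evParLow N q (↑S : Set ℕ) s t).map (Module.End.baseChangeHom ℤ ℂ (Lam N))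
  have hev : ∀ F, Module.End.HasEigenvalue (ρ F) (χ F) := by
    intro F
    rw [hρ]
    apply hasEigenvalue_baseChange
    set P := (evParLow N q (↑S : Set ℕ) F).charpoly with hP
    have h1 : Polynomial.aeval (evParLow N q (↑S : Set ℕ) F) P = 0 :=
      LinearMap.aeval_self_charpoly _
    have h2 : evParLow N q (↑S : Set ℕ) (Polynomial.aeval F P) = 0 := by
      rw [← Polynomial.aeval_algHom_apply, h1]
    have h3 := hcon' _ h2
    rw [← Polynomial.aeval_algHom_apply] at h3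
    have h4 : chig.toIntAlgHom (Polynomial.aeval (evT (N * q) (↑S : Set ℕ) F) P) = 0 := h3
    rw [← Polynomial.aeval_algHom_apply] at h4
    exact h4
  obtain ⟨w, hw0, hw⟩ := exists_exact_eigenvector ρ hc χ hev
  -- the parabolic class
  have hW0 : tensorToHomO (N := N) ℂ w ≠ 0 := by
    intro h
    apply hw0
    apply tensorToHomO_injective (N := N) ℂ
    rw [h, map_zero]
  have hWpar : tensorToHomO (N := N) ℂ w ∈ parabolicHoms ℂ (Gamma0 N) ℂ :=
    mem_parabolicHoms_iff.mpr (isParabolicHom_tensorToHomO w)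
  have hWeig : ∀ i : HIdx (N * q) (↑S : Set ℕ),
      @heckeHom N i.1 ⟨i.2.1⟩ ℂ _ (not_dvd_of_not_dvd_mul i.2.2.1) (tensorToHomO (N := N) ℂ w)
        = qCoeff g i.1 • tensorToHomO (N := N) ℂ w := by
    intro i
    have h1 := hw (FreeAlgebra.ι ℤ i)
    rw [hρ, hχ, evParLow_ι, evT_ι, hchig] at h1
    rw [← tensorToHomO_baseChange ℂ i.2.1 (not_dvd_of_not_dvd_mul i.2.2.1) w]
    show tensorToHomO ℂ ((TparLow N q (↑S : Set ℕ) i).baseChange ℂ w) = _
    rw [h1, map_smul]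
  -- the cusp form
  obtain ⟨h, h0, hh⟩ := exists_form_of_coh
    (fun i : HIdx (N * q) (↑S : Set ℕ) =>
      CuspForm.heckeTLin 2 i.2.1 (not_dvd_of_not_dvd_mul i.2.2.1))
    (fun i : HIdx (N * q) (↑S : Set ℕ) =>
      @heckeHom N i.1 ⟨i.2.1⟩ ℂ _ (not_dvd_of_not_dvd_mul i.2.2.1))
    (fun i => @compat_heckeT N _ i.1 ⟨i.2.1⟩ (not_dvd_of_not_dvd_mul i.2.2.1))
    (fun i => qCoeff g i.1) (tensorToHomO (N := N) ℂ w) hWpar hW0 hWeig
  -- the normalised eigenform
  obtain ⟨g₃, hg₃, hg₃eig⟩ := exists_normalizedEigenform_of_eigen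
    (fun ℓ => ¬ ℓ ∣ N * q ∧ ℓ ∉ (↑S : Set ℕ)) (fun ℓ => qCoeff g ℓ) h h0
    (fun ℓ hℓ hℓN hP => hh ⟨ℓ, hℓ, hP.1, hP.2⟩)
  -- strong multiplicity one
  have hSN : ∀ p : ℕ, p.Prime → p ∣ N → p ∈ S := fun p hp hpN => hS p hp (hpN.mul_right q)
  have hagree : ∀ ℓ : ℕ, ℓ.Prime → ℓ ∉ S → qCoeff g₃ ℓ = qCoeff g ℓ := by
    intro ℓ hℓ hℓS
    have hℓM : ¬ ℓ ∣ N * q := fun hd => hℓS (hS ℓ hℓ hd)
    exact hg₃eig ℓ hℓ (not_dvd_of_not_dvd_mul hℓM) ⟨hℓM, fun hm => hℓS (Finset.mem_coe.mp hm)⟩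
  have hocc : CuspForm.GoodEigensystemOccursAt g N := by
    refine ⟨g₃, hg₃, fun ℓ hℓ hℓM => ?_⟩
    exact qCoeff_eq_of_agree hg₃ hg.1 S hSN hS hagree hℓ (not_dvd_of_not_dvd_mul hℓM) hℓM
  have hq1 : 1 < q := (Fact.out : q.Prime).one_lt
  have hN0 : 0 < N := Nat.pos_of_ne_zero (NeZero.ne N)
  have hne : N ≠ N * q := by
    intro h
    have h2 : N * q = N * 1 := by rw [mul_one]; exact h.symm
    have := Nat.eq_of_mul_eq_mul_left hN0 h2
    omega
  exact hg.2 N (Dvd.intro q rfl) hne hocc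

end Main

end Fermat.Agent.S35.Eta
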