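import Mathlib
import Fermat.Agent.S35.GlueKey
import Fermat.Agent.S34.LevelUp
import Fermat.Agent.S34.GlueJ

/-!
# C84 (S35), glue piece (GlueKeyJ): the key identity on the torsion of `J₀(N)`

* `KeySq New N q p` : for every Frobenius element `φ` at a place over `q` and every `p`-power
  torsion point `x` of `J₀(N)` with `New N x` (in the application: the two degeneracy
  push-forwards of `x` to the level `N / q` vanish), `(φ² - q²)(φ² - 1) x = 0`;
* `Core35 q New` : what the concrete side delivers at the levels `M` with `4 ∣ M` or `9 ∣ M`,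
  `q ∥ M`: a `Setup2` with its `Facts`, `CompatTw` and `TorStatement` for `ψ = φ²`,
  and `TwInv` for the representatives of the new torsion points;
* `keySq_of_core` : `Core35 q New → KeySq New M q p` at these levels;
* `keySq_of_forall` : descent to all levels `N` with `q ∥ N` (pull-back `V_b^* ∘ V_b^*`,
  injective on torsion), if `New` is stable under `V_b^*`.
-/

set_option autoImplicit false
set_option linter.unusedSectionVars false
set_option linter.unusedVariables false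
set_option linter.style.haveILetI false
set_option synthInstance.maxHeartbeats 400000
set_option maxHeartbeats 1000000

noncomputable section

namespace Fermat.Agent.S35

open AlgebraicCurve ModularCurve Fermat.Agent.S37 Fermat.Agent.S34

local notation "Qb" => AlgebraicClosure ℚ
local notation "Gal" => (AlgebraicClosure ℚ ≃ₐ[ℚ] AlgebraicClosure ℚ)

/-- **(KEY) on the torsion of `J₀(N)`** -/
def KeySq (New : ∀ (M : ℕ) [NeZero M], JZero M → Prop) (N q p : ℕ) [NeZero N] : Prop :=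
  ∀ P : ValuationSubring Qb, P.LiesOverPrime q → ∀ φ : Gal, P.IsFrobeniusAt φ q →
    ∀ x : JZero N, (∃ n : ℕ, p ^ n • x = 0) → New N x →
      (φ * φ) • ((φ * φ) • x - x) - (q ^ 2) • ((φ * φ) • x - x) = 0

/-- **the core of C84**: what the concrete side delivers at a level `M` with `4 ∣ M` or `9 ∣ M`
and `q ∥ M`, at a valuation ring `P` of `ℚ̄` over `q` -/
def Core35 (q : ℕ) (New : ∀ (M : ℕ) [NeZero M], JZero M → Prop) : Prop :=
  ∀ (M : ℕ) [NeZero M], (4 ∣ M ∨ 9 ∣ M) → q ∣ M → ¬ q ^ 2 ∣ M →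
    ∀ P : ValuationSubring Qb, P.LiesOverPrime q →
      ∃ (Fk₁ Fk₂ : Type) (_ : Field Fk₁) (_ : Field Fk₂)
        (_ : Algebra (IsLocalRing.ResidueField P) Fk₁)
        (_ : Algebra (IsLocalRing.ResidueField P) Fk₂)
        (Red₁ : modularFunctionFieldBar M → Fk₁ → Prop)
        (Red₂ : modularFunctionFieldBar M → Fk₂ → Prop)
        (D : Divisor Qb (modularFunctionFieldBar M))
        (D₁ : Divisor (IsLocalRing.ResidueField P) Fk₁)
        (D₂ : Divisor (IsLocalRing.ResidueField P) Fk₂)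
        (Sg : Finset (Place (IsLocalRing.ResidueField P) Fk₁ ×
          Place (IsLocalRing.ResidueField P) Fk₂))
        (g g₁ g₂ : ℕ) (c c₁ c₂ : ℤ)
        (S : Setup2 P (IsLocalRing.residue P) Red₁ Red₂ D D₁ D₂ Sg g g₁ g₂ c c₁ c₂)
        (Fc : Facts S)
        (τ₁ : SemilinearAut (IsLocalRing.ResidueField P) Fk₁)
        (τ₂ : SemilinearAut (IsLocalRing.ResidueField P) Fk₂),
        (∀ φ : Gal, P.IsFrobeniusAt φ q →
          CompatTw P Red₁ Red₂ Sg (q ^ 2)
              (arithmeticGalois (modularFunctionFieldFull M) (φ * φ)) τ₁ τ₂ ∧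
            TorStatement S Fc (q ^ 2) (arithmeticGalois (modularFunctionFieldFull M) (φ * φ))) ∧
        ∀ (m : ℕ), ((m : ℕ) : IsLocalRing.ResidueField P) ≠ 0 → ∀ x : JZero M, m • x = 0 →
          New M x →
          ∀ (D₀ : Divisor.degZero (K := Qb) (F := modularFunctionFieldBar M))
            (f : modularFunctionFieldBar M), (Pic0.mk D₀ : JZero M) = x → f ≠ 0 →
            (∀ Pl : Place Qb (modularFunctionFieldBar M),
              (m : ℤ) * (D₀ : Divisor Qb (modularFunctionFieldBar M)) Pl = Pl.ord f) →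
            TwInv P Red₁ Red₂ τ₁ τ₂ m f

/-- (KEY) at the levels of the core -/
theorem keySq_of_core {q : ℕ} {New : ∀ (M : ℕ) [NeZero M], JZero M → Prop}
    (hC : Core35 q New) (M p : ℕ) [NeZero M] (hp : p.Prime) (hq : q.Prime) (hqp : q ≠ p)
    (h49 : 4 ∣ M ∨ 9 ∣ M) (hqM : q ∣ M) (hq2 : ¬ q ^ 2 ∣ M) : KeySq New M q p := by
  intro P hP φ hφ x hx hnew
  obtain ⟨Fk₁, Fk₂, _, _, _, _, Red₁, Red₂, D, D₁, D₂, Sg, g, g₁, g₂, c, c₁, c₂, S, Fc, τ₁, τ₂,
    hψ, hinv⟩ := hC M h49 hqM hq2 P hP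
  haveI : Fact q.Prime := ⟨hq⟩
  haveI := Fermat.Agent.S18.GV.charP_residueField P q hP
  obtain ⟨n, hn⟩ := hx
  have hm : ((p ^ n : ℕ) : IsLocalRing.ResidueField P) ≠ 0 :=
    Fermat.Agent.S34.GlueJ.natCast_pow_ne_zero hq hp hqp n
  obtain ⟨h1, h2⟩ := hψ φ hφ
  have key := key_pic0 S Fc h1 h2 (p ^ n) hm x hn
    (fun D₀ f hD₀ hf hdiv => hinv (p ^ n) hm x hn hnew D₀ f hD₀ hf hdiv)
  exact key

/-- one step of the descent: (KEY) at level `N b` implies (KEY) at level `N` -/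
theorem keySq_of_mul {New : ∀ (M : ℕ) [NeZero M], JZero M → Prop} (N q p b : ℕ) [NeZero N]
    [NeZero b] (hb : b.Prime) (hp : p ≠ 0)
    (hNew : ∀ x : JZero N, New N x →
      New (N * b) (VI.pullPic0 (heckeBetaBar Qb N b) (H.betaInt N b)
        (H.fundamentalIdentity_beta N b) x))
    (h : KeySq New (N * b) q p) : KeySq New N q p := by
  intro P hP φ hφ x hx hnew
  obtain ⟨n, hn⟩ := hx
  let V := VI.pullPic0 (heckeBetaBar Qb N b) (H.betaInt N b) (H.fundamentalIdentity_beta N b)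
  have hV : ∀ (τ : Qb ≃ₐ[ℚ] Qb) (y : JZero N), V (τ • y) = τ • V y :=
    fun τ y => Z2.pullPic0_galois N b _ _ τ y
  have hVx : ∃ k : ℕ, p ^ k • V x = 0 := ⟨n, by rw [← map_nsmul, hn, map_zero]⟩
  have h1 := h P hP φ hφ (V x) hVx (hNew x hnew)
  have h2 : V ((φ * φ) • ((φ * φ) • x - x) - (q ^ 2) • ((φ * φ) • x - x)) = 0 := by
    rw [map_sub, map_nsmul, hV, map_sub, hV]
    exact h1
  have hx' : ∃ k : ℕ, p ^ k • x = 0 := ⟨n, hn⟩
  have h3 : ∃ k : ℕ, p ^ k • ((φ * φ) • ((φ * φ) • x - x) - (q ^ 2) • ((φ * φ) • x - x)) = 0 := by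
    have hy : ∃ k : ℕ, p ^ k • ((φ * φ) • x - x) = 0 := by
      rw [sub_eq_add_neg]
      exact Fermat.Agent.S29.torsion_add (Fermat.Agent.S29.torsion_gal_smul (φ * φ) hx')
        (Fermat.Agent.S29.torsion_neg hx')
    rw [sub_eq_add_neg]
    refine Fermat.Agent.S29.torsion_add (Fermat.Agent.S29.torsion_gal_smul (φ * φ) hy)
      (Fermat.Agent.S29.torsion_neg ?_)
    exact Fermat.Agent.S29.torsion_map (nsmulAddMonoidHom (q ^ 2)) hy
  obtain ⟨k, hk⟩ := h3
  exact VI.pullPic0_eq_zero_imp N b hb _ _ _ (p ^ k) (pow_ne_zero _ hp) hk h2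

/-- **descent to all levels**: it suffices to have (KEY) at the levels `M` divisible by `4` or
`9` (with `q ∥ M`), if `New` is stable under the pull-backs `V_b^*`, `b ≠ q` prime -/
theorem keySq_of_forall {New : ∀ (M : ℕ) [NeZero M], JZero M → Prop} (N q p : ℕ) [NeZero N]
    (hp : p ≠ 0) (hq : q.Prime) (hqN : q ∣ N) (hq2 : ¬ q ^ 2 ∣ N)
    (hNew : ∀ (M b : ℕ) [NeZero M] [NeZero b], b.Prime → b ≠ q → ∀ x : JZero M, New M x →
      New (M * b) (VI.pullPic0 (heckeBetaBar Qb M b) (H.betaInt M b)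
        (H.fundamentalIdentity_beta M b) x))
    (h : ∀ (M : ℕ) [NeZero M], (4 ∣ M ∨ 9 ∣ M) → q ∣ M → ¬ q ^ 2 ∣ M → KeySq New M q p) :
    KeySq New N q p := by
  obtain ⟨b, hb, hbq, hbb⟩ := Fermat.Agent.S34.LevelUp.exists_aux_prime' q
  haveI : NeZero b := ⟨hb.ne_zero⟩
  have hcop : Nat.Coprime (q ^ 2) (b * b) := by
    apply Nat.Coprime.pow_left
    apply Nat.Coprime.mul_right <;>
      exact (Nat.coprime_primes hq hb).2 (fun h' => hbq h'.symm)
  have h49 : 4 ∣ N * b * b ∨ 9 ∣ N * b * b := by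
    rcases hbb with h' | h'
    · exact Or.inl ⟨N, by rw [mul_assoc, h', mul_comm]⟩
    · exact Or.inr ⟨N, by rw [mul_assoc, h', mul_comm]⟩
  have hd : q ∣ N * b * b := by
    rw [mul_assoc]
    exact Dvd.dvd.mul_right hqN _
  have hd2 : ¬ q ^ 2 ∣ N * b * b := by
    intro h'
    rw [mul_assoc] at h'
    exact hq2 (hcop.dvd_of_dvd_mul_right h')
  exact keySq_of_mul N q p b hb hp (hNew N b hb hbq)
    (keySq_of_mul (N * b) q p b hb hp (hNew (N * b) b hb hbq) (h (N * b * b) h49 hd hd2))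

/-- **(KEY) at every level `N` with `q ∥ N`, from the core** -/
theorem keySq_of_core_all {q : ℕ} {New : ∀ (M : ℕ) [NeZero M], JZero M → Prop}
    (hC : Core35 q New)
    (hNew : ∀ (M b : ℕ) [NeZero M] [NeZero b], b.Prime → b ≠ q → ∀ x : JZero M, New M x →
      New (M * b) (VI.pullPic0 (heckeBetaBar Qb M b) (H.betaInt M b)
        (H.fundamentalIdentity_beta M b) x))
    (N p : ℕ) [NeZero N] (hp : p.Prime) (hq : q.Prime) (hqp : q ≠ p) (hqN : q ∣ N)
    (hq2 : ¬ q ^ 2 ∣ N) : KeySq New N q p :=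
  keySq_of_forall N q p hp.ne_zero hq hqN hq2 hNew
    (fun M _ h49 hd hd2 => keySq_of_core hC M p hp hq hqp h49 hd hd2)

end Fermat.Agent.S35
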