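import Mathlib
import Fermat.Agent.S34.Transfer
import Fermat.Agent.S22
import Fermat.Agent.S30

/-!
# C84 (S35), piece C5: transfer of the key relation `(φ² - q²)(φ² - 1) η = 0`

`KeyInput M S lam q η`: for every `n` there is a Hecke-equivariant parametrisation
`Θ : Λ → J₀(M)[lam ^ n]` with kernel `lam ^ n Λ` such that for every Frobenius element `φ` at `q`
and every `c ∈ Λ` the point `y = Θ (η c)` satisfies `φ⁴ y - (1 + q²) φ² y + q² y = 0`.

Result (`charpoly_of_key`): if `ρ` is a two-dimensional `lam`-adic representation over a domain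
`T` with characteristic polynomial `X² - π(T_ℓ) X + ℓ` at the Frobenius elements of the primes
outside `S`, and `π (η) ≠ 0`, then the characteristic polynomial of `ρ(φ)` is
`X² - (q + 1) X + q` or `X² + (q + 1) X + q`.
-/

set_option autoImplicit false
set_option linter.unusedSectionVars false
set_option linter.unusedVariables false
set_option linter.style.haveILetI false

noncomputable section

namespace Fermat.Agent.S35.TrK

open Polynomial ModularCurve Fermat.Agent.S31.Lat Fermat.Agent.S31.Main Fermat.Agent.S34.Tr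

local notation "Qb" => AlgebraicClosure ℚ
local notation "Gal" => (AlgebraicClosure ℚ ≃ₐ[ℚ] AlgebraicClosure ℚ)

/-- **the key relation**, in the weakest form used by the transfer -/
def KeyInput (M : ℕ) [NeZero M] (S : Set ℕ) (lam q : ℕ) (η : FreeAlgebra ℤ (HIdx M S)) : Prop :=
  ∀ n : ℕ, ∃ Θ : Lam M →+ JZero M,
    (∀ c, lam ^ n • Θ c = 0) ∧ (∀ c, Θ c = 0 → ∃ c', c = lam ^ n • c') ∧
    (∀ (ℓ : ℕ) (hℓ : ℓ.Prime) (hℓN : ¬ ℓ ∣ M) (c : Lam M),
        Θ (Tpar hℓ hℓN c) = heckeOperatorBar M ⟨ℓ, hℓ⟩ (Θ c)) ∧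
    ∀ P : ValuationSubring Qb, P.LiesOverPrime q → ∀ φ : Gal, P.IsFrobeniusAt φ q →
      ∀ c : Lam M,
        φ • φ • φ • φ • Θ (evPar M S η c) - (1 + q ^ 2) • (φ • φ • Θ (evPar M S η c))
          + q ^ 2 • Θ (evPar M S η c) = 0

/-- the key relation for all points of `lam`-power order in the image of `η` evaluated on the
Hecke operators of `J₀(M)`: the form in which every parametrisation works -/
def KeyAll (M : ℕ) [NeZero M] (S : Set ℕ) (lam q : ℕ) (η : FreeAlgebra ℤ (HIdx M S)) : Prop :=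
  ∀ (n : ℕ) (Θ : Lam M →+ JZero M), (∀ c, lam ^ n • Θ c = 0) →
    (∀ (ℓ : ℕ) (hℓ : ℓ.Prime) (hℓN : ¬ ℓ ∣ M) (c : Lam M),
        Θ (Tpar hℓ hℓN c) = heckeOperatorBar M ⟨ℓ, hℓ⟩ (Θ c)) →
    ∀ P : ValuationSubring Qb, P.LiesOverPrime q → ∀ φ : Gal, P.IsFrobeniusAt φ q →
      ∀ c : Lam M,
        φ • φ • φ • φ • Θ (evPar M S η c) - (1 + q ^ 2) • (φ • φ • Θ (evPar M S η c))
          + q ^ 2 • Θ (evPar M S η c) = 0

theorem keyInput_of_all {M : ℕ} [NeZero M] {S : Set ℕ} {lam q : ℕ} (hlam : lam.Prime)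
    {η : FreeAlgebra ℤ (HIdx M S)} (h : KeyAll M S lam q η) : KeyInput M S lam q η := by
  intro n
  haveI : NeZero (lam ^ n) := ⟨pow_ne_zero _ hlam.ne_zero⟩
  obtain ⟨Θ, hΘ1, hΘ2, hΘ3⟩ := Fermat.Agent.S29.ThetaJ.exists_theta_Lam M (lam ^ n)
  exact ⟨Θ, hΘ1, hΘ2, hΘ3, h n Θ hΘ1 hΘ3⟩

section Algebra

/-- the algebraic heart: if the Hecke operator `t` acts as `φ + q φ⁻¹` on `y` and on `t y`, and
`(φ² - q²)(φ² - 1) y = 0`, then `(t² - (q + 1)²) y = 0` -/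
theorem key_combine {J : Type*} [AddCommGroup J] {G : Type*} [Group G]
    [DistribMulAction G J] (φ : G) (e : ℤ) (q : ℕ) (y t₁ t₂ : J)
    (h₁ : t₁ = φ • y + e • (φ⁻¹ • y))
    (h₂ : t₂ = φ • t₁ + e • (φ⁻¹ • t₁))
    (he₁ : e • (φ⁻¹ • y) = (q : ℤ) • (φ⁻¹ • y))
    (he₂ : e • (φ⁻¹ • t₁) = (q : ℤ) • (φ⁻¹ • t₁))
    (hkey : φ • φ • φ • φ • y - (1 + q ^ 2) • (φ • φ • y) + q ^ 2 • y = 0) :
    t₂ - ((q + 1) ^ 2 : ℕ) • y = 0 := by
  obtain ⟨w, hw⟩ : ∃ w : J, w = φ⁻¹ • φ⁻¹ • y := ⟨_, rfl⟩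
  have hy : y = φ • φ • w := by
    rw [hw, smul_inv_smul, smul_inv_smul]
  have hy1 : φ⁻¹ • y = φ • w := by
    rw [hy, inv_smul_smul]
  have hz : ∀ (m : ℤ) (z : J), φ • (m • z) = m • (φ • z) := fun m z =>
    map_zsmul (DistribSMul.toAddMonoidHom J φ) m z
  have hz' : ∀ (m : ℤ) (z : J), φ⁻¹ • (m • z) = m • (φ⁻¹ • z) := fun m z =>
    map_zsmul (DistribSMul.toAddMonoidHom J φ⁻¹) m z
  have hn : ∀ (m : ℕ) (z : J), φ • (m • z) = m • (φ • z) := fun m z =>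
    map_nsmul (DistribSMul.toAddMonoidHom J φ) m z
  -- everything in terms of `w`
  have e1 : t₁ = φ • φ • φ • w + (q : ℤ) • (φ • w) := by
    rw [h₁, he₁, hy1, hy]
  have e1' : φ⁻¹ • t₁ = φ • φ • w + (q : ℤ) • w := by
    rw [e1, smul_add, hz', inv_smul_smul, inv_smul_smul]
  have e2 : t₂ = φ • φ • φ • φ • w + (q : ℤ) • (φ • φ • w)
      + ((q : ℤ) • (φ • φ • w) + (q : ℤ) • ((q : ℤ) • w)) := by
    rw [h₂, he₂, e1', e1, smul_add, hz, smul_add (q : ℤ)]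
  -- the relation for `w`
  obtain ⟨X, hX⟩ : ∃ X : J, X = φ • φ • φ • φ • w - (1 + q ^ 2) • (φ • φ • w) + q ^ 2 • w :=
    ⟨_, rfl⟩
  have hX0 : φ • φ • X = 0 := by
    rw [hX, smul_add, smul_add, smul_sub, smul_sub, hn, hn, hn, hn, ← hy]
    exact hkey
  have hX1 : X = 0 := by
    have h1 : φ • X = 0 := by
      have := congrArg (fun z => φ⁻¹ • z) hX0
      simp only [inv_smul_smul, smul_zero] at this
      exact this
    have := congrArg (fun z => φ⁻¹ • z) h1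
    simp only [inv_smul_smul, smul_zero] at this
    exact this
  have e3 : t₂ - ((q + 1) ^ 2 : ℕ) • y = X := by
    rw [e2, hX, ← hy]
    have a1 : ((q + 1) ^ 2 : ℕ) • y = (((q + 1) ^ 2 : ℕ) : ℤ) • y := (natCast_zsmul _ _).symm
    have a2 : (1 + q ^ 2) • y = (((1 + q ^ 2 : ℕ)) : ℤ) • y := (natCast_zsmul _ _).symm
    have a3 : q ^ 2 • w = ((q ^ 2 : ℕ) : ℤ) • w := (natCast_zsmul _ _).symm
    rw [a1, a2, a3]
    generalize φ • φ • y = A
    push_cast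
    module
  rw [e3, hX1]

end Algebra

section Approx

variable {M : ℕ} [NeZero M] {lam : ℕ} {S : Finset ℕ}
  {T : Type} [CommRing T] [IsLocalRing T]

open CuspForm

/-- the hypothesis on the representation: characteristic polynomials of the Frobenius elements
at the primes outside `S` -/
def CharpolyFrob (M : ℕ) [NeZero M] (S : Finset ℕ) {T : Type} [CommRing T] [IsLocalRing T]
    (ρ : GaloisRepAdic T) (π : CuspForm.heckeAlgebra M 2 (↑S : Set ℕ) →+* T) : Prop :=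
  ∀ (ℓ : ℕ) (hℓ : ℓ.Prime) (hℓM : ¬ ℓ ∣ M) (hℓS : ℓ ∉ (↑S : Set ℕ)),
    ∀ A : ValuationSubring Qb, A.LiesOverPrime ℓ →
      ∀ σ : Gal, A.IsFrobeniusAt σ ℓ →
        LinearMap.charpoly (ρ.ρ σ) =
          X ^ 2 - C (π (CuspForm.heckeAlgebra.T hℓ hℓM hℓS)) * X + C ((ℓ : T))

/-- the determinant of an endomorphism with given characteristic polynomial -/
theorem det_of_charpoly' {V : Type*} [AddCommGroup V] [Module T V]
    [Module.Free T V] [Module.Finite T V] (f : Module.End T V) (t d : T)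
    (hrank : Module.finrank T V = 2)
    (hf : LinearMap.charpoly f = X ^ 2 - C t * X + C d) : LinearMap.det f = d := by
  classical
  let b := Module.finBasisOfFinrankEq T V hrank
  rw [← LinearMap.det_toMatrix b, Matrix.det_eq_sign_charpoly_coeff,
    LinearMap.charpoly_toMatrix f b, hf]
  simp [coeff_C]

/-- **approximation of one element by a power of a Frobenius element**, with the trace form of
the Eichler–Shimura relation on the `lam ^ n`-torsion classes `Θ c` -/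
theorem exists_frob_approx' (hlam : lam.Prime) (hlamS : lam ∈ S)
    (hMS : ∀ q : ℕ, q.Prime → q ∣ M → q ∈ S)
    (ρ : GaloisRepAdic T) (π : CuspForm.heckeAlgebra M 2 (↑S : Set ℕ) →+* T)
    (hcp : CharpolyFrob M S ρ π)
    (n : ℕ) [NeZero (lam ^ n)] (Θ : Lam M →+ JZero M) (hΘ1 : ∀ c, lam ^ n • Θ c = 0)
    (hΘ3 : ∀ (ℓ : ℕ) (hℓ : ℓ.Prime) (hℓN : ¬ ℓ ∣ M) (c : Lam M),
        Θ (Tpar hℓ hℓN c) = heckeOperatorBar M ⟨ℓ, hℓ⟩ (Θ c))
    (K₁ K₂ K : IntermediateField ℚ Qb) (hK : FiniteDimensional ℚ K) (hK₁K : K₁ ≤ K)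
    (hK₂K : K₂ ≤ K)
    (hfix : ∀ u : Gal, (∀ x ∈ K₁, u x = x) → ∀ (c : Lam M) (τ : Gal),
      u • (τ • Θ c) = τ • Θ c)
    (hχ : ∀ σ : Gal, (∀ x ∈ K₂, σ x = x) → Fermat.Agent.S31.Cyc.chiM (lam ^ n) σ = 1)
    (g : Gal) :
    ∃ (F : FreeAlgebra ℤ (HIdx M (↑S : Set ℕ))) (s : Gal) (e : ℤ),
      (∀ x ∈ K, g x = s x) ∧ ρ.trace s = π (evT M (↑S : Set ℕ) F) ∧
      LinearMap.det (ρ.ρ s) = (e : T) ∧
      (((Fermat.Agent.S31.Cyc.chiM (lam ^ n) g : (ZMod (lam ^ n))ˣ) : ZMod (lam ^ n))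
        = (e : ZMod (lam ^ n))) ∧
      ∀ c : Lam M, Θ (evPar M (↑S : Set ℕ) F c) = g • Θ c + e • (g⁻¹ • Θ c) := by
  classical
  haveI : Nontrivial T := inferInstance
  obtain ⟨ℓ, A, σ, a, hℓ, hℓS, hA, hσ, hg⟩ :=
    Fermat.Agent.Lib.FrobDensity.frobeniusGenerates _ hK S g
  have hℓN : ¬ ℓ ∣ M := fun hd => hℓS (hMS ℓ hℓ hd)
  have hnp : ¬ ℓ ∣ lam := by
    intro hd
    have := (Nat.prime_dvd_prime_iff_eq hℓ hlam).mp hd
    exact hℓS (this ▸ hlamS)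
  have hnNp : ¬ ℓ ∣ M * lam := by
    intro hd
    rcases hℓ.dvd_mul.mp hd with h1 | h1
    · exact hℓN h1
    · exact hnp h1
  have hnpn : ¬ ℓ ∣ lam ^ n := fun hd => hnp (hℓ.dvd_of_dvd_pow hd)
  have hi : ℓ.Prime ∧ ¬ ℓ ∣ M ∧ ℓ ∉ (↑S : Set ℕ) := ⟨hℓ, hℓN, hℓS⟩
  have hPpar : evPar M (↑S : Set ℕ)
      (aeval (FreeAlgebra.ι ℤ (⟨ℓ, hi⟩ : HIdx M (↑S : Set ℕ))) (lucasV (ℓ : ℤ) a))
      = aeval (Tpar hℓ hℓN) (lucasV (ℓ : ℤ) a) := by
    rw [← Polynomial.aeval_algHom_apply, evPar_ι]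
    rfl
  have hPT : evT M (↑S : Set ℕ)
      (aeval (FreeAlgebra.ι ℤ (⟨ℓ, hi⟩ : HIdx M (↑S : Set ℕ))) (lucasV (ℓ : ℤ) a))
      = aeval (heckeAlgebra.T hℓ hℓN hℓS) (lucasV (ℓ : ℤ) a) := by
    rw [← Polynomial.aeval_algHom_apply, evT_ι]
  have hf : LinearMap.charpoly (ρ.ρ σ) =
      X ^ 2 - C (π (heckeAlgebra.T hℓ hℓN hℓS)) * X + C (((ℓ : ℤ) : T)) := by
    rw [Int.cast_natCast]
    exact hcp ℓ hℓ hℓN hℓS A hA σ hσ
  refine ⟨aeval (FreeAlgebra.ι ℤ (⟨ℓ, hi⟩ : HIdx M (↑S : Set ℕ))) (lucasV (ℓ : ℤ) a), σ ^ a,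
    (ℓ : ℤ) ^ a, hg, ?_, ?_, ?_, fun c => ?_⟩
  · have h1 := (trace_pow_eq (ρ.ρ σ) (π (heckeAlgebra.T hℓ hℓN hℓS)) (ℓ : ℤ)
      ρ.finrank_eq hf a).1
    rw [hPT, map_aeval_int]
    show LinearMap.trace T ρ.V (ρ.ρ (σ ^ a)) = _
    rw [map_pow]
    exact h1
  · rw [map_pow, map_pow, det_of_charpoly' (ρ.ρ σ) _ _ ρ.finrank_eq hf]
    push_cast
    rfl
  · have hc1 : Fermat.Agent.S31.Cyc.chiM (lam ^ n) g
        = Fermat.Agent.S31.Cyc.chiM (lam ^ n) (σ ^ a) :=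
      chiM_eq_of_agree (lam ^ n) hK₂K hχ hg
    rw [hc1, chiM_frob_pow (lam ^ n) hℓ hnpn hA hσ a]
  · rw [hPpar, aeval_intertwine Θ (Tpar hℓ hℓN) (heckeOperatorBar M ⟨ℓ, hℓ⟩) (hΘ3 ℓ hℓ hℓN)]
    have hy : ∃ k : ℕ, lam ^ k • Θ c = 0 := ⟨n, hΘ1 c⟩
    have hs : ∀ τ : Gal, σ ^ a • (τ • Θ c) = g • (τ • Θ c) :=
      fun τ => smul_theta_eq_of_agree Θ hK₁K hfix hg c τ
    have h1 := hs 1
    rw [one_smul] at h1
    exact hecke_eq_trace_form g (σ ^ a) _ _ (Θ c)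
      (frob_pow_relation lam hℓ hnNp hA hσ a (Θ c) hy) h1 (hs g)
      (aeval_hecke_smul ⟨ℓ, hℓ⟩ _ g (Θ c))

/-- an endomorphism congruent to `1` modulo `I` has determinant congruent to `1` -/
theorem det_sub_one_mem' {V : Type*} [AddCommGroup V] [Module T V]
    [Module.Free T V] [Module.Finite T V] (I : Ideal T) (f : Module.End T V)
    (hrank : Module.finrank T V = 2)
    (hf : ∀ v, f v - v ∈ I • (⊤ : Submodule T V)) : LinearMap.det f - 1 ∈ I := by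
  classical
  let b := Module.finBasisOfFinrankEq T V hrank
  have hn : ∀ i j : Fin 2, b.repr (f (b j) - b j) i ∈ I :=
    fun i j => repr_mem_of_mem_smul b I (hf (b j)) i
  have hM : ∀ i j : Fin 2, LinearMap.toMatrix b b f i j
      = b.repr (f (b j) - b j) i + (if j = i then 1 else 0) := by
    intro i j
    rw [LinearMap.toMatrix_apply, map_sub, Finsupp.sub_apply, Module.Basis.repr_self,
      Finsupp.single_apply, sub_add_cancel]
  rw [← LinearMap.det_toMatrix b, Matrix.det_fin_two, hM 0 0, hM 1 1, hM 0 1, hM 1 0]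
  have e : (b.repr (f (b 0) - b 0) 0 + (if (0 : Fin 2) = 0 then 1 else 0))
      * (b.repr (f (b 1) - b 1) 1 + (if (1 : Fin 2) = 1 then 1 else 0))
      - (b.repr (f (b 1) - b 1) 0 + (if (1 : Fin 2) = 0 then 1 else 0))
        * (b.repr (f (b 0) - b 0) 1 + (if (0 : Fin 2) = 1 then 1 else 0)) - 1
      = b.repr (f (b 0) - b 0) 0 * b.repr (f (b 1) - b 1) 1 + b.repr (f (b 0) - b 0) 0
        + b.repr (f (b 1) - b 1) 1 - b.repr (f (b 1) - b 1) 0 * b.repr (f (b 0) - b 0) 1 := by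
    simp only [if_true, Fin.reduceEq, if_false, add_zero]
    ring
  rw [e]
  exact I.sub_mem (I.add_mem (I.add_mem (I.mul_mem_left _ (hn 1 1)) (hn 0 0)) (hn 1 1))
    (I.mul_mem_left _ (hn 1 0))

/-- the determinant of `ρ` is continuous -/
theorem exists_det_level' (ρ : GaloisRepAdic T) (k : ℕ) :
    ∃ L : IntermediateField ℚ Qb, FiniteDimensional ℚ L ∧
      ∀ σ τ : Gal, (∀ x ∈ L, σ x = τ x) →
        LinearMap.det (ρ.ρ σ) - LinearMap.det (ρ.ρ τ) ∈ IsLocalRing.maximalIdeal T ^ k := by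
  obtain ⟨L, hL, h⟩ := ρ.isAdicContinuous k
  refine ⟨L, hL, fun σ τ hστ => ?_⟩
  have hu : ∀ x ∈ L, (τ⁻¹ * σ) x = x := fun x hx => by
    show τ⁻¹ (σ x) = x
    rw [hστ x hx]
    exact τ.symm_apply_apply x
  have e : ρ.ρ σ = ρ.ρ τ * ρ.ρ (τ⁻¹ * σ) := by
    rw [← map_mul, mul_inv_cancel_left]
  have e2 : LinearMap.det (ρ.ρ σ) - LinearMap.det (ρ.ρ τ)
      = LinearMap.det (ρ.ρ τ) * (LinearMap.det (ρ.ρ (τ⁻¹ * σ)) - 1) := by
    rw [e, map_mul, mul_sub, mul_one, ← map_mul, ← map_mul, mul_inv_cancel_left]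
  rw [e2]
  exact Ideal.mul_mem_left _ _ (det_sub_one_mem' _ _ ρ.finrank_eq (h _ hu))

/-- integers congruent modulo `lam ^ n` are congruent modulo `𝔪 ^ n` in `T` -/
theorem intCast_sub_mem (hlamT : (lam : T) ∈ IsLocalRing.maximalIdeal T) {n : ℕ} {e e' : ℤ}
    (he : (e : ZMod (lam ^ n)) = (e' : ZMod (lam ^ n))) :
    (e : T) - (e' : T) ∈ IsLocalRing.maximalIdeal T ^ n := by
  have hdvd : ((lam ^ n : ℕ) : ℤ) ∣ e - e' := by
    rw [← ZMod.intCast_zmod_eq_zero_iff_dvd]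
    push_cast
    rw [sub_eq_zero]
    exact he
  obtain ⟨t, ht⟩ := hdvd
  have e1 : (e : T) - (e' : T) = (lam : T) ^ n * (t : T) := by
    have := congrArg (Int.cast : ℤ → T) ht
    push_cast at this
    exact this
  rw [e1]
  exact Ideal.mul_mem_right _ _ (Ideal.pow_mem_pow hlamT n)

/-- the cyclotomic character of a Frobenius element at `q ≠ lam` -/
theorem chiM_frob_eq (hlam : lam.Prime) {q : ℕ} (hq : q.Prime) (hqlam : q ≠ lam) (n : ℕ)
    [NeZero (lam ^ n)] {P : ValuationSubring Qb} (hP : P.LiesOverPrime q) {φ : Gal}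
    (hφ : P.IsFrobeniusAt φ q) :
    (((Fermat.Agent.S31.Cyc.chiM (lam ^ n) φ : (ZMod (lam ^ n))ˣ) : ZMod (lam ^ n)))
      = (((q : ℤ) : ℤ) : ZMod (lam ^ n)) := by
  have hqn : ¬ q ∣ lam ^ n := by
    intro hd
    exact hqlam ((Nat.prime_dvd_prime_iff_eq hq hlam).mp (hq.dvd_of_dvd_pow hd))
  have := chiM_frob_pow (lam ^ n) hq hqn hP hφ 1
  rw [pow_one, pow_one] at this
  exact this

/-- **the determinant of a Frobenius element at `q`**, modulo `𝔪 ^ k` -/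
theorem det_frob_sub_mem (hlam : lam.Prime) (hlamT : (lam : T) ∈ IsLocalRing.maximalIdeal T)
    (hlamS : lam ∈ S) (hMS : ∀ q : ℕ, q.Prime → q ∣ M → q ∈ S)
    (ρ : GaloisRepAdic T) (π : CuspForm.heckeAlgebra M 2 (↑S : Set ℕ) →+* T)
    (hcp : CharpolyFrob M S ρ π)
    {q : ℕ} (hq : q.Prime) (hqlam : q ≠ lam)
    {P : ValuationSubring Qb} (hP : P.LiesOverPrime q) {φ : Gal} (hφ : P.IsFrobeniusAt φ q)
    (k : ℕ) :
    LinearMap.det (ρ.ρ φ) - (q : T) ∈ IsLocalRing.maximalIdeal T ^ k := by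
  classical
  obtain ⟨L, hL, hdet⟩ := exists_det_level' ρ k
  haveI : NeZero (lam ^ k) := ⟨pow_ne_zero _ hlam.ne_zero⟩
  obtain ⟨Θ, hΘ1, hΘ2, hΘ3⟩ := Fermat.Agent.S29.ThetaJ.exists_theta_Lam M (lam ^ k)
  obtain ⟨K₁, hK₁, hfix⟩ := exists_fixing_theta Θ
  obtain ⟨K₂, hK₂, hχ⟩ := Fermat.Agent.S31.Cyc.chiM_finiteLevel (lam ^ k)
  haveI := hL
  haveI := hK₁
  haveI := hK₂
  have hK : FiniteDimensional ℚ (L ⊔ K₁ ⊔ K₂ : IntermediateField ℚ Qb) := inferInstance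
  have hLK : L ≤ L ⊔ K₁ ⊔ K₂ := le_sup_left.trans le_sup_left
  have hK₁K : K₁ ≤ L ⊔ K₁ ⊔ K₂ := le_sup_right.trans le_sup_left
  have hK₂K : K₂ ≤ L ⊔ K₁ ⊔ K₂ := le_sup_right
  obtain ⟨F, s, e, hg, -, hd, hc, -⟩ :=
    exists_frob_approx' hlam hlamS hMS ρ π hcp k Θ hΘ1 hΘ3 K₁ K₂ _ hK hK₁K hK₂K hfix hχ φ
  have he : (e : ZMod (lam ^ k)) = (((q : ℤ) : ℤ) : ZMod (lam ^ k)) := by
    rw [← hc]
    exact chiM_frob_eq hlam hq hqlam k hP hφ
  have h1 : (e : T) - ((q : ℤ) : T) ∈ IsLocalRing.maximalIdeal T ^ k :=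
    intCast_sub_mem hlamT he
  have h2 := hdet φ s (fun x hx => hg x (hLK hx))
  rw [hd] at h2
  have e2 : LinearMap.det (ρ.ρ φ) - (q : T)
      = (LinearMap.det (ρ.ρ φ) - (e : T)) + ((e : T) - ((q : ℤ) : T)) := by
    push_cast
    ring
  rw [e2]
  exact Ideal.add_mem _ h2 h1

/-- **the trace relation modulo `𝔪 ^ k`** -/
theorem trace_key_mem (hlam : lam.Prime) (hlamT : (lam : T) ∈ IsLocalRing.maximalIdeal T)
    (hlamS : lam ∈ S) (hMS : ∀ q : ℕ, q.Prime → q ∣ M → q ∈ S)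
    (ρ : GaloisRepAdic T) (π : CuspForm.heckeAlgebra M 2 (↑S : Set ℕ) →+* T)
    (hcp : CharpolyFrob M S ρ π)
    {q : ℕ} (hq : q.Prime) (hqlam : q ≠ lam)
    (η : FreeAlgebra ℤ (HIdx M (↑S : Set ℕ))) (hkey : KeyInput M (↑S : Set ℕ) lam q η)
    {P : ValuationSubring Qb} (hP : P.LiesOverPrime q) {φ : Gal} (hφ : P.IsFrobeniusAt φ q)
    (k : ℕ) :
    (ρ.trace φ ^ 2 - ((q : T) + 1) ^ 2) * π (evT M (↑S : Set ℕ) η)
      ∈ IsLocalRing.maximalIdeal T ^ k := by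
  classical
  obtain ⟨M₀, hM₀, hsat⟩ := hecke_saturation M (↑S : Set ℕ)
  obtain ⟨L, hL, htr⟩ := exists_trace_level ρ k
  set n := k + padicValNat lam M₀ with hn
  haveI : NeZero (lam ^ n) := ⟨pow_ne_zero _ hlam.ne_zero⟩
  obtain ⟨Θ, hΘ1, hΘ2, hΘ3, hrelΘ⟩ := hkey n
  obtain ⟨K₁, hK₁, hfix⟩ := exists_fixing_theta Θ
  obtain ⟨K₂, hK₂, hχ⟩ := Fermat.Agent.S31.Cyc.chiM_finiteLevel (lam ^ n)
  haveI := hL
  haveI := hK₁
  haveI := hK₂
  have hK : FiniteDimensional ℚ (L ⊔ K₁ ⊔ K₂ : IntermediateField ℚ Qb) := inferInstance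
  have hLK : L ≤ L ⊔ K₁ ⊔ K₂ := le_sup_left.trans le_sup_left
  have hK₁K : K₁ ≤ L ⊔ K₁ ⊔ K₂ := le_sup_right.trans le_sup_left
  have hK₂K : K₂ ≤ L ⊔ K₁ ⊔ K₂ := le_sup_right
  obtain ⟨F, s, e, hg, ht, -, hc, hΘF⟩ :=
    exists_frob_approx' hlam hlamS hMS ρ π hcp n Θ hΘ1 hΘ3 K₁ K₂ _ hK hK₁K hK₂K hfix hχ φ
  have he : (e : ZMod (lam ^ n)) = (((q : ℤ) : ℤ) : ZMod (lam ^ n)) := by
    rw [← hc]
    exact chiM_frob_eq hlam hq hqlam n hP hφ
  have htor : ∀ (τ : Gal) (c : Lam M), lam ^ n • (τ • Θ c) = 0 := by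
    intro τ c
    have := map_nsmul (galAdd M τ) (lam ^ n) (Θ c)
    rw [galAdd_apply, galAdd_apply, hΘ1 c] at this
    rw [← this]
    exact map_zero (galAdd M τ)
  -- the relation on the lattice
  have hrel : ∀ c : Lam M, ∃ c' : Lam M,
      evPar M (↑S : Set ℕ)
        ((F * F - algebraMap ℤ _ (((q + 1) ^ 2 : ℕ) : ℤ)) * η) c = (lam ^ n) • c' := by
    intro c
    apply hΘ2
    rw [map_mul, Module.End.mul_apply, map_sub, map_mul, AlgHom.commutes, LinearMap.sub_apply,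
      Module.End.mul_apply, Module.algebraMap_end_apply, map_sub, map_zsmul, natCast_zsmul]
    exact key_combine φ e q (Θ (evPar M (↑S : Set ℕ) η c)) _ _ (hΘF _) (hΘF _)
      (zsmul_eq_of_zmod_eq he (htor φ⁻¹ _)) (zsmul_eq_of_zmod_eq he (htor φ⁻¹ _))
      (hrelΘ P hP φ hφ c)
  obtain ⟨Q, hQ⟩ := hsat (lam ^ n) _ hrel
  have key := map_mem_pow_of_nsmul_eq π hlam hlamT M₀ hM₀ k n le_rfl _ _ hQ
  rw [map_mul, map_mul, map_sub, map_mul, AlgHom.commutes, map_sub, map_mul, ← ht] at key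
  have h1 := htr φ s (fun x hx => hg x (hLK hx))
  have e0 : π ((algebraMap ℤ (heckeAlgebra M 2 (↑S : Set ℕ))) (((q + 1) ^ 2 : ℕ) : ℤ))
      = ((q : T) + 1) ^ 2 := by
    rw [eq_intCast, map_intCast]
    push_cast
    rfl
  rw [e0] at key
  have e1 : (ρ.trace φ ^ 2 - ((q : T) + 1) ^ 2) * π (evT M (↑S : Set ℕ) η)
      = (ρ.trace φ - ρ.trace s) * ((ρ.trace φ + ρ.trace s) * π (evT M (↑S : Set ℕ) η))
        + (ρ.trace s * ρ.trace s - ((q : T) + 1) ^ 2) * π (evT M (↑S : Set ℕ) η) := by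
    ring
  rw [e1]
  exact Ideal.add_mem _ (Ideal.mul_mem_right _ _ h1) key

/-- the characteristic polynomial of an endomorphism of a free module of rank two -/
theorem charpoly_eq_of_rank_two' {V : Type*} [AddCommGroup V] [Module T V]
    [Module.Free T V] [Module.Finite T V] (f : Module.End T V)
    (hrank : Module.finrank T V = 2) :
    LinearMap.charpoly f = X ^ 2 - C (LinearMap.trace T V f) * X + C (LinearMap.det f) := by
  classical
  let b := Module.finBasisOfFinrankEq T V hrank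
  rw [← LinearMap.charpoly_toMatrix f b, Matrix.charpoly_fin_two,
    ← LinearMap.trace_eq_matrix_trace T b f, LinearMap.det_toMatrix b f]

/-- **(C5)**: the key relation gives the characteristic polynomial of the Frobenius elements at
`q` -/
theorem charpoly_of_key [IsDomain T] [IsNoetherianRing T] (hlam : lam.Prime)
    (hlamT : (lam : T) ∈ IsLocalRing.maximalIdeal T)
    (hlamS : lam ∈ S) (hMS : ∀ q : ℕ, q.Prime → q ∣ M → q ∈ S)
    (ρ : GaloisRepAdic T) (π : CuspForm.heckeAlgebra M 2 (↑S : Set ℕ) →+* T)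
    (hcp : CharpolyFrob M S ρ π)
    {q : ℕ} (hq : q.Prime) (hqlam : q ≠ lam)
    (η : FreeAlgebra ℤ (HIdx M (↑S : Set ℕ))) (hη : π (evT M (↑S : Set ℕ) η) ≠ 0)
    (hkey : KeyInput M (↑S : Set ℕ) lam q η)
    {P : ValuationSubring Qb} (hP : P.LiesOverPrime q) {φ : Gal} (hφ : P.IsFrobeniusAt φ q) :
    LinearMap.charpoly (ρ.ρ φ) = X ^ 2 - C ((q : T) + 1) * X + C ((q : T)) ∨
      LinearMap.charpoly (ρ.ρ φ) = X ^ 2 + C ((q : T) + 1) * X + C ((q : T)) := by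
  have hbot : ⨅ k : ℕ, IsLocalRing.maximalIdeal T ^ k = ⊥ :=
    Ideal.iInf_pow_eq_bot_of_isLocalRing _ (IsLocalRing.maximalIdeal.isMaximal T).ne_top
  have hdet : LinearMap.det (ρ.ρ φ) = (q : T) := by
    have hmem : LinearMap.det (ρ.ρ φ) - (q : T) ∈ ⨅ k : ℕ, IsLocalRing.maximalIdeal T ^ k := by
      rw [Ideal.mem_iInf]
      intro k
      exact det_frob_sub_mem hlam hlamT hlamS hMS ρ π hcp hq hqlam hP hφ k
    rw [hbot] at hmem
    exact sub_eq_zero.mp hmem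
  have htr : (ρ.trace φ ^ 2 - ((q : T) + 1) ^ 2) * π (evT M (↑S : Set ℕ) η) = 0 := by
    have hmem : (ρ.trace φ ^ 2 - ((q : T) + 1) ^ 2) * π (evT M (↑S : Set ℕ) η)
        ∈ ⨅ k : ℕ, IsLocalRing.maximalIdeal T ^ k := by
      rw [Ideal.mem_iInf]
      intro k
      exact trace_key_mem hlam hlamT hlamS hMS ρ π hcp hq hqlam η hkey hP hφ k
    rw [hbot] at hmem
    exact hmem
  have htr2 : ρ.trace φ ^ 2 - ((q : T) + 1) ^ 2 = 0 := by
    rcases mul_eq_zero.mp htr with h | h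
    · exact h
    · exact absurd h hη
  have htr3 : (ρ.trace φ - ((q : T) + 1)) * (ρ.trace φ + ((q : T) + 1)) = 0 := by
    rw [← htr2]
    ring
  have hcpφ := charpoly_eq_of_rank_two' (ρ.ρ φ) ρ.finrank_eq
  rw [hdet] at hcpφ
  rcases mul_eq_zero.mp htr3 with h | h
  · left
    have h' : LinearMap.trace T ρ.V (ρ.ρ φ) = (q : T) + 1 := sub_eq_zero.mp h
    rw [hcpφ, h']
  · right
    have h' : LinearMap.trace T ρ.V (ρ.ρ φ) = -((q : T) + 1) := eq_neg_of_add_eq_zero_left h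
    rw [hcpφ, h', map_neg]
    ring

end Approx

section Iota

/-- a ring homomorphism from a domain which is integral over `ℤ` to a ring of characteristic zero
is injective -/
theorem injective_of_integral_charZero {R : Type*} [CommRing R] [IsDomain R]
    [Algebra.IsIntegral ℤ R] {T : Type*} [CommRing T] [CharZero T] (f : R →+* T) :
    Function.Injective f := by
  rw [RingHom.injective_iff_ker_eq_bot]
  apply Ideal.eq_bot_of_comap_eq_bot (R := ℤ)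
  rw [eq_bot_iff]
  intro x hx
  rw [Ideal.mem_comap, RingHom.mem_ker] at hx
  have h1 : (f.comp (algebraMap ℤ R)) x = 0 := hx
  rw [eq_intCast] at h1
  rw [Ideal.mem_bot]
  exact_mod_cast h1

/-- the range of a character of the Hecke algebra is integral over `ℤ` -/
theorem isIntegral_range {M : ℕ} [NeZero M] (S : Set ℕ)
    (chig : CuspForm.heckeAlgebra M 2 S →+* ℂ) : Algebra.IsIntegral ℤ chig.range := by
  haveI : Module.Finite ℤ (CuspForm.heckeAlgebra M 2 S) := Fermat.Agent.S22.result M 2 S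
  refine ⟨fun x => ?_⟩
  obtain ⟨y, hy⟩ := chig.rangeRestrict_surjective x
  have hint : IsIntegral ℤ y := Algebra.IsIntegral.isIntegral y
  rw [← hy]
  exact hint.map (chig.rangeRestrict.toIntAlgHom)

/-- `iota` is injective -/
theorem iota_injective {M : ℕ} [NeZero M] (S : Set ℕ)
    (chig : CuspForm.heckeAlgebra M 2 S →+* ℂ) {O' : Type*} [CommRing O'] [CharZero O']
    (iota : chig.range →+* O') : Function.Injective iota := by
  haveI := isIntegral_range S chig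
  exact injective_of_integral_charZero iota

end Iota

section Final

open CuspForm

/-- **the wiring of S35**: the statement follows from the existence, for every prime `q ≠ lam`
exactly dividing `M`, of `η` with `chig η ≠ 0` and the key relation -/
theorem result_of_key
    {M : ℕ} [NeZero M]
    (lam : ℕ) [Fact lam.Prime]
    (S : Finset ℕ)
    (O' : Type) [CommRing O'] [IsDomain O'] [IsDiscreteValuationRing O']
    [IsAdicComplete (IsLocalRing.maximalIdeal O') O'] [Finite (IsLocalRing.ResidueField O')]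
    [CharZero O'] (hlamO' : (lam : O') ∈ IsLocalRing.maximalIdeal O')
    (chig : CuspForm.heckeAlgebra M 2 (↑S : Set ℕ) →+* ℂ)
    (iota : chig.range →+* O')
    (hlamS : lam ∈ S) (hMS : ∀ q : ℕ, q.Prime → q ∣ M → q ∈ S)
    (hkey : ∀ q : ℕ, q.Prime → q ≠ lam → q ∣ M → ¬ q ^ 2 ∣ M →
      ∃ η : FreeAlgebra ℤ (HIdx M (↑S : Set ℕ)),
        chig (evT M (↑S : Set ℕ) η) ≠ 0 ∧ KeyInput M (↑S : Set ℕ) lam q η) :
    ∃ (O'' : Type) (_ : CommRing O'') (_ : IsDomain O'') (_ : IsDiscreteValuationRing O'')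
      (_ : IsAdicComplete (IsLocalRing.maximalIdeal O'') O'') (_ : Finite (IsLocalRing.ResidueField O''))
      (_ : CharZero O'') (_ : Algebra O' O'') (_ : Module.Finite O' O'') (_ : IsLocalHom (algebraMap O' O'')),
      Function.Injective (algebraMap O' O'') ∧
      ∃ ρ : GaloisRepAdic O'',
        (∀ (ℓ : ℕ) (hℓ : ℓ.Prime) (hℓM : ¬ ℓ ∣ M) (hℓS : ℓ ∉ (↑S : Set ℕ)),
          ∀ A : ValuationSubring (AlgebraicClosure ℚ), A.LiesOverPrime ℓ →
            ∀ σ : AlgebraicClosure ℚ ≃ₐ[ℚ] AlgebraicClosure ℚ, A.IsFrobeniusAt σ ℓ →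
              LinearMap.charpoly (ρ.ρ σ) =
                X ^ 2 - C (algebraMap O' O'' ((iota.comp chig.rangeRestrict) (CuspForm.heckeAlgebra.T hℓ hℓM hℓS))) * X
                  + C ((ℓ : O''))) ∧
        (∀ q : ℕ, q.Prime → q ≠ lam → q ∣ M → ¬ q ^ 2 ∣ M →
          ∀ A : ValuationSubring (AlgebraicClosure ℚ), A.LiesOverPrime q →
            ∀ σ : AlgebraicClosure ℚ ≃ₐ[ℚ] AlgebraicClosure ℚ, A.IsFrobeniusAt σ q →
              LinearMap.charpoly (ρ.ρ σ) = X ^ 2 - C ((q : O'') + 1) * X + C ((q : O'')) ∨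
              LinearMap.charpoly (ρ.ρ σ) = X ^ 2 + C ((q : O'') + 1) * X + C ((q : O''))) := by
  obtain ⟨O'', i1, i2, i3, i4, i5, i6, i7, i8, i9, hinj, ρ, hρ1, -⟩ :=
    Fermat.Agent.S30.result lam M S hlamS hMS O' hlamO' (iota.comp chig.rangeRestrict)
  refine ⟨O'', i1, i2, i3, i4, i5, i6, i7, i8, i9, hinj, ρ, hρ1, ?_⟩
  intro q hq hqlam hqM hq2 A hA σ hσ
  obtain ⟨η, hη, hk⟩ := hkey q hq hqlam hqM hq2
  have hlam : lam.Prime := Fact.out
  have hlamO'' : (lam : O'') ∈ IsLocalRing.maximalIdeal O'' := by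
    rw [IsLocalRing.mem_maximalIdeal, mem_nonunits_iff]
    intro hu
    have h1 : IsUnit (algebraMap O' O'' (lam : O')) := by rwa [map_natCast]
    have h2 : IsUnit (lam : O') := isUnit_of_map_unit (algebraMap O' O'') _ h1
    exact ((IsLocalRing.mem_maximalIdeal _).mp hlamO') h2
  have hη' : ((algebraMap O' O'').comp (iota.comp chig.rangeRestrict))
      (evT M (↑S : Set ℕ) η) ≠ 0 := by
    intro h0
    have h1 : (iota.comp chig.rangeRestrict) (evT M (↑S : Set ℕ) η) = 0 := by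
      apply hinj
      rw [map_zero]
      exact h0
    have h2 : chig.rangeRestrict (evT M (↑S : Set ℕ) η) = 0 := by
      apply iota_injective (↑S : Set ℕ) chig iota
      rw [map_zero]
      exact h1
    apply hη
    have := congrArg Subtype.val h2
    exact this
  exact charpoly_of_key hlam hlamO'' hlamS hMS ρ
    ((algebraMap O' O'').comp (iota.comp chig.rangeRestrict)) hρ1 hq hqlam η hη' hk hA hσ

end Final

end Fermat.Agent.S35.TrK
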