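import Mathlib
import Fermat.Agent.S35.TransferKey
import Fermat.Agent.S35.GlueKeyJ

/-!
# C84 (S35): adapter between the glue (`KeySq`) and the transfer (`KeyInput`)

`keyInput_of_keySq`: if `(KEY)` holds on the new torsion points of `J₀(M)` (`KeySq New M q lam`)
and for every `n` there is a parametrisation `Θ : Λ → J₀(M)[lam ^ n]` whose values on the
image of `η` are new, then `KeyInput M S lam q η`.

`result_of_keySq`: the statement of S35 from these two inputs.
-/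

set_option autoImplicit false
set_option linter.unusedSectionVars false
set_option linter.unusedVariables false
set_option linter.style.haveILetI false

noncomputable section

namespace Fermat.Agent.S35.TrK

open Polynomial ModularCurve Fermat.Agent.S31.Lat

local notation "Qb" => AlgebraicClosure ℚ
local notation "Gal" => (AlgebraicClosure ℚ ≃ₐ[ℚ] AlgebraicClosure ℚ)

/-- the two forms of the key relation agree -/
theorem key_form_iff {J : Type*} [AddCommGroup J] {G : Type*} [Group G]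
    [DistribMulAction G J] (φ : G) (q : ℕ) (x : J) :
    (φ * φ) • ((φ * φ) • x - x) - (q ^ 2) • ((φ * φ) • x - x) = 0 ↔
      φ • φ • φ • φ • x - (1 + q ^ 2) • (φ • φ • x) + q ^ 2 • x = 0 := by
  have e : (φ * φ) • ((φ * φ) • x - x) - (q ^ 2) • ((φ * φ) • x - x)
      = φ • φ • φ • φ • x - (1 + q ^ 2) • (φ • φ • x) + q ^ 2 • x := by
    rw [smul_sub, mul_smul, mul_smul, smul_sub, add_smul, one_smul]
    abel
  rw [e]

/-- the parametrisation hypothesis: for every `n` a Hecke-equivariant parametrisation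
`Θ : Λ → J₀(M)[lam ^ n]` with kernel `lam ^ n Λ` whose values on the image of `η` are new -/
def NewInput (New : ∀ (M : ℕ) [NeZero M], JZero M → Prop) (M : ℕ) [NeZero M] (S : Set ℕ)
    (lam : ℕ) (η : FreeAlgebra ℤ (HIdx M S)) : Prop :=
  ∀ n : ℕ, ∃ Θ : Lam M →+ JZero M,
    (∀ c, lam ^ n • Θ c = 0) ∧ (∀ c, Θ c = 0 → ∃ c', c = lam ^ n • c') ∧
    (∀ (ℓ : ℕ) (hℓ : ℓ.Prime) (hℓN : ¬ ℓ ∣ M) (c : Lam M),
        Θ (Tpar hℓ hℓN c) = heckeOperatorBar M ⟨ℓ, hℓ⟩ (Θ c)) ∧
    ∀ c : Lam M, New M (Θ (evPar M S η c))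

theorem keyInput_of_keySq {New : ∀ (M : ℕ) [NeZero M], JZero M → Prop} {M : ℕ} [NeZero M]
    {S : Set ℕ} {lam q : ℕ} {η : FreeAlgebra ℤ (HIdx M S)}
    (hK : Fermat.Agent.S35.KeySq New M q lam) (hN : NewInput New M S lam η) :
    KeyInput M S lam q η := by
  intro n
  obtain ⟨Θ, hΘ1, hΘ2, hΘ3, hΘ4⟩ := hN n
  refine ⟨Θ, hΘ1, hΘ2, hΘ3, fun P hP φ hφ c => ?_⟩
  exact (key_form_iff φ q _).mp (hK P hP φ hφ _ ⟨n, hΘ1 _⟩ (hΘ4 c))

open CuspForm in
/-- **the wiring of S35, glue form**: the statement follows from `KeySq New M q lam` and the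
existence of `η` with `chig η ≠ 0` and `NewInput New M S lam η`, for every prime `q ≠ lam`
exactly dividing `M` -/
theorem result_of_keySq
    {M : ℕ} [NeZero M]
    (lam : ℕ) [Fact lam.Prime]
    (S : Finset ℕ)
    (O' : Type) [CommRing O'] [IsDomain O'] [IsDiscreteValuationRing O']
    [IsAdicComplete (IsLocalRing.maximalIdeal O') O'] [Finite (IsLocalRing.ResidueField O')]
    [CharZero O'] (hlamO' : (lam : O') ∈ IsLocalRing.maximalIdeal O')
    (chig : CuspForm.heckeAlgebra M 2 (↑S : Set ℕ) →+* ℂ)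
    (iota : chig.range →+* O')
    (hlamS : lam ∈ S) (hMS : ∀ q : ℕ, q.Prime → q ∣ M → q ∈ S)
    (hkey : ∀ q : ℕ, q.Prime → q ≠ lam → q ∣ M → ¬ q ^ 2 ∣ M →
      ∃ (New : ∀ (M : ℕ) [NeZero M], JZero M → Prop)
        (η : FreeAlgebra ℤ (HIdx M (↑S : Set ℕ))),
        chig (evT M (↑S : Set ℕ) η) ≠ 0 ∧ Fermat.Agent.S35.KeySq New M q lam ∧
          NewInput New M (↑S : Set ℕ) lam η) :
    ∃ (O'' : Type) (_ : CommRing O'') (_ : IsDomain O'') (_ : IsDiscreteValuationRing O'')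
      (_ : IsAdicComplete (IsLocalRing.maximalIdeal O'') O'') (_ : Finite (IsLocalRing.ResidueField O''))
      (_ : CharZero O'') (_ : Algebra O' O'') (_ : Module.Finite O' O'') (_ : IsLocalHom (algebraMap O' O'')),
      Function.Injective (algebraMap O' O'') ∧
      ∃ ρ : GaloisRepAdic O'',
        (∀ (ℓ : ℕ) (hℓ : ℓ.Prime) (hℓM : ¬ ℓ ∣ M) (hℓS : ℓ ∉ (↑S : Set ℕ)),
          ∀ A : ValuationSubring (AlgebraicClosure ℚ), A.LiesOverPrime ℓ →
            ∀ σ : AlgebraicClosure ℚ ≃ₐ[ℚ] AlgebraicClosure ℚ, A.IsFrobeniusAt σ ℓ →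
              LinearMap.charpoly (ρ.ρ σ) =
                X ^ 2 - C (algebraMap O' O'' ((iota.comp chig.rangeRestrict) (CuspForm.heckeAlgebra.T hℓ hℓM hℓS))) * X
                  + C ((ℓ : O''))) ∧
        (∀ q : ℕ, q.Prime → q ≠ lam → q ∣ M → ¬ q ^ 2 ∣ M →
          ∀ A : ValuationSubring (AlgebraicClosure ℚ), A.LiesOverPrime q →
            ∀ σ : AlgebraicClosure ℚ ≃ₐ[ℚ] AlgebraicClosure ℚ, A.IsFrobeniusAt σ q →
              LinearMap.charpoly (ρ.ρ σ) = X ^ 2 - C ((q : O'') + 1) * X + C ((q : O'')) ∨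
              LinearMap.charpoly (ρ.ρ σ) = X ^ 2 + C ((q : O'') + 1) * X + C ((q : O''))) := by
  refine result_of_key lam S O' hlamO' chig iota hlamS hMS ?_
  intro q hq hqlam hqM hq2
  obtain ⟨New, η, hη, hK, hN⟩ := hkey q hq hqlam hqM hq2
  exact ⟨η, hη, keyInput_of_keySq hK hN⟩

end Fermat.Agent.S35.TrK
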