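import Mathlib
import Fermat.Agent.S35.KeyAdapter
import Fermat.Agent.S35.Eta

/-!
# C84 (S35): the final assembly, with the geometric inputs as hypotheses

`result_of_parts`: the statement of S35 from

* `hK` : the key relation `KeySq (New q) N q lam` at all levels `N` with `q ∥ N`
  (glue: `keySq_of_core_all`), and
* `hB` : the bridge: for every level `N q` (`q ∤ N`) and every `m` a Hecke-equivariant
  parametrisation `Θ : Λ_{N q} → J₀(N q)[m]` with kernel `m Λ` such that `Θ c` is new as soon as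
  `i† c = 0`.

The Hecke element `η` comes from `Eta.exists_eta` (newness of `g`), the representation from
`S30.result`, the transfer from `TrK.charpoly_of_key`.
-/

set_option autoImplicit false
set_option linter.unusedSectionVars false
set_option linter.unusedVariables false
set_option linter.style.haveILetI false

noncomputable section

namespace Fermat.Agent.S35.Fin

open Polynomial ModularCurve Fermat.Agent.S31.Lat Fermat.Agent.S41.P3 CuspForm

local notation "Qb" => AlgebraicClosure ℚ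
local notation "Gal" => (AlgebraicClosure ℚ ≃ₐ[ℚ] AlgebraicClosure ℚ)

/-- the bridge hypothesis at the level `N q` -/
def BridgeAt (New : ∀ (M : ℕ) [NeZero M], JZero M → Prop) (N q : ℕ) [NeZero N]
    [Fact q.Prime] (hqN : ¬ q ∣ N) (m : ℕ) : Prop :=
  ∃ Θ : Lam (N * q) →+ JZero (N * q),
    (∀ c, m • Θ c = 0) ∧ (∀ c, Θ c = 0 → ∃ c', c = m • c') ∧
    (∀ (ℓ : ℕ) (hℓ : ℓ.Prime) (hℓN : ¬ ℓ ∣ N * q) (c : Lam (N * q)),
        Θ (Tpar hℓ hℓN c) = heckeOperatorBar (N * q) ⟨ℓ, hℓ⟩ (Θ c)) ∧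
    ∀ c : Lam (N * q), iLamDual hqN c = 0 → New (N * q) (Θ c)

theorem result_of_parts
    {M : ℕ} [NeZero M] {g : CuspForm (CongruenceSubgroup.Gamma0 M) 2} (hg : g.IsNewform)
    (lam : ℕ) [Fact lam.Prime]
    (S : Finset ℕ)
    (O' : Type) [CommRing O'] [IsDomain O'] [IsDiscreteValuationRing O']
    [IsAdicComplete (IsLocalRing.maximalIdeal O') O'] [Finite (IsLocalRing.ResidueField O')]
    [CharZero O'] (hlamO' : (lam : O') ∈ IsLocalRing.maximalIdeal O')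
    (chig : CuspForm.heckeAlgebra M 2 (↑S : Set ℕ) →+* ℂ)
    (hchig : ∀ (ℓ : ℕ) (hℓ : ℓ.Prime) (hℓM : ¬ ℓ ∣ M) (hℓS : ℓ ∉ (↑S : Set ℕ)),
      chig (CuspForm.heckeAlgebra.T hℓ hℓM hℓS) = ModularFormClass.qCoeff g ℓ)
    (iota : chig.range →+* O')
    (hlamS : lam ∈ S) (hMS : ∀ q : ℕ, q.Prime → q ∣ M → q ∈ S)
    (New : ℕ → ∀ (M : ℕ) [NeZero M], JZero M → Prop)
    (hK : ∀ q : ℕ, q.Prime → q ≠ lam → ∀ (N : ℕ) [NeZero N], q ∣ N → ¬ q ^ 2 ∣ N →
      Fermat.Agent.S35.KeySq (New q) N q lam)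
    (hB : ∀ (N q : ℕ) [NeZero N] [Fact q.Prime] (hqN : ¬ q ∣ N) (m : ℕ) [NeZero m],
      BridgeAt (New q) N q hqN m) :
    ∃ (O'' : Type) (_ : CommRing O'') (_ : IsDomain O'') (_ : IsDiscreteValuationRing O'')
      (_ : IsAdicComplete (IsLocalRing.maximalIdeal O'') O'') (_ : Finite (IsLocalRing.ResidueField O''))
      (_ : CharZero O'') (_ : Algebra O' O'') (_ : Module.Finite O' O'') (_ : IsLocalHom (algebraMap O' O'')),
      Function.Injective (algebraMap O' O'') ∧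
      ∃ ρ : GaloisRepAdic O'',
        (∀ (ℓ : ℕ) (hℓ : ℓ.Prime) (hℓM : ¬ ℓ ∣ M) (hℓS : ℓ ∉ (↑S : Set ℕ)),
          ∀ A : ValuationSubring (AlgebraicClosure ℚ), A.LiesOverPrime ℓ →
            ∀ σ : AlgebraicClosure ℚ ≃ₐ[ℚ] AlgebraicClosure ℚ, A.IsFrobeniusAt σ ℓ →
              LinearMap.charpoly (ρ.ρ σ) =
                X ^ 2 - C (algebraMap O' O'' ((iota.comp chig.rangeRestrict) (CuspForm.heckeAlgebra.T hℓ hℓM hℓS))) * X
                  + C ((ℓ : O''))) ∧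
        (∀ q : ℕ, q.Prime → q ≠ lam → q ∣ M → ¬ q ^ 2 ∣ M →
          ∀ A : ValuationSubring (AlgebraicClosure ℚ), A.LiesOverPrime q →
            ∀ σ : AlgebraicClosure ℚ ≃ₐ[ℚ] AlgebraicClosure ℚ, A.IsFrobeniusAt σ q →
              LinearMap.charpoly (ρ.ρ σ) = X ^ 2 - C ((q : O'') + 1) * X + C ((q : O'')) ∨
              LinearMap.charpoly (ρ.ρ σ) = X ^ 2 + C ((q : O'') + 1) * X + C ((q : O''))) := by
  refine Fermat.Agent.S35.TrK.result_of_keySq lam S O' hlamO' chig iota hlamS hMS ?_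
  intro q hq hqlam hqM hq2
  obtain ⟨N, hN⟩ := hqM
  rw [Nat.mul_comm] at hN
  subst hN
  haveI : Fact q.Prime := ⟨hq⟩
  haveI hN0 : NeZero N := ⟨fun h => by
    have h1 : N * q ≠ 0 := NeZero.ne (N * q)
    rw [h, zero_mul] at h1
    exact h1 rfl⟩
  have hqN : ¬ q ∣ N := by
    intro h
    apply hq2
    rw [pow_two]
    exact mul_dvd_mul h (dvd_refl q)
  obtain ⟨η, hη0, hη⟩ := Fermat.Agent.S35.Eta.exists_eta hqN hg S hMS chig hchig
  refine ⟨New q, η, hη, hK q hq hqlam (N * q) ⟨N, Nat.mul_comm N q⟩ hq2, ?_⟩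
  intro n
  haveI : NeZero (lam ^ n) := ⟨pow_ne_zero _ (Fact.out : lam.Prime).ne_zero⟩
  obtain ⟨Θ, h1, h2, h3, h4⟩ := hB N q hqN (lam ^ n)
  exact ⟨Θ, h1, h2, h3, fun c => h4 _ (Fermat.Agent.S35.Eta.iLamDual_eta hqN η hη0 c)⟩

end Fermat.Agent.S35.Fin
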