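import Mathlib
import Fermat.Agent.S35.FinalAsm
import Fermat.Agent.S35.NewDef

/-!
# C84 (S35): the final assembly from `Core35`, `hNew` and the bridge

`result_of_core`: the statement of S35 from

* `hC`   : `Core35 q (NewDef.New q)` for every prime `q` (core assembly),
* `hNew` : stability of `NewDef.New q` under the pull-backs `V_b^*`, `b ≠ q` prime (level up),
* `hBr`  : `ThetaBridge N q hqN m` for all levels `N q`, `q ∤ N`, and all `m ≠ 0` (bridge).
-/

set_option autoImplicit false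
set_option linter.unusedSectionVars false
set_option linter.unusedVariables false
set_option linter.style.haveILetI false
set_option synthInstance.maxHeartbeats 400000
set_option maxHeartbeats 1000000

noncomputable section

namespace Fermat.Agent.S35.Fin

open Polynomial AlgebraicCurve ModularCurve Fermat.Agent.S31.Lat Fermat.Agent.S41.P3 CuspForm
open Fermat.Agent.S37

local notation "Qb" => AlgebraicClosure ℚ
local notation "Gal" => (AlgebraicClosure ℚ ≃ₐ[ℚ] AlgebraicClosure ℚ)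

/-- **the bridge** (piece C6), in the form delivered by `exists_theta_bridge` -/
def ThetaBridge (N q : ℕ) [NeZero N] [Fact q.Prime] (hqN : ¬ q ∣ N) (m : ℕ) : Prop :=
  ∃ Θ : Lam (N * q) →+ JZero (N * q),
    (∀ c, m • Θ c = 0) ∧ (∀ c, Θ c = 0 → ∃ c', c = m • c') ∧
    (∀ (ℓ : ℕ) (hℓ : ℓ.Prime) (hℓN : ¬ ℓ ∣ N * q) (c : Lam (N * q)),
        Θ (Tpar hℓ hℓN c) = heckeOperatorBar (N * q) ⟨ℓ, hℓ⟩ (Θ c)) ∧
    (∀ c : Lam (N * q), aDown ℤ ℤ hqN c = 0 →
      ∀ D : Divisor.degZero (K := Qb) (F := modularFunctionFieldBar (N * q)),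
        (Pic0.mk D : JZero (N * q)) = Θ c →
        Divisor.IsPrincipal (Divisor.pushforwardAlong (heckeAlphaBar Qb N q) (H.alphaInt N q)
          (D : Divisor Qb (modularFunctionFieldBar (N * q))))) ∧
    (∀ c : Lam (N * q), bDown ℤ ℤ hqN c = 0 →
      ∀ D : Divisor.degZero (K := Qb) (F := modularFunctionFieldBar (N * q)),
        (Pic0.mk D : JZero (N * q)) = Θ c →
        Divisor.IsPrincipal (Divisor.pushforwardAlong (heckeBetaBar Qb N q) (H.betaInt N q)
          (D : Divisor Qb (modularFunctionFieldBar (N * q)))))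

/-- the bridge gives the hypothesis `BridgeAt` of the final assembly for `New = NewDef.New q` -/
theorem bridgeAt_of_thetaBridge {N q : ℕ} [NeZero N] [Fact q.Prime] [NeZero q] (hqN : ¬ q ∣ N)
    {m : ℕ} (h : ThetaBridge N q hqN m) :
    BridgeAt (Fermat.Agent.S35.NewDef.New q) N q hqN m := by
  obtain ⟨Θ, h1, h2, h3, h4, h5⟩ := h
  refine ⟨Θ, h1, h2, h3, fun c hc => ?_⟩
  have hc' : (aDown ℤ ℤ hqN c, bDown ℤ ℤ hqN c) = 0 := hc
  have ha : aDown ℤ ℤ hqN c = 0 := (Prod.ext_iff.mp hc').1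
  have hb : bDown ℤ ℤ hqN c = 0 := (Prod.ext_iff.mp hc').2
  rw [Fermat.Agent.S35.NewDef.new_iff]
  intro D hD
  exact ⟨h4 c ha D hD, h5 c hb D hD⟩

theorem result_of_core
    {M : ℕ} [NeZero M] {g : CuspForm (CongruenceSubgroup.Gamma0 M) 2} (hg : g.IsNewform)
    (lam : ℕ) [Fact lam.Prime]
    (S : Finset ℕ)
    (O' : Type) [CommRing O'] [IsDomain O'] [IsDiscreteValuationRing O']
    [IsAdicComplete (IsLocalRing.maximalIdeal O') O'] [Finite (IsLocalRing.ResidueField O')]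
    [CharZero O'] (hlamO' : (lam : O') ∈ IsLocalRing.maximalIdeal O')
    (chig : CuspForm.heckeAlgebra M 2 (↑S : Set ℕ) →+* ℂ)
    (hchig : ∀ (ℓ : ℕ) (hℓ : ℓ.Prime) (hℓM : ¬ ℓ ∣ M) (hℓS : ℓ ∉ (↑S : Set ℕ)),
      chig (CuspForm.heckeAlgebra.T hℓ hℓM hℓS) = ModularFormClass.qCoeff g ℓ)
    (iota : chig.range →+* O')
    (hlamS : lam ∈ S) (hMS : ∀ q : ℕ, q.Prime → q ∣ M → q ∈ S)
    (hC : ∀ (q : ℕ) [NeZero q], q.Prime →
      Fermat.Agent.S35.Core35 q (Fermat.Agent.S35.NewDef.New q))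
    (hNew : ∀ (q : ℕ) [NeZero q], q.Prime →
      ∀ (M b : ℕ) [NeZero M] [NeZero b], b.Prime → b ≠ q → ∀ x : JZero M,
        Fermat.Agent.S35.NewDef.New q M x →
        Fermat.Agent.S35.NewDef.New q (M * b) (VI.pullPic0 (heckeBetaBar Qb M b) (H.betaInt M b)
          (H.fundamentalIdentity_beta M b) x))
    (hBr : ∀ (N q : ℕ) [NeZero N] [Fact q.Prime] (hqN : ¬ q ∣ N) (m : ℕ) [NeZero m],
      ThetaBridge N q hqN m) :
    ∃ (O'' : Type) (_ : CommRing O'') (_ : IsDomain O'') (_ : IsDiscreteValuationRing O'')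
      (_ : IsAdicComplete (IsLocalRing.maximalIdeal O'') O'') (_ : Finite (IsLocalRing.ResidueField O''))
      (_ : CharZero O'') (_ : Algebra O' O'') (_ : Module.Finite O' O'') (_ : IsLocalHom (algebraMap O' O'')),
      Function.Injective (algebraMap O' O'') ∧
      ∃ ρ : GaloisRepAdic O'',
        (∀ (ℓ : ℕ) (hℓ : ℓ.Prime) (hℓM : ¬ ℓ ∣ M) (hℓS : ℓ ∉ (↑S : Set ℕ)),
          ∀ A : ValuationSubring (AlgebraicClosure ℚ), A.LiesOverPrime ℓ →
            ∀ σ : AlgebraicClosure ℚ ≃ₐ[ℚ] AlgebraicClosure ℚ, A.IsFrobeniusAt σ ℓ →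
              LinearMap.charpoly (ρ.ρ σ) =
                X ^ 2 - C (algebraMap O' O'' ((iota.comp chig.rangeRestrict) (CuspForm.heckeAlgebra.T hℓ hℓM hℓS))) * X
                  + C ((ℓ : O''))) ∧
        (∀ q : ℕ, q.Prime → q ≠ lam → q ∣ M → ¬ q ^ 2 ∣ M →
          ∀ A : ValuationSubring (AlgebraicClosure ℚ), A.LiesOverPrime q →
            ∀ σ : AlgebraicClosure ℚ ≃ₐ[ℚ] AlgebraicClosure ℚ, A.IsFrobeniusAt σ q →
              LinearMap.charpoly (ρ.ρ σ) = X ^ 2 - C ((q : O'') + 1) * X + C ((q : O'')) ∨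
              LinearMap.charpoly (ρ.ρ σ) = X ^ 2 + C ((q : O'') + 1) * X + C ((q : O''))) := by
  refine Fermat.Agent.S35.TrK.result_of_keySq lam S O' hlamO' chig iota hlamS hMS ?_
  intro q hq hqlam hqM hq2
  have hqM' := hqM
  obtain ⟨N, hN⟩ := hqM
  rw [Nat.mul_comm] at hN
  subst hN
  haveI : Fact q.Prime := ⟨hq⟩
  haveI : NeZero q := ⟨hq.ne_zero⟩
  haveI hN0 : NeZero N := ⟨fun h => by
    have h1 : N * q ≠ 0 := NeZero.ne (N * q)
    rw [h, zero_mul] at h1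
    exact h1 rfl⟩
  have hqN : ¬ q ∣ N := by
    intro h
    apply hq2
    rw [pow_two]
    exact mul_dvd_mul h (dvd_refl q)
  obtain ⟨η, hη0, hη⟩ := Fermat.Agent.S35.Eta.exists_eta hqN hg S hMS chig hchig
  have hK : Fermat.Agent.S35.KeySq (Fermat.Agent.S35.NewDef.New q) (N * q) q lam :=
    Fermat.Agent.S35.keySq_of_core_all (hC q hq) (hNew q hq) (N * q) lam
      (Fact.out : lam.Prime) hq hqlam hqM' hq2
  refine ⟨Fermat.Agent.S35.NewDef.New q, η, hη, hK, ?_⟩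
  intro n
  haveI : NeZero (lam ^ n) := ⟨pow_ne_zero _ (Fact.out : lam.Prime).ne_zero⟩
  obtain ⟨Θ, h1, h2, h3, h4⟩ := bridgeAt_of_thetaBridge hqN (hBr N q hqN (lam ^ n))
  exact ⟨Θ, h1, h2, h3, fun c => h4 _ (Fermat.Agent.S35.Eta.iLamDual_eta hqN η hη0 c)⟩

end Fermat.Agent.S35.Fin
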