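import Mathlib
import Fermat.Agent.S35.NewDef
import Fermat.Agent.S35.GlueKeyJ
import Fermat.Agent.S37.Gen

/-!
# C84 (S35), piece P1, part 2: `New` is stable under the pull-backs `V_b^*`

* `Vprime_wAL` : `V' ∘ w_q = w_q ∘ V'` (`V' : F(N q) → F(N b q)`, `q ↦ q^b`);
* `span_range_Vprime_beta` : `F(N b q)` is spanned over `β'(F(N b))` by the image of `V'`;
* `pull_push_alpha`, `pull_push_beta` : the two base change squares on divisors;
* `isNewAt_pull`, `new_pull` : `New q M x → New q (M b) (V_b^* x)` at the levels `M` with `q ∥ M`;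
* `keySq_new` : `Core35 q (New q) → KeySq (New q) N q p` at every level `N` with `q ∥ N`.
-/

set_option autoImplicit false
set_option linter.unusedSectionVars false
set_option linter.unusedVariables false
set_option linter.style.haveILetI false
set_option synthInstance.maxHeartbeats 400000
set_option maxHeartbeats 1000000

noncomputable section

namespace Fermat.Agent.S35.NewUp

open AlgebraicCurve ModularCurve Fermat.Agent.S37 Fermat.Agent.S37.AL
open Fermat.Agent.Lib.ModC Fermat.Agent.Lib.ModJ Fermat.Agent.S18.Desc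

local notation "Qb" => AlgebraicClosure ℚ
local notation "Ω" => LaurentSeries (AlgebraicClosure ℚ)

/-! ### `V'` on the generators -/

section Gen

variable (N b q : ℕ) [NeZero N] [NeZero b] [NeZero q]

/-- the index map of `V' : q ↦ q^b` from level `N q` to level `N b q` -/
def idxV (d : DivIdx (N * q)) : DivIdx (N * b * q) :=
  ⟨d.1 * lP b, by
    rw [PNat.mul_coe]
    have h := Nat.mul_dvd_mul d.2 (dvd_refl b)
    rwa [level_comm] at h⟩

theorem Vprime_aevalF (P : MvPolynomial (DivIdx (N * q)) Qb) :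
    VprimeBar N b q (aevalF (N * q) P) =
      aevalF (N * b * q) (MvPolynomial.rename (idxV N b q) P) := by
  apply Subtype.ext
  rw [coe_VprimeBar, coe_aevalF, coe_aevalF, MvPolynomial.aeval_rename]
  have h1 : qExpand Qb b (MvPolynomial.aeval (gensK Qb (N * q)) P) =
      MvPolynomial.aeval (fun d => qExpandAlgHomC Qb b (gensK Qb (N * q) d)) P := by
    rw [← qExpandAlgHomC_apply]
    exact MvPolynomial.comp_aeval_apply (gensK Qb (N * q)) (qExpandAlgHomC Qb b) P
  rw [h1]
  have h2 : (fun d => qExpandAlgHomC Qb b (gensK Qb (N * q) d)) =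
      (gensK Qb (N * b * q) ∘ idxV N b q) := by
    funext d
    rw [qExpandAlgHomC_apply]
    exact qExpand_jqK d.1
  rw [h2]

variable {N b q}

theorem swapPNat_mul (hq : q.Prime) (hb : b.Prime) (hbq : b ≠ q) (d : ℕ+) :
    swapPNat q (d * lP b) = swapPNat q d * lP b := by
  have hqb : ¬ q ∣ b := fun h => hbq ((Nat.prime_dvd_prime_iff_eq hq hb).1 h).symm
  by_cases h : q ∣ (d : ℕ)
  · have h' : q ∣ ((d * lP b : ℕ+) : ℕ) := by
      rw [PNat.mul_coe]
      exact Dvd.dvd.mul_right h _
    apply PNat.eq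
    rw [swapPNat_of_dvd h', PNat.mul_coe, PNat.mul_coe, swapPNat_of_dvd h]
    obtain ⟨c, hc⟩ := h
    rw [hc, mul_assoc, Nat.mul_div_cancel_left _ hq.pos, Nat.mul_div_cancel_left _ hq.pos]
  · have h' : ¬ q ∣ ((d * lP b : ℕ+) : ℕ) := by
      rw [PNat.mul_coe]
      intro h2
      rcases (Nat.Prime.dvd_mul hq).1 h2 with h3 | h3
      · exact h h3
      · exact hqb h3
    rw [swapPNat_of_not_dvd h', swapPNat_of_not_dvd h]
    exact mul_right_comm _ _ _

theorem swapIdx_idxV (hq : q.Prime) (hb : b.Prime) (hbq : b ≠ q) (hN : ¬ q ∣ N)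
    (hNb : ¬ q ∣ N * b) (d : DivIdx (N * q)) :
    swapIdx hq hNb (idxV N b q d) = idxV N b q (swapIdx hq hN d) :=
  Subtype.ext (swapPNat_mul hq hb hbq d.1)

/-- `V'` commutes with the Atkin–Lehner involutions at `q` -/
theorem Vprime_wAL (hq : q.Prime) (hb : b.Prime) (hbq : b ≠ q) (hN : ¬ q ∣ N)
    (hNb : ¬ q ∣ N * b) (f : ↥(modularFunctionFieldBar (N * q))) :
    VprimeBar N b q (wAL hq hN f) = wAL hq hNb (VprimeBar N b q f) := by
  have : (VprimeBar N b q).toRingHom.comp (wAL hq hN) =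
      (wAL hq hNb).comp (VprimeBar N b q).toRingHom := by
    apply ringHom_ext (N * q)
    intro P
    show VprimeBar N b q (wAL hq hN (aevalF (N * q) P)) =
      wAL hq hNb (VprimeBar N b q (aevalF (N * q) P))
    rw [wAL_aevalF, Vprime_aevalF, Vprime_aevalF, wAL_aevalF]
    congr 1
    unfold swapRename
    rw [MvPolynomial.rename_rename, MvPolynomial.rename_rename]
    have h2 : (idxV N b q ∘ swapIdx hq hN : DivIdx (N * q) → DivIdx (N * b * q)) =
        swapIdx hq hNb ∘ idxV N b q :=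
      funext fun d => (swapIdx_idxV hq hb hbq hN hNb d).symm
    rw [h2]
  exact congrArg (fun φ : ↥(modularFunctionFieldBar (N * q)) →+*
    ↥(modularFunctionFieldBar (N * b * q)) => φ f) this

end Gen

/-! ### the span condition of the `β`-square -/

section Span

/-- transport of a spanning set along an involution intertwining two module structures -/
theorem span_eq_top_of_involution {A B : Type*} [Semiring A] [AddCommMonoid B]
    (m₁ m₂ : Module A B) (w : B → B) (hw0 : w 0 = 0) (hwadd : ∀ x y, w (x + y) = w x + w y)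
    (hw : ∀ (c : A) (z : B), w (@HSMul.hSMul A B B (@instHSMul A B m₁.toSMul) c z) =
      @HSMul.hSMul A B B (@instHSMul A B m₂.toSMul) c (w z))
    (hinv : ∀ z, w (w z) = z) (T : Set B) (hT : ∀ t ∈ T, w t ∈ T)
    (h : @Submodule.span A B _ _ m₁ T = ⊤) : @Submodule.span A B _ _ m₂ T = ⊤ := by
  have key : ∀ y ∈ @Submodule.span A B _ _ m₁ T, w y ∈ @Submodule.span A B _ _ m₂ T := by
    intro y hy
    refine @Submodule.span_induction A B _ _ m₁ T
      (fun y _ => w y ∈ @Submodule.span A B _ _ m₂ T) ?_ ?_ ?_ ?_ y hy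
    · intro t ht
      exact @Submodule.subset_span A B _ _ m₂ T _ (hT t ht)
    · show w 0 ∈ _
      rw [hw0]
      exact @Submodule.zero_mem A B _ _ m₂ _
    · intro x y _ _ hx hy
      show w (x + y) ∈ _
      rw [hwadd]
      exact @Submodule.add_mem A B _ _ m₂ _ _ _ hx hy
    · intro c x _ hx
      show w _ ∈ _
      rw [hw]
      exact @Submodule.smul_mem A B _ _ m₂ _ _ c hx
  apply (@eq_top_iff _ _ _ _).2
  intro z _
  have hz : w z ∈ @Submodule.span A B _ _ m₁ T := by
    rw [h]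
    trivial
  have := key (w z) hz
  rwa [hinv] at this

variable {N b q : ℕ} [NeZero N] [NeZero b] [NeZero q]

/-- **the span condition of the `β`-square**: `F(N b q)` is spanned over `β'(F(N b))` by the
image of `V' : F(N q) → F(N b q)` -/
theorem span_range_Vprime_beta (hq : q.Prime) (hb : b.Prime) (hbq : b ≠ q) (hN : ¬ q ∣ N)
    (hNb : ¬ q ∣ N * b) :
    letI := algebraAlong (heckeBetaBar Qb (N * b) q)
    Submodule.span (modularFunctionFieldBar (N * b)) (Set.range (VprimeBar N b q)) = ⊤ := by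
  have h := L2.span_range_Vprime N b q
  refine span_eq_top_of_involution (algebraAlong (heckeAlphaBar Qb (N * b) q)).toModule
    (algebraAlong (heckeBetaBar Qb (N * b) q)).toModule (wAL hq hNb) (map_zero _)
    (map_add _) (fun c z => ?_) (wAL_wAL hq hNb) _ ?_ h
  · show wAL hq hNb (heckeAlphaBar Qb (N * b) q c * z) =
      heckeBetaBar Qb (N * b) q c * wAL hq hNb z
    rw [map_mul, wAL_alpha]
  · rintro _ ⟨y, rfl⟩
    exact ⟨wAL hq hN y, Vprime_wAL hq hb hbq hN hNb y⟩

/-- the rank condition of the `β`-square -/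
theorem finrankAlong_beta_eq (hq : q.Prime) (hN : ¬ q ∣ N) (hNb : ¬ q ∣ N * b) :
    finrankAlong Qb (heckeBetaBar Qb (N * b) q) = finrankAlong Qb (heckeBetaBar Qb N q) := by
  have h1 := finrank_beta (N := N * b) hq hNb
  have h2 := finrank_beta (N := N) hq hN
  unfold finrankAlong
  rw [h1, h2]

theorem finrankAlong_alpha_eq (hq : q.Prime) (hN : ¬ q ∣ N) (hNb : ¬ q ∣ N * b) :
    finrankAlong Qb (heckeAlphaBar Qb (N * b) q) = finrankAlong Qb (heckeAlphaBar Qb N q) := by
  have h1 := finrank_alpha (N := N * b) hq hNb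
  have h2 := finrank_alpha (N := N) hq hN
  unfold finrankAlong
  rw [h1, h2]

end Span

/-! ### the two base change squares -/

section Squares

variable (N b q : ℕ) [NeZero N] [NeZero b] [NeZero q]

theorem isIntegral_Vprime : (VprimeBar N b q).toRingHom.IsIntegral :=
  H.isIntegral_of_finiteAlong
    (H.finiteAlong (Fermat.Agent.S24.isFF1_jBar (N * q)).transcendental
      (Fermat.Agent.S24.isFF1_jBar (N * b * q)) _)

theorem fundamentalIdentity_Vprime :
    FundamentalIdentityAlong Qb (VprimeBar N b q) (isIntegral_Vprime N b q) :=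
  H.fundamentalIdentityAlong (Fermat.Agent.S24.isFF1_jBar (N * q))
    (Fermat.Agent.S24.isFF1_jBar (N * b * q)) _ _

variable {N b q}

/-- the `α`-square: `V_b^* ∘ α_* = α'_* ∘ V'^*` -/
theorem pull_push_alpha (hq : q.Prime) (hN : ¬ q ∣ N) (hNb : ¬ q ∣ N * b)
    (D : Divisor Qb (modularFunctionFieldBar (N * q))) :
    Divisor.pullbackAlong (heckeBetaBar Qb N b) (H.betaInt N b)
        (Divisor.pushforwardAlong (heckeAlphaBar Qb N q) (H.alphaInt N q) D) =
      Divisor.pushforwardAlong (heckeAlphaBar Qb (N * b) q) (H.alphaInt (N * b) q)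
        (Divisor.pullbackAlong (VprimeBar N b q) (isIntegral_Vprime N b q) D) :=
  L.pullbackAlong_pushforwardAlong (heckeAlphaBar Qb N q) (heckeBetaBar Qb N b)
    (heckeAlphaBar Qb (N * b) q) (VprimeBar N b q) (alpha_comp_beta N b q) (H.alphaInt N q)
    (H.betaInt N b) (H.alphaInt (N * b) q) (isIntegral_Vprime N b q)
    (Fermat.Agent.S24.isFF1_jBar N) (Fermat.Agent.S24.isFF1_jBar (N * q))
    (Fermat.Agent.S24.isFF1_jBar (N * b)) (Fermat.Agent.S24.isFF1_jBar (N * b * q))
    (finrankAlong_alpha_eq hq hN hNb) (L2.span_range_Vprime N b q) D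

/-- the `β`-square: `V_b^* ∘ β_* = β'_* ∘ V'^*` -/
theorem pull_push_beta (hq : q.Prime) (hb : b.Prime) (hbq : b ≠ q) (hN : ¬ q ∣ N)
    (hNb : ¬ q ∣ N * b) (D : Divisor Qb (modularFunctionFieldBar (N * q))) :
    Divisor.pullbackAlong (heckeBetaBar Qb N b) (H.betaInt N b)
        (Divisor.pushforwardAlong (heckeBetaBar Qb N q) (H.betaInt N q) D) =
      Divisor.pushforwardAlong (heckeBetaBar Qb (N * b) q) (H.betaInt (N * b) q)
        (Divisor.pullbackAlong (VprimeBar N b q) (isIntegral_Vprime N b q) D) :=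
  L.pullbackAlong_pushforwardAlong (heckeBetaBar Qb N q) (heckeBetaBar Qb N b)
    (heckeBetaBar Qb (N * b) q) (VprimeBar N b q) (beta_comp_beta N b q) (H.betaInt N q)
    (H.betaInt N b) (H.betaInt (N * b) q) (isIntegral_Vprime N b q)
    (Fermat.Agent.S24.isFF1_jBar N) (Fermat.Agent.S24.isFF1_jBar (N * q))
    (Fermat.Agent.S24.isFF1_jBar (N * b)) (Fermat.Agent.S24.isFF1_jBar (N * b * q))
    (finrankAlong_beta_eq hq hN hNb) (span_range_Vprime_beta hq hb hbq hN hNb) D

theorem not_dvd_mul (hq : q.Prime) (hb : b.Prime) (hbq : b ≠ q) (hN : ¬ q ∣ N) :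
    ¬ q ∣ N * b := by
  intro h
  rcases (Nat.Prime.dvd_mul hq).1 h with h1 | h1
  · exact hN h1
  · exact hbq ((Nat.prime_dvd_prime_iff_eq hq hb).1 h1).symm

/-- **`IsNewAt` is stable under `V'^*`** -/
theorem isNewAt_pull (hq : q.Prime) (hb : b.Prime) (hbq : b ≠ q) (hN : ¬ q ∣ N)
    (x : JZero (N * q)) (hx : NewDef.IsNewAt N q x) :
    NewDef.IsNewAt (N * b) q
      (VI.pullPic0 (VprimeBar N b q) (isIntegral_Vprime N b q)
        (fundamentalIdentity_Vprime N b q) x) := by
  have hNb : ¬ q ∣ N * b := not_dvd_mul hq hb hbq hN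
  obtain ⟨D, rfl⟩ := Pic0.mk_surjective x
  obtain ⟨hα, hβ⟩ := hx D rfl
  rw [VI.pullPic0_mk]
  apply NewDef.isNewAt_of_mk
  · rw [VI.coe_pullDegZero, ← pull_push_alpha hq hN hNb]
    exact Divisor.isPrincipal_pullbackAlong _ _ hα
  · rw [VI.coe_pullDegZero, ← pull_push_beta hq hb hbq hN hNb]
    exact Divisor.isPrincipal_pullbackAlong _ _ hβ

end Squares

/-! ### the change of level `N q b = N b q` -/

section Cast

/-- the pull-back on `Pic0` only depends on the underlying map of Laurent series -/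
theorem pullPic0_heq (M a a' : ℕ) (h : a = a')
    (φ : ↥(modularFunctionFieldBar M) →ₐ[Qb] ↥(modularFunctionFieldBar a))
    (φ' : ↥(modularFunctionFieldBar M) →ₐ[Qb] ↥(modularFunctionFieldBar a'))
    (hφφ' : ∀ x, ((φ x : ↥(modularFunctionFieldBar a)) : Ω) =
      ((φ' x : ↥(modularFunctionFieldBar a')) : Ω))
    [HasPrincipalDivisors Qb ↥(modularFunctionFieldBar a)]
    [HasPrincipalDivisors Qb ↥(modularFunctionFieldBar a')]
    (hφ : φ.toRingHom.IsIntegral) (hφ' : φ'.toRingHom.IsIntegral)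
    (hFI : FundamentalIdentityAlong Qb φ hφ) (hFI' : FundamentalIdentityAlong Qb φ' hφ')
    (x : JZero M) :
    HEq (VI.pullPic0 φ hφ hFI x) (VI.pullPic0 φ' hφ' hFI' x) := by
  subst h
  have e : φ = φ' := AlgHom.ext fun x => Subtype.ext (hφφ' x)
  subst e
  rfl

variable {N b q : ℕ} [NeZero N] [NeZero b] [NeZero q]

/-- **`New` is stable under `V_b^*`** at the level `N q`, `q ∤ N` -/
theorem new_pull (hq : q.Prime) (hb : b.Prime) (hbq : b ≠ q) (hN : ¬ q ∣ N)
    (x : JZero (N * q)) (hx : NewDef.New q (N * q) x) :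
    NewDef.New q (N * q * b)
      (VI.pullPic0 (heckeBetaBar Qb (N * q) b) (H.betaInt (N * q) b)
        (H.fundamentalIdentity_beta (N * q) b) x) := by
  intro N' _ h' y hy
  have hN' : N' = N * b := by
    have h1 : N * b * q = N' * q := by rw [← h', level_comm]
    exact (Nat.eq_of_mul_eq_mul_right hq.pos h1).symm
  subst hN'
  have e : y = VI.pullPic0 (VprimeBar N b q) (isIntegral_Vprime N b q)
      (fundamentalIdentity_Vprime N b q) x :=
    eq_of_heq (hy.symm.trans (pullPic0_heq (N * q) (N * q * b) (N * b * q) (level_comm N b q)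
      (heckeBetaBar Qb (N * q) b) (VprimeBar N b q) (fun x => by
        rw [coe_heckeBetaBar, coe_VprimeBar]) _ _ _ _ x))
  rw [e]
  exact isNewAt_pull hq hb hbq hN x ((NewDef.new_iff N q x).1 hx)

end Cast

/-! ### the descent -/

section Descent

open Fermat.Agent.S35

/-- **`New` is stable under `V_b^*`** at every level `M` with `q ∥ M` (the hypothesis `hNew` of
`keySq_of_mul`) -/
theorem new_pull' {q : ℕ} [NeZero q] (hq : q.Prime) (M b : ℕ) [NeZero M] [NeZero b]
    (hb : b.Prime) (hbq : b ≠ q) (hqM : q ∣ M) (hq2 : ¬ q ^ 2 ∣ M)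
    (x : JZero M) (hx : NewDef.New q M x) :
    NewDef.New q (M * b)
      (VI.pullPic0 (heckeBetaBar Qb M b) (H.betaInt M b) (H.fundamentalIdentity_beta M b) x) := by
  obtain ⟨N, rfl⟩ : ∃ N, M = N * q := ⟨M / q, (Nat.div_mul_cancel hqM).symm⟩
  haveI : NeZero N := ⟨fun h => by
    subst h
    exact (NeZero.ne (0 * q)) (zero_mul q)⟩
  have hN : ¬ q ∣ N := by
    rintro ⟨c, rfl⟩
    exact hq2 ⟨c, by ring⟩
  exact new_pull hq hb hbq hN x hx

/-- **(KEY) at every level `N` with `q ∥ N`, from the core**, for `New := NewDef.New q` -/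
theorem keySq_new {q : ℕ} [NeZero q] (hq : q.Prime) (hC : Core35 q (NewDef.New q))
    (N p : ℕ) [NeZero N] (hp : p.Prime) (hqp : q ≠ p) (hqN : q ∣ N) (hq2 : ¬ q ^ 2 ∣ N) :
    KeySq (NewDef.New q) N q p := by
  obtain ⟨b, hb, hbq, hbb⟩ := Fermat.Agent.S34.LevelUp.exists_aux_prime' q
  haveI : NeZero b := ⟨hb.ne_zero⟩
  have hcop1 : Nat.Coprime (q ^ 2) b := by
    apply Nat.Coprime.pow_left
    exact (Nat.coprime_primes hq hb).2 (fun h' => hbq h'.symm)
  have hcop : Nat.Coprime (q ^ 2) (b * b) := Nat.Coprime.mul_right hcop1 hcop1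
  have h49 : 4 ∣ N * b * b ∨ 9 ∣ N * b * b := by
    rcases hbb with h' | h'
    · exact Or.inl ⟨N, by rw [mul_assoc, h', mul_comm]⟩
    · exact Or.inr ⟨N, by rw [mul_assoc, h', mul_comm]⟩
  have hd : q ∣ N * b * b := by
    rw [mul_assoc]
    exact Dvd.dvd.mul_right hqN _
  have hd2 : ¬ q ^ 2 ∣ N * b * b := by
    intro h'
    rw [mul_assoc] at h'
    exact hq2 (hcop.dvd_of_dvd_mul_right h')
  have hdb : q ∣ N * b := Dvd.dvd.mul_right hqN _
  have hd2b : ¬ q ^ 2 ∣ N * b := fun h' => hq2 (hcop1.dvd_of_dvd_mul_right h')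
  exact keySq_of_mul N q p b hb hp.ne_zero
    (fun x hx => new_pull' hq N b hb hbq hqN hq2 x hx)
    (keySq_of_mul (N * b) q p b hb hp.ne_zero
      (fun x hx => new_pull' hq (N * b) b hb hbq hdb hd2b x hx)
      (keySq_of_core hC (N * b * b) p hp hq hqp h49 hd hd2))

end Descent

end Fermat.Agent.S35.NewUp
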