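import Fermat.Agent.S35.SpecConc
import Fermat.Agent.S35.SpecTw
import Fermat.Agent.S35.FrobRed
import Fermat.Agent.S37.RedInjM
import Fermat.Agent.S34.NodalMain

/-!
# C84 (S35), piece C3d: `TwInv` at the level `M * q` (concrete)

Level `M * q`, `q` prime, `q ∤ M`, `4 ∣ M` or `9 ∣ M`, `A` a valuation ring of `ℚ̄` over `q`,
`S` the nodal reduction (`Setup2`) of `F(Mq)` at `A`, `t = frobK` the coefficient Frobenius of
`F_k(M)`.  If `m D₀ = div f` and the push-forwards of `D₀` along the two degeneracy maps `α`, `β`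
are principal, then the reductions of `f` are invariant under `t ^ 2` up to `m`-th powers:

  `TwInv A Red1 Red2 (t ^ 2) (t ^ 2) m f`

(the second half of `GlueKeyJ.Core35`).
-/

set_option autoImplicit false
set_option linter.unusedSectionVars false
set_option linter.unusedVariables false
set_option linter.style.haveILetI false
set_option synthInstance.maxHeartbeats 400000
set_option maxHeartbeats 1000000

noncomputable section

open AlgebraicCurve ModularCurve Fermat.Agent.Lib.FF Fermat.Agent.S18 Fermat.Agent.S18.GV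
open Fermat.Agent.S18.Deuring Fermat.Agent.S34 Fermat.Agent.S34.NodalSp
open Fermat.Agent.S34.InputAsm

namespace Fermat.Agent.S35.CoreTwInv

local notation "Qb" => AlgebraicClosure ℚ

attribute [local instance] Fermat.Agent.S34.C3.neZero_q

variable (A : ValuationSubring (AlgebraicClosure ℚ)) (q : ℕ) [hq : Fact q.Prime]
variable (hA : A.LiesOverPrime q) (M : ℕ) [NeZero M] (hqM : ¬ q ∣ M)
variable {Sg : Finset (Place (IsLocalRing.ResidueField A)
        (modularFunctionFieldFullC (IsLocalRing.ResidueField A) M) ×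
      Place (IsLocalRing.ResidueField A)
        (modularFunctionFieldFullC (IsLocalRing.ResidueField A) M))}
  {g g₁ g₂ : ℕ} {c c₁ c₂ : ℤ}

include hqM in
/-- the four pointwise statements, for the specialisation map of `S` and `t = frobK` -/
theorem spec_frobK
    (S : Setup2 A (IsLocalRing.residue A) (Joint.Red1 A q M) (Joint.Red2 A q M hqM)
      (Dsym q M) ((1 + q) • EJ A q hA M) ((1 + q) • EJ A q hA M) Sg g g₁ g₂ c c₁ c₂)
    {sp : Place Qb (modularFunctionFieldBar (M * q)) →
      Place (IsLocalRing.ResidueField A)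
          (modularFunctionFieldFullC (IsLocalRing.ResidueField A) M) ⊕
        Place (IsLocalRing.ResidueField A)
          (modularFunctionFieldFullC (IsLocalRing.ResidueField A) M)}
    (hs : SpAx S sp)
    {g' : ℕ} {c' : ℤ}
    (S' : Setup A (IsLocalRing.residue A) (GV.RedF A M)
      ((Final.placeFacts_bar M).poleDiv (Fermat.Agent.S24.jBar M))
      ((Final.placeFacts_k A q hA M).poleDiv (GV.jK (IsLocalRing.ResidueField A) M)) g' c') :
    haveI : Infinite (IsLocalRing.ResidueField A) := ResClosed.infinite_residueField A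
    (∀ P Q, sp P = Sum.inl Q →
      rmap S' (P.restrictAlong (heckeAlphaBar Qb M q) (Fermat.Agent.S37.H.alphaInt M q)) = Q) ∧
    (∀ P Q, sp P = Sum.inr Q →
      rmap S' (P.restrictAlong (heckeAlphaBar Qb M q) (Fermat.Agent.S37.H.alphaInt M q))
        = Fermat.Agent.S35.FrobRed.frobK A q hA M • Q) ∧
    (∀ P Q, sp P = Sum.inl Q →
      rmap S' (P.restrictAlong (heckeBetaBar Qb M q) (Fermat.Agent.S37.H.betaInt M q))
        = Fermat.Agent.S35.FrobRed.frobK A q hA M • Q) ∧
    (∀ P Q, sp P = Sum.inr Q →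
      rmap S' (P.restrictAlong (heckeBetaBar Qb M q) (Fermat.Agent.S37.H.betaInt M q)) = Q) := by
  haveI : Infinite (IsLocalRing.ResidueField A) := ResClosed.infinite_residueField A
  haveI := GV.charP_residueField A q hA
  haveI := Fermat.Agent.S18.ResClosed.perfectField_residueField A
  have key := fun P => Fermat.Agent.S35.SpecConc.spec_along A q hA M hqM
    (Fermat.Agent.S34.C3.placeFacts_N q M) (Final.placeFacts_bar M)
    (Final.placeFacts_k A q hA M) S hs S' P
  exact ⟨fun P Q h => ((key P).1 Q h).1, fun P Q h => ((key P).2 Q h).1,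
    fun P Q h => ((key P).1 Q h).2, fun P Q h => ((key P).2 Q h).2⟩

include hqM in
/-- **`TwInv` from the principality of the two push-forwards** -/
theorem twInv_of_principal (h49 : 4 ∣ M ∨ 9 ∣ M)
    (S : Setup2 A (IsLocalRing.residue A) (Joint.Red1 A q M) (Joint.Red2 A q M hqM)
      (Dsym q M) ((1 + q) • EJ A q hA M) ((1 + q) • EJ A q hA M) Sg g g₁ g₂ c c₁ c₂)
    {m : ℕ} {f : modularFunctionFieldBar (M * q)}
    {D₀ : Divisor Qb (modularFunctionFieldBar (M * q))}
    (hdiv : ∀ P, (m : ℤ) * D₀ P = P.ord f)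
    (hpα : Divisor.pushforwardAlong (heckeAlphaBar Qb M q) (Fermat.Agent.S37.H.alphaInt M q) D₀
      ∈ Divisor.principal (K := Qb) (F := modularFunctionFieldBar M))
    (hpβ : Divisor.pushforwardAlong (heckeBetaBar Qb M q) (Fermat.Agent.S37.H.betaInt M q) D₀
      ∈ Divisor.principal (K := Qb) (F := modularFunctionFieldBar M)) :
    Fermat.Agent.S35.TwInv A (Joint.Red1 A q M) (Joint.Red2 A q M hqM)
      ((Fermat.Agent.S35.FrobRed.frobK A q hA M) ^ 2)
      ((Fermat.Agent.S35.FrobRed.frobK A q hA M) ^ 2) m f := by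
  haveI : Infinite (IsLocalRing.ResidueField A) := ResClosed.infinite_residueField A
  obtain ⟨g', c', -, S'⟩ := Fermat.Agent.S37.R.exists_setup A q hA M hqM h49
  obtain ⟨ha₁, ha₂, hb₁, hb₂⟩ := spec_frobK A q hA M hqM S (Fermat.Agent.S34.Nodal.spAx S) S'
  have hdegα : ∀ w : Place Qb (modularFunctionFieldBar (M * q)),
      w.inertiaDegAlong (heckeAlphaBar Qb M q) (Fermat.Agent.S37.H.alphaInt M q) = 1 := fun w =>
    Fermat.Agent.S37.H.inertiaDegAlong_eq_one (Fermat.Agent.S24.isFF1_jBar M)
      (Fermat.Agent.S24.isFF1_jBar (M * q)) _ _ w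
  have hdegβ : ∀ w : Place Qb (modularFunctionFieldBar (M * q)),
      w.inertiaDegAlong (heckeBetaBar Qb M q) (Fermat.Agent.S37.H.betaInt M q) = 1 := fun w =>
    Fermat.Agent.S37.H.inertiaDegAlong_eq_one (Fermat.Agent.S24.isFF1_jBar M)
      (Fermat.Agent.S24.isFF1_jBar (M * q)) _ _ w
  have hn₁ : ∀ p ∈ Sg, (Fermat.Agent.S35.FrobRed.frobK A q hA M
      * Fermat.Agent.S35.FrobRed.frobK A q hA M) • p.1 = p.1 := fun p hp => by
    have := Fermat.Agent.S35.FrobRed.frobK_sq_node₁ A q hA M hqM h49 S hp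
    rwa [pow_two] at this
  have hn₂ : ∀ p ∈ Sg, (Fermat.Agent.S35.FrobRed.frobK A q hA M
      * Fermat.Agent.S35.FrobRed.frobK A q hA M) • p.2 = p.2 := fun p hp => by
    have := Fermat.Agent.S35.FrobRed.frobK_sq_node₂ A q hA M hqM h49 S hp
    rwa [pow_two] at this
  have := Fermat.Agent.S35.SpecDiv.twInv_of_pushforward S
    (Fermat.Agent.S34.NodalMain.factsOfSetup2 S) S'
    (heckeAlphaBar Qb M q) (heckeBetaBar Qb M q) (Fermat.Agent.S37.H.alphaInt M q)
    (Fermat.Agent.S37.H.betaInt M q) hdegα hdegβ (Fermat.Agent.S35.FrobRed.frobK A q hA M)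
    ha₁ ha₂ hb₁ hb₂ hn₁ hn₂ hdiv hpα hpβ
  rwa [← pow_two] at this

end Fermat.Agent.S35.CoreTwInv
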