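import Fermat.Agent.S34.NodalFacts

/-!
# C84 (S35), piece A0: Frobenius-type automorphisms of the two-component (nodal) reduction

`S : Setup2` as in S34.  A semilinear automorphism `ψ` of `F/L` (a lift of a power of Frobenius in
the decomposition group) induces automorphisms `Φ₁`, `Φ₂` of the residue function fields; they
raise the constants to the power `Q` and FIX THE NODES (the nodes are the supersingular points,
rational over the field with `Q = q ^ 2` elements).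

* `FrobCompat` : the interface (what the concrete side delivers for `ψ = φ ^ 2`);
* `FrobCompat.sp_node`, `FrobCompat.sp_node_inv` : `ψ` and `ψ⁻¹` preserve the set of places over a
  given node.
-/

set_option autoImplicit false
set_option linter.unusedSectionVars false
set_option linter.unusedVariables false
set_option linter.style.haveILetI false

open AlgebraicCurve Fermat.Agent.Lib.FF Fermat.Agent.S18.Deuring Fermat.Agent.S34
open Fermat.Agent.S34.NodalSp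

namespace Fermat.Agent.S35

variable {L k F Fk₁ Fk₂ : Type*} [Field L] [Field k] [Field F] [Field Fk₁] [Field Fk₂]
  [Algebra L F] [Algebra k Fk₁] [Algebra k Fk₂]
variable {A : ValuationSubring L} {res : A →+* k} {Red₁ : F → Fk₁ → Prop}
  {Red₂ : F → Fk₂ → Prop} {D : Divisor L F} {D₁ : Divisor k Fk₁} {D₂ : Divisor k Fk₂}
  {Sg : Finset (Place k Fk₁ × Place k Fk₂)} {g g₁ g₂ : ℕ} {c c₁ c₂ : ℤ}

/-- **a Frobenius-type automorphism**: `ψ` acts on the special fibre through `Φ₁`, `Φ₂`, which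
raise the constants to the power `Q` and fix the nodes -/
structure FrobCompat (Red₁ : F → Fk₁ → Prop) (Red₂ : F → Fk₂ → Prop) (D : Divisor L F)
    (Sg : Finset (Place k Fk₁ × Place k Fk₂)) (Q : ℕ) (ψ : SemilinearAut L F)
    (Φ₁ : Fk₁ ≃+* Fk₁) (Φ₂ : Fk₂ ≃+* Fk₂) : Prop where
  red₁ : ∀ x a, Red₁ x a → Red₁ (ψ • x) (Φ₁ a)
  red₂ : ∀ x a, Red₂ x a → Red₂ (ψ • x) (Φ₂ a)
  red₁_inv : ∀ x a, Red₁ x a → Red₁ (ψ⁻¹ • x) (Φ₁.symm a)
  red₂_inv : ∀ x a, Red₂ x a → Red₂ (ψ⁻¹ • x) (Φ₂.symm a)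
  fixD : ψ • D = D
  const₁ : ∀ e : k, Φ₁ (algebraMap k Fk₁ e) = algebraMap k Fk₁ (e ^ Q)
  const₂ : ∀ e : k, Φ₂ (algebraMap k Fk₂ e) = algebraMap k Fk₂ (e ^ Q)
  /-- the nodes are fixed: values at the nodes are raised to the power `Q` -/
  node₁ : ∀ p ∈ Sg, ∀ (a : Fk₁) (v : k), Nodal.HasValue p.1 a v → Nodal.HasValue p.1 (Φ₁ a) (v ^ Q)
  node₂ : ∀ p ∈ Sg, ∀ (a : Fk₂) (v : k), Nodal.HasValue p.2 a v → Nodal.HasValue p.2 (Φ₂ a) (v ^ Q)
  /-- the nodes are fixed: the orders at the nodes are preserved -/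
  ord₁ : ∀ p ∈ Sg, ∀ a : Fk₁, p.1.ord (Φ₁ a) = p.1.ord a
  ord₂ : ∀ p ∈ Sg, ∀ a : Fk₂, p.2.ord (Φ₂ a) = p.2.ord a

variable {Q : ℕ} {ψ : SemilinearAut L F} {Φ₁ : Fk₁ ≃+* Fk₁} {Φ₂ : Fk₂ ≃+* Fk₂}

theorem FrobCompat.ord₁_symm (h : FrobCompat Red₁ Red₂ D Sg Q ψ Φ₁ Φ₂)
    {p : Place k Fk₁ × Place k Fk₂} (hp : p ∈ Sg) (a : Fk₁) :
    p.1.ord (Φ₁.symm a) = p.1.ord a := by
  have := h.ord₁ p hp (Φ₁.symm a)
  rw [RingEquiv.apply_symm_apply] at this
  exact this.symm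

theorem FrobCompat.ord₂_symm (h : FrobCompat Red₁ Red₂ D Sg Q ψ Φ₁ Φ₂)
    {p : Place k Fk₁ × Place k Fk₂} (hp : p ∈ Sg) (a : Fk₂) :
    p.2.ord (Φ₂.symm a) = p.2.ord a := by
  have := h.ord₂ p hp (Φ₂.symm a)
  rw [RingEquiv.apply_symm_apply] at this
  exact this.symm

variable {S : Setup2 A res Red₁ Red₂ D D₁ D₂ Sg g g₁ g₂ c c₁ c₂}
  {sp : Place L F → Place k Fk₁ ⊕ Place k Fk₂}

theorem smul_inv_mem_rrSpace_sub_single {h' : SemilinearAut L F} (hD : h' • D = D) {n : ℕ}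
    {P : Place L F} {x : F} (hx : x ∈ riemannRochSpace (n • D - Finsupp.single (h'⁻¹ • P) 1)) :
    h' • x ∈ riemannRochSpace (n • D - Finsupp.single P 1) := by
  have hD' : h'⁻¹ • D = D := by
    conv_lhs => rw [← hD]
    rw [inv_smul_smul]
  have := smul_mem_rrSpace_sub_single (h' := h'⁻¹) hD' (P := P) (x := x) hx
  rwa [inv_inv] at this

/-- `ψ` maps the places over a node to places over the same node -/
theorem FrobCompat.sp_node (h : FrobCompat Red₁ Red₂ D Sg Q ψ Φ₁ Φ₂) (hs : SpAx S sp)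
    {p : Place k Fk₁ × Place k Fk₂} (hp : p ∈ Sg) {P : Place L F} (hP : sp P = Sum.inl p.1) :
    sp (ψ • P) = Sum.inl p.1 := by
  by_contra hne
  obtain ⟨n, x, a₁, a₂, hx, hx₁, hx₂, hex⟩ :=
    hs.sep (y := Sum.inl p.1) (fun _ _ => Sum.inl_ne_inr) hne
  have hv := hs.van (smul_mem_rrSpace_sub_single h.fixD hx) (h.red₁_inv _ _ hx₁)
    (h.red₂_inv _ _ hx₂)
  rw [hP] at hv
  apply hv
  obtain ⟨h0, h1⟩ := hex
  exact ⟨(map_ne_zero_iff _ Φ₁.symm.injective).mpr h0, by rw [h.ord₁_symm hp, h1]⟩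

/-- `ψ⁻¹` maps the places over a node to places over the same node -/
theorem FrobCompat.sp_node_inv (h : FrobCompat Red₁ Red₂ D Sg Q ψ Φ₁ Φ₂) (hs : SpAx S sp)
    {p : Place k Fk₁ × Place k Fk₂} (hp : p ∈ Sg) {P : Place L F} (hP : sp P = Sum.inl p.1) :
    sp (ψ⁻¹ • P) = Sum.inl p.1 := by
  by_contra hne
  obtain ⟨n, x, a₁, a₂, hx, hx₁, hx₂, hex⟩ :=
    hs.sep (y := Sum.inl p.1) (fun _ _ => Sum.inl_ne_inr) hne
  have hv := hs.van (smul_inv_mem_rrSpace_sub_single h.fixD hx) (h.red₁ _ _ hx₁)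
    (h.red₂ _ _ hx₂)
  rw [hP] at hv
  apply hv
  obtain ⟨h0, h1⟩ := hex
  exact ⟨(map_ne_zero_iff _ Φ₁.injective).mpr h0, by rw [h.ord₁ p hp, h1]⟩

end Fermat.Agent.S35
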