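import Fermat.Agent.S35.FrobRed

/-!
# C84 (S35), piece C1 (complement): orders and values of `V a` and of `t • a`

`t = frobK` the coefficient Frobenius of `F_k(M)`, `V = Vk` (`𝐪 ↦ 𝐪 ^ q`), `V a = (t⁻¹ • a) ^ q`.

* `ord_Vk`            : `ord_Q (V a) = q * ord_{t • Q} a`;
* `ord_frobK_smul`    : `ord_Q (t • a) = ord_{t⁻¹ • Q} a`;
* `ord_frobK_inv_smul`: `ord_Q (t⁻¹ • a) = ord_{t • Q} a`.
-/

set_option autoImplicit false
set_option linter.unusedSectionVars false
set_option linter.unusedVariables false
set_option linter.style.haveILetI false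
set_option synthInstance.maxHeartbeats 400000
set_option maxHeartbeats 1000000

noncomputable section

open AlgebraicCurve ModularCurve IntermediateField Fermat.Agent.Lib.FF
open Fermat.Agent.S18 Fermat.Agent.S18.Deuring Fermat.Agent.S34.Nodal
open Fermat.Agent.S37.G Fermat.Agent.S34 Fermat.Agent.S34.InputAsm

namespace Fermat.Agent.S35.FrobRed

attribute [local instance] Fermat.Agent.S34.C3.neZero_q

variable (A : ValuationSubring (AlgebraicClosure ℚ)) (q : ℕ) [hq : Fact q.Prime]
variable (hA : A.LiesOverPrime q) (M : ℕ) [NeZero M]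

/-- `ord_Q (t • a) = ord_{t⁻¹ • Q} a` -/
theorem ord_frobK_smul (Q : Place (IsLocalRing.ResidueField A)
    (modularFunctionFieldFullC (IsLocalRing.ResidueField A) M))
    (a : modularFunctionFieldFullC (IsLocalRing.ResidueField A) M) :
    Q.ord (frobK A q hA M • a) = ((frobK A q hA M)⁻¹ • Q).ord a := by
  have := SemilinearAut.ord_smul (frobK A q hA M) ((frobK A q hA M)⁻¹ • Q) a
  rwa [smul_inv_smul] at this

/-- `ord_Q (t⁻¹ • a) = ord_{t • Q} a` -/
theorem ord_frobK_inv_smul (Q : Place (IsLocalRing.ResidueField A)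
    (modularFunctionFieldFullC (IsLocalRing.ResidueField A) M))
    (a : modularFunctionFieldFullC (IsLocalRing.ResidueField A) M) :
    Q.ord ((frobK A q hA M)⁻¹ • a) = (frobK A q hA M • Q).ord a := by
  have := SemilinearAut.ord_smul (frobK A q hA M)⁻¹ (frobK A q hA M • Q) a
  rwa [inv_smul_smul] at this

/-- **`ord_Q (V a) = q * ord_{t • Q} a`** -/
theorem ord_Vk (Q : Place (IsLocalRing.ResidueField A)
    (modularFunctionFieldFullC (IsLocalRing.ResidueField A) M))
    (a : modularFunctionFieldFullC (IsLocalRing.ResidueField A) M) :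
    haveI := GV.charP_residueField A q hA
    Q.ord (Joint.Vk q M (IsLocalRing.ResidueField A) a)
      = (q : ℤ) * (frobK A q hA M • Q).ord a := by
  haveI := GV.charP_residueField A q hA
  rw [Vk_eq_frobK_pow, ord_pow', ord_frobK_inv_smul]

end Fermat.Agent.S35.FrobRed
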