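import Fermat.Agent.S34.NodalMov

/-!
# C84 (S35), piece A1 (`Mov'`): the twisted form of Stage 1

`m • D' = div w`, `(m : k) ≠ 0`, and the two reductions of `w` are `e_i β_i ^ m` with `e_i`
nonzero constants and `β_i ≠ 0`.  Then `D'` is linearly equivalent to a divisor
`E` without points over the nodes, `m • E = div f₁`, and the two reductions of `f₁` are
`e_i σ_i ^ m` with `σ_i` units at the nodes (`E` is a toric class).

For `β_i = 1` this is Stage 1 of S34 (`w = h f / f`, `h` in the inertia group).  In S35 it is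
applied to `w = ψ f / f`, `ψ` the square of a Frobenius element, `D' = ψ D₀ - D₀`.
-/

set_option autoImplicit false
set_option linter.unusedSectionVars false
set_option linter.style.haveILetI false
set_option linter.unusedSimpArgs false
set_option linter.unusedTactic false
set_option linter.unusedVariables false
set_option maxHeartbeats 1000000

open AlgebraicCurve Fermat.Agent.Lib.FF Fermat.Agent.S18.Deuring
open scoped Classical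

namespace Fermat.Agent.S35.MovTw

open Fermat.Agent.S34 Fermat.Agent.S34.Mov

variable {L k F Fk₁ Fk₂ : Type*} [Field L] [Field k] [Field F] [Field Fk₁] [Field Fk₂]
  [Algebra L F] [Algebra k Fk₁] [Algebra k Fk₂]
variable {A : ValuationSubring L} {res : A →+* k} {Red₁ : F → Fk₁ → Prop}
  {Red₂ : F → Fk₂ → Prop} {D : Divisor L F} {D₁ : Divisor k Fk₁} {D₂ : Divisor k Fk₂}
  {Sg : Finset (Place k Fk₁ × Place k Fk₂)} {g g₁ g₂ : ℕ} {c c₁ c₂ : ℤ}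

variable (S : Setup2 A res Red₁ Red₂ D D₁ D₂ Sg g g₁ g₂ c c₁ c₂) (Fc : Facts S)

/-- `m • E = div w`, `w` reducing to `e β ^ m`: the specialisation of `E` at the smooth points
of the first component is the divisor of `β` -/
theorem mapDomain_eq_ord₁ {m : ℕ} (hm : m ≠ 0) {w : F} {E : Divisor L F}
    (hdiv : ∀ P, (m : ℤ) * E P = P.ord w) {e : k} (he : e ≠ 0) {β : Fk₁} (hβ : β ≠ 0)
    (hw : Red₁ w (algebraMap k Fk₁ e * β ^ m)) (Q : Place k Fk₁) (hQ : Smooth₁ Sg Q) :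
    Finsupp.mapDomain Fc.sp E (Sum.inl Q) = Q.ord β := by
  have hdivw : S.hpf.divOf w = m • E := by
    ext P
    rw [S.hpf.divOf_apply, Finsupp.smul_apply, nsmul_eq_mul]
    exact (hdiv P).symm
  have heF : algebraMap k Fk₁ e ≠ 0 := (map_ne_zero _).mpr he
  have h1 := Fc.r5₁ hw (mul_ne_zero heF (pow_ne_zero _ hβ)) Q hQ
  rw [hdivw, Finsupp.mapDomain_smul, Finsupp.smul_apply, nsmul_eq_mul,
    Q.ord_mul heF (pow_ne_zero _ hβ), ord_algebraMap, ord_pow', zero_add] at h1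
  have hm0 : (m : ℤ) ≠ 0 := by exact_mod_cast hm
  exact mul_left_cancel₀ hm0 h1

/-- the same at the smooth points of the second component -/
theorem mapDomain_eq_ord₂ {m : ℕ} (hm : m ≠ 0) {w : F} {E : Divisor L F}
    (hdiv : ∀ P, (m : ℤ) * E P = P.ord w) {e : k} (he : e ≠ 0) {β : Fk₂} (hβ : β ≠ 0)
    (hw : Red₂ w (algebraMap k Fk₂ e * β ^ m)) (Q : Place k Fk₂) (hQ : Smooth₂ Sg Q) :
    Finsupp.mapDomain Fc.sp E (Sum.inr Q) = Q.ord β := by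
  have hdivw : S.hpf.divOf w = m • E := by
    ext P
    rw [S.hpf.divOf_apply, Finsupp.smul_apply, nsmul_eq_mul]
    exact (hdiv P).symm
  have heF : algebraMap k Fk₂ e ≠ 0 := (map_ne_zero _).mpr he
  have h1 := Fc.r5₂ hw (mul_ne_zero heF (pow_ne_zero _ hβ)) Q hQ
  rw [hdivw, Finsupp.mapDomain_smul, Finsupp.smul_apply, nsmul_eq_mul,
    Q.ord_mul heF (pow_ne_zero _ hβ), ord_algebraMap, ord_pow', zero_add] at h1
  have hm0 : (m : ℤ) ≠ 0 := by exact_mod_cast hm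
  exact mul_left_cancel₀ hm0 h1

/-- **`Mov'`, the twisted Stage 1** -/
theorem mov_tw {m : ℕ} (hm : (m : k) ≠ 0) {w : F} (hw0 : w ≠ 0) {D' : Divisor L F}
    (hdivw : ∀ P, (m : ℤ) * D' P = P.ord w)
    {e₁ e₂ : k} (he₁ : e₁ ≠ 0) (he₂ : e₂ ≠ 0) {β₁ : Fk₁} {β₂ : Fk₂}
    (hβ₁ : β₁ ≠ 0) (hβ₂ : β₂ ≠ 0)
    (hRw₁ : Red₁ w (algebraMap k Fk₁ e₁ * β₁ ^ m))
    (hRw₂ : Red₂ w (algebraMap k Fk₂ e₂ * β₂ ^ m)) :
    ∃ (E : Divisor L F) (f₁ s : F) (τ₁ : Fk₁) (τ₂ : Fk₂), s ≠ 0 ∧ f₁ ≠ 0 ∧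
      (∀ P, E P = D' P + P.ord s) ∧
      (∀ P, ∀ p ∈ Sg, Fc.sp P = Sum.inl p.1 → E P = 0) ∧
      (∀ P, (m : ℤ) * E P = P.ord f₁) ∧
      Red₁ f₁ (algebraMap k Fk₁ e₁ * τ₁ ^ m) ∧ Red₂ f₁ (algebraMap k Fk₂ e₂ * τ₂ ^ m) ∧
      τ₁ ≠ 0 ∧ τ₂ ≠ 0 ∧ (∀ p ∈ Sg, p.1.ord τ₁ = 0) ∧ (∀ p ∈ Sg, p.2.ord τ₂ = 0) := by
  have ax₁ := S.ax₁
  have ax₂ := S.ax₂
  have hmN : m ≠ 0 := by
    rintro rfl
    simp at hm
  have hm0 : (m : ℤ) ≠ 0 := by exact_mod_cast hmN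
  obtain ⟨p₀, hp₀⟩ := S.node_nonempty
  have hdegD' : Divisor.degree D' = 0 := by
    have hdw : S.hpf.divOf w = m • D' := by
      ext P
      rw [S.hpf.divOf_apply, Finsupp.smul_apply, nsmul_eq_mul]
      exact (hdivw P).symm
    have h1 := S.hpf.degree_divOf w
    rw [hdw, map_nsmul, nsmul_eq_mul] at h1
    rcases mul_eq_zero.mp h1 with h | h
    · exact absurd h hm0
    · exact h
  have hD'₁ := mapDomain_eq_ord₁ S Fc hmN hdivw he₁ hβ₁ hRw₁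
  have hD'₂ := mapDomain_eq_ord₂ S Fc hmN hdivw he₂ hβ₂ hRw₂
  -- balanced non-special points and their lifts
  obtain ⟨Qs₁, Qs₂, hcard, -, -, hQs₁, hQs₂, hrank, hns⟩ := Fc.ns ∅ ∅
  obtain ⟨G₀, hG₀nn, hG₀deg, hG₀₁, hG₀₂⟩ := Common.exists_lift S Fc Qs₁ Qs₂ hQs₁ hQs₂
  have hcardZ : (Qs₁.card : ℤ) + Qs₂.card = g := by exact_mod_cast hcard
  have hnQs₁ : ∀ p ∈ Sg, sumPl Qs₁ p.1 = 0 := by
    intro p hp
    rw [sumPl_apply, if_neg]
    intro hmem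
    exact (hQs₁ _ hmem).1 p hp rfl
  have hnQs₂ : ∀ p ∈ Sg, sumPl Qs₂ p.2 = 0 := by
    intro p hp
    rw [sumPl_apply, if_neg]
    intro hmem
    exact (hQs₂ _ hmem).1 p hp rfl
  -- the section
  obtain ⟨s₀, hs₀, hs₀0⟩ := exists_ne_zero_mem S.hpf S.RF (E := G₀ + D')
    (by rw [map_add, hG₀deg, hdegD', add_zero, hcardZ])
  obtain ⟨c₀, hc₀, σ₁, σ₂, hR₁, hR₂, hσ⟩ := Common.exists_joint_scale ax₁ ax₂ s₀ hs₀0
  set s : F := c₀ • s₀ with hs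
  have hs0 : s ≠ 0 := smul_ne_zero hc₀ hs₀0
  have hsmem : s ∈ riemannRochSpace (G₀ + D') := Submodule.smul_mem _ _ hs₀
  set Z : Divisor L F := S.hpf.divOf s + (G₀ + D') with hZ
  have hZnn : 0 ≤ Z := residual_nonneg S.hpf hs0 hsmem
  have hZapply : ∀ P, Z P = P.ord s + (G₀ P + D' P) := fun P => by
    rw [hZ, Finsupp.add_apply, Finsupp.add_apply, S.hpf.divOf_apply]
  have hZdeg : Divisor.degree Z = g := by
    rw [hZ, map_add, S.hpf.degree_divOf, map_add, hG₀deg, hdegD', add_zero, zero_add, hcardZ]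
  -- the twisted reductions
  set τ₁ : Fk₁ := β₁ * σ₁ with hτ₁
  set τ₂ : Fk₂ := β₂ * σ₂ with hτ₂
  have hτσ₁ : τ₁ = 0 ↔ σ₁ = 0 := by
    rw [hτ₁, mul_eq_zero]
    exact ⟨fun h => h.resolve_left hβ₁, Or.inr⟩
  have hτσ₂ : τ₂ = 0 ↔ σ₂ = 0 := by
    rw [hτ₂, mul_eq_zero]
    exact ⟨fun h => h.resolve_left hβ₂, Or.inr⟩
  have hτ : τ₁ ≠ 0 ∨ τ₂ ≠ 0 := by
    rcases hσ with h | h
    · exact Or.inl (fun h' => h (hτσ₁.mp h'))
    · exact Or.inr (fun h' => h (hτσ₂.mp h'))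
  -- the function `f₁`
  set f₁ : F := w * s ^ m with hf₁
  have hf₁0 : f₁ ≠ 0 := mul_ne_zero hw0 (pow_ne_zero _ hs0)
  have hordf₁ : ∀ P : Place L F, P.ord f₁ = m * (Z P - G₀ P) := by
    intro P
    rw [hf₁, P.ord_mul hw0 (pow_ne_zero _ hs0), ord_pow', ← hdivw P, hZapply]
    ring
  have hRf₁ : Red₁ f₁ (algebraMap k Fk₁ e₁ * τ₁ ^ m) := by
    have h := ax₁.mul hRw₁ (ax₁.pow hR₁ m)
    have e : algebraMap k Fk₁ e₁ * τ₁ ^ m = algebraMap k Fk₁ e₁ * β₁ ^ m * σ₁ ^ m := by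
      rw [hτ₁, mul_pow, mul_assoc]
    rw [e]
    exact h
  have hRf₂ : Red₂ f₁ (algebraMap k Fk₂ e₂ * τ₂ ^ m) := by
    have h := ax₂.mul hRw₂ (ax₂.pow hR₂ m)
    have e : algebraMap k Fk₂ e₂ * τ₂ ^ m = algebraMap k Fk₂ e₂ * β₂ ^ m * σ₂ ^ m := by
      rw [hτ₂, mul_pow, mul_assoc]
    rw [e]
    exact h
  -- `G₀` has no point over a node
  have hG₀node : ∀ P, ∀ p ∈ Sg, Fc.sp P = Sum.inl p.1 → G₀ P = 0 := by
    intro P p hp hP
    have h1 := le_mapDomain_apply Fc.sp (E := G₀) (Q := Sum.inl p.1)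
      (fun P' _ => Finsupp.le_def.mp hG₀nn P') hP
    rw [hG₀₁, hnQs₁ p hp] at h1
    have h2 := Finsupp.le_def.mp hG₀nn P
    simp only [Finsupp.coe_zero, Pi.zero_apply] at h2
    omega
  -- regularity of `f₁` over the nodes, values of `τ₁`, `τ₂` at the nodes
  have hval : ∀ p ∈ Sg, ∃ u₁ u₂ : k, Nodal.HasValue p.1 τ₁ u₁ ∧ Nodal.HasValue p.2 τ₂ u₂ ∧
      e₁ * u₁ ^ m = e₂ * u₂ ^ m := by
    intro p hp
    obtain ⟨v, hv₁, hv₂⟩ := Fc.regN hRf₁ hRf₂ p hp (fun P hP => by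
      rw [hordf₁, hG₀node P p hp hP, sub_zero]
      exact mul_nonneg (by positivity) (by simpa using Finsupp.le_def.mp hZnn P))
    obtain ⟨u₁, hu₁, hu₁v⟩ := hasValue_of_pow (S.hpf₁.res p.1) he₁ hmN hv₁
    obtain ⟨u₂, hu₂, hu₂v⟩ := hasValue_of_pow (S.hpf₂.res p.2) he₂ hmN hv₂
    exact ⟨u₁, u₂, hu₁, hu₂, hu₁v.trans hu₂v.symm⟩
  -- specialisation of `Z` at the smooth points
  have hZ₁ : ∀ Q, Smooth₁ Sg Q → τ₁ ≠ 0 →
      Finsupp.mapDomain Fc.sp Z (Sum.inl Q) = Q.ord τ₁ + sumPl Qs₁ Q := by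
    intro Q hQ h0
    have hσ0 : σ₁ ≠ 0 := fun h => h0 (hτσ₁.mpr h)
    rw [hZ, Finsupp.mapDomain_add, Finsupp.mapDomain_add, Finsupp.add_apply, Finsupp.add_apply,
      Fc.r5₁ hR₁ hσ0 Q hQ, hG₀₁, hD'₁ Q hQ, hτ₁, Q.ord_mul hβ₁ hσ0]
    ring
  have hZ₂ : ∀ Q, Smooth₂ Sg Q → τ₂ ≠ 0 →
      Finsupp.mapDomain Fc.sp Z (Sum.inr Q) = Q.ord τ₂ + sumPl Qs₂ Q := by
    intro Q hQ h0
    have hσ0 : σ₂ ≠ 0 := fun h => h0 (hτσ₂.mpr h)
    rw [hZ, Finsupp.mapDomain_add, Finsupp.mapDomain_add, Finsupp.add_apply, Finsupp.add_apply,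
      Fc.r5₂ hR₂ hσ0 Q hQ, hG₀₂, hD'₂ Q hQ, hτ₂, Q.ord_mul hβ₂ hσ0]
    ring
  have hZsnn : 0 ≤ Finsupp.mapDomain Fc.sp Z := mapDomain_nonneg Fc.sp hZnn
  -- `τ_i ∈ L_i(∑ Qs_i)`
  have hmem₁ : τ₁ ∈ riemannRochSpace (sumPl Qs₁) := by
    by_cases h0 : τ₁ = 0
    · rw [h0]
      exact Submodule.zero_mem _
    rw [mem_rrSpace_iff_of_ne_zero h0]
    intro Q
    by_cases hQ : Smooth₁ Sg Q
    · have h1 := Finsupp.le_def.mp hZsnn (Sum.inl Q)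
      rw [hZ₁ Q hQ h0] at h1
      simp only [Finsupp.coe_zero, Pi.zero_apply] at h1
      omega
    · unfold Smooth₁ at hQ
      simp only [not_forall, not_not] at hQ
      obtain ⟨p, hp, rfl⟩ := hQ
      obtain ⟨u₁, u₂, hu₁, -, -⟩ := hval p hp
      have := hu₁.ord_nonneg
      rw [hnQs₁ p hp]
      omega
  have hmem₂ : τ₂ ∈ riemannRochSpace (sumPl Qs₂) := by
    by_cases h0 : τ₂ = 0
    · rw [h0]
      exact Submodule.zero_mem _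
    rw [mem_rrSpace_iff_of_ne_zero h0]
    intro Q
    by_cases hQ : Smooth₂ Sg Q
    · have h1 := Finsupp.le_def.mp hZsnn (Sum.inr Q)
      rw [hZ₂ Q hQ h0] at h1
      simp only [Finsupp.coe_zero, Pi.zero_apply] at h1
      omega
    · unfold Smooth₂ at hQ
      simp only [not_forall, not_not] at hQ
      obtain ⟨p, hp, rfl⟩ := hQ
      obtain ⟨u₁, u₂, -, hu₂, -⟩ := hval p hp
      have := hu₂.ord_nonneg
      rw [hnQs₂ p hp]
      omega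
  -- `τ₂` is a nonzero constant
  obtain ⟨a, ha⟩ := exists_const_of_finrank_eq_one S.hpf₂ p₀.2 (sumPl_nonneg Qs₂) hrank hmem₂
  have ha0 : a ≠ 0 := by
    rintro rfl
    rw [map_zero] at ha
    have hτ₁0 : τ₁ ≠ 0 := hτ.resolve_right (not_not.mpr ha)
    apply hτ₁0
    refine hns τ₁ hmem₁ fun p hp => ?_
    obtain ⟨u₁, u₂, hu₁, hu₂, hu⟩ := hval p hp
    rw [ha] at hu₂
    have hu₂0 : u₂ = 0 := hu₂.unique (Nodal.hasValue_zero' p.2)
    rw [hu₂0, zero_pow hmN, mul_zero] at hu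
    have hu₁0 : u₁ = 0 := by
      rcases mul_eq_zero.mp hu with h1 | h1
      · exact absurd h1 he₁
      · exact pow_eq_zero_iff hmN |>.mp h1
    rw [hu₁0] at hu₁
    exact hu₁
  have hτ₂0 : τ₂ ≠ 0 := by
    rw [ha]
    exact (map_ne_zero _).mpr ha0
  -- `τ₁` does not vanish at the nodes
  have hnode₁ : ∀ p ∈ Sg, τ₁ ≠ 0 ∧ p.1.ord τ₁ = 0 := by
    intro p hp
    obtain ⟨u₁, u₂, hu₁, hu₂, hu⟩ := hval p hp
    rw [ha] at hu₂
    have hu₂a : u₂ = a := hu₂.unique (Nodal.hasValue_algebraMap p.2 a)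
    have hu₁0 : u₁ ≠ 0 := by
      rintro rfl
      rw [zero_pow hmN, mul_zero, hu₂a] at hu
      exact mul_ne_zero he₂ (pow_ne_zero _ ha0) hu.symm
    exact hu₁.ord_eq_zero hu₁0
  have hτ₁0 : τ₁ ≠ 0 := (hnode₁ p₀ hp₀).1
  -- the count
  have hcount := Common.no_node_of_count S Fc hZnn
    (E₁ := S.hpf₁.divOf τ₁ + sumPl Qs₁) (E₂ := S.hpf₂.divOf τ₂ + sumPl Qs₂)
    (by
      rw [hZdeg, map_add, map_add, S.hpf₁.degree_divOf, S.hpf₂.degree_divOf,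
        degree_sumPl S.hpf₁, degree_sumPl S.hpf₂, zero_add, zero_add, hcardZ])
    (fun Q hQ => by rw [hZ₁ Q hQ hτ₁0, Finsupp.add_apply, S.hpf₁.divOf_apply])
    (fun Q hQ => by rw [hZ₂ Q hQ hτ₂0, Finsupp.add_apply, S.hpf₂.divOf_apply])
    (fun p hp => by
      rw [Finsupp.add_apply, S.hpf₁.divOf_apply, (hnode₁ p hp).2, hnQs₁ p hp, add_zero])
    (fun p hp => by
      rw [Finsupp.add_apply, S.hpf₂.divOf_apply, ha, ord_algebraMap, hnQs₂ p hp, add_zero])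
  -- conclusion
  refine ⟨Z - G₀, f₁, s, τ₁, τ₂, hs0, hf₁0, ?_, ?_, ?_, hRf₁, hRf₂, hτ₁0, hτ₂0,
    fun p hp => (hnode₁ p hp).2, fun p hp => ?_⟩
  · intro P
    rw [Finsupp.sub_apply, hZapply]
    ring
  · intro P p hp hP
    rw [Finsupp.sub_apply, hcount P p hp hP, hG₀node P p hp hP, sub_zero]
  · intro P
    rw [Finsupp.sub_apply, hordf₁]
  · rw [ha, ord_algebraMap]

end Fermat.Agent.S35.MovTw
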