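import Fermat.Agent.S34.NodalSp

/-!
# C84 (S35), piece C3a: the specialisation of places commutes with the degeneracy maps
(abstract form)

`S : Setup2` the two-component (nodal) reduction of `F/L` (level `M'' q`), with specialisation map
`sp` (`SpAx S sp`); `S' : Deuring.Setup` the good reduction of `F'/L` (level `M''`), with reduction
map `rmap S'`.  Two embeddings `ι, ι' : F' → F` (the degeneracy maps `α`, `β`) which are compatible
with the reductions through embeddings `θ_i, θ_i' : Fk' → Fk_i` (identity or Frobenius `V`).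

* `rmap_eq_of_van`  : the core: if the reductions of the sections of `L(n D - P)` vanish at `Q`,
  then `rmap S' (P ∘ ι) = Q ∘ θ`;
* `rmap_eq_of_inl`  : `sp P = inl Q` ⇒ `rmap S' (P ∘ ι) = Q ∘ θ₁`;
* `rmap_eq_of_inr`  : `sp P = inr Q` ⇒ `rmap S' (P ∘ ι) = Q ∘ θ₂`.

"`P' = P ∘ ι`" is expressed by `∀ b, P.ord (ι b) = e * P'.ord b` with `0 < e`
(`Place.ord_restrictAlong`), "`Q₀ = Q ∘ θ`" by `∀ a, Q.ord (θ a) = f * Q₀.ord a`.
The cusps are handled by using the products `ι b * ι' b'`: the divisor `D` of `S` is (at least)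
the sum of the pull-backs of `D'` along `ι` and `ι'`, and `D_i` is (at most) the sum of the
pull-backs of `E` along `θ_i` and `θ_i'`.
-/

set_option autoImplicit false
set_option linter.unusedSectionVars false
set_option linter.unusedVariables false
set_option linter.style.haveILetI false

open AlgebraicCurve Fermat.Agent.Lib.FF Fermat.Agent.S18.Deuring Fermat.Agent.S34
open Fermat.Agent.S34.NodalSp

namespace Fermat.Agent.S35.SpecAlong

variable {L k F Fk₁ Fk₂ F' Fk' : Type*} [Field L] [Field k] [Field F] [Field Fk₁] [Field Fk₂]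
  [Field F'] [Field Fk'] [Algebra L F] [Algebra k Fk₁] [Algebra k Fk₂] [Algebra L F']
  [Algebra k Fk']
variable {A : ValuationSubring L} {res : A →+* k} {Red₁ : F → Fk₁ → Prop}
  {Red₂ : F → Fk₂ → Prop} {D : Divisor L F} {D₁ : Divisor k Fk₁} {D₂ : Divisor k Fk₂}
  {Sg : Finset (Place k Fk₁ × Place k Fk₂)} {g g₁ g₂ : ℕ} {c c₁ c₂ : ℤ}
  {Red' : F' → Fk' → Prop} {D' : Divisor L F'} {E : Divisor k Fk'} {g' : ℕ} {c' : ℤ}

/-- sections vanishing at `P' = P ∘ ι` are mapped by `ι` to sections vanishing at `P` -/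
theorem map_mem_sub_single {ι : F' →+* F} {Dα : Divisor L F} {P : Place L F} {P' : Place L F'}
    {e : ℕ} (he : 0 < e) (hP : ∀ b, P.ord (ι b) = e * P'.ord b)
    (hPD : (e : ℤ) * D' P' ≤ Dα P) {n : ℕ} {b : F'}
    (hb : b ∈ riemannRochSpace (n • D' - Finsupp.single P' 1))
    (hιb : ι b ∈ riemannRochSpace (n • Dα)) :
    ι b ∈ riemannRochSpace (n • Dα - Finsupp.single P 1) := by
  rw [mem_sub_single_iff hιb]
  by_cases hb0 : b = 0
  · left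
    rw [hb0, map_zero]
  right
  have h1 := (mem_rrSpace_iff_of_ne_zero hb0).mp hb P'
  rw [Finsupp.sub_apply, Finsupp.smul_apply, Finsupp.single_eq_same, nsmul_eq_mul] at h1
  rw [hP b, Finsupp.smul_apply, nsmul_eq_mul]
  have he' : (1 : ℤ) ≤ e := by exact_mod_cast he
  have h2 : (e : ℤ) * (-((n : ℤ) * D' P' - 1)) ≤ e * P'.ord b :=
    mul_le_mul_of_nonneg_left h1 (by positivity)
  have h3 : (n : ℤ) * ((e : ℤ) * D' P') ≤ n * Dα P :=
    mul_le_mul_of_nonneg_left hPD (by positivity)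
  nlinarith [h2, h3, he']

/-- **the core**: `RedX` the reduction to the component through which `P` specialises (to `Q`),
`RedY` the other one -/
theorem rmap_eq_of_van [Infinite k] {FkX FkY : Type*} [Field FkX] [Field FkY] [Algebra k FkX]
    [Algebra k FkY] {RedX : F → FkX → Prop} {RedY : F → FkY → Prop} {DX : Divisor k FkX}
    (axX : RedAx A res RedX) (axY : RedAx A res RedY)
    (S' : Setup A res Red' D' E g' c')
    (ι ι' : F' →+* F) (θX θX' : Fk' →+* FkX) (θY θY' : Fk' →+* FkY)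
    (hX : ∀ b β, Red' b β → RedX (ι b) (θX β)) (hY : ∀ b β, Red' b β → RedY (ι b) (θY β))
    (hX' : ∀ b β, Red' b β → RedX (ι' b) (θX' β))
    (hY' : ∀ b β, Red' b β → RedY (ι' b) (θY' β))
    (Dα Dβ : Divisor L F) (hD : Dα + Dβ ≤ D)
    (hα : ∀ (n : ℕ) (b : F'), b ∈ riemannRochSpace (n • D') → ι b ∈ riemannRochSpace (n • Dα))
    (hβ : ∀ (n : ℕ) (b : F'), b ∈ riemannRochSpace (n • D') → ι' b ∈ riemannRochSpace (n • Dβ))
    {P : Place L F} {Q : Place k FkX}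
    (hvan : ∀ {n : ℕ} {x : F} {a : FkX} {a' : FkY},
      x ∈ riemannRochSpace (n • D - Finsupp.single P 1) → RedX x a → RedY x a' →
        a ∈ riemannRochSpace (n • DX - Finsupp.single Q 1))
    {P' : Place L F'} {e : ℕ} (he : 0 < e) (hP : ∀ b, P.ord (ι b) = e * P'.ord b)
    (hPD : (e : ℤ) * D' P' ≤ Dα P)
    {Q₀ Q₀' : Place k Fk'} {f f' : ℕ} (hQ : ∀ a, Q.ord (θX a) = f * Q₀.ord a)
    (hQ' : ∀ a, Q.ord (θX' a) = f' * Q₀'.ord a)
    (hQD : DX Q ≤ (f : ℤ) * E Q₀ + (f' : ℤ) * E Q₀') :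
    rmap S' P' = Q₀ := by
  classical
  by_contra hne
  obtain ⟨ck, hRk⟩ := S'.rthm_k
  obtain ⟨N₀, hN₀⟩ := bar_zero S'
  obtain ⟨N₁, hN₁⟩ := rmap_spec S' P'
  obtain ⟨N₂, hN₂⟩ := exists_threshold S'.degk_pos (ck + 1 + 1)
  set n := max N₀ (max N₁ N₂) with hn
  have e0 := hN₀ n (le_max_left _ _)
  have e1 := hN₁ n (le_trans (le_max_left _ _) (le_max_right _ _))
  have t2 := hN₂ n (le_trans (le_max_right _ _) (le_max_right _ _))
  rw [zero_add, zero_add] at e1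
  rw [sub_zero, sub_zero] at e0
  obtain ⟨β, hβmem, hβ0, hβord⟩ := exists_ord_eq S'.hpfk hRk
    (E := n • E - Finsupp.single (rmap S' P') 1) Q₀ (by
      rw [map_sub, degree_nsmul', S'.hpfk.degree_single]; omega)
  obtain ⟨β', hβ'mem, hβ'0, hβ'ord⟩ := exists_ord_eq S'.hpfk hRk (E := n • E) Q₀' (by
      rw [degree_nsmul']; omega)
  rw [← e1] at hβmem
  rw [← e0] at hβ'mem
  obtain ⟨b, hb, hbβ⟩ := hβmem
  obtain ⟨b', hb', hb'β⟩ := hβ'mem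
  have hbD : b ∈ riemannRochSpace (n • D') := rrSpace_mono (sub_single_le _ _) hb
  have hιb := map_mem_sub_single he hP hPD hb (hα n b hbD)
  have hx : ι b * ι' b' ∈ riemannRochSpace (n • D - Finsupp.single P 1) := by
    refine rrSpace_mono ?_ (mul_mem_rrSpace hιb (hβ n b' hb'))
    have h1 : n • Dα - Finsupp.single P 1 + n • Dβ = n • (Dα + Dβ) - Finsupp.single P 1 := by
      rw [smul_add]; abel
    rw [h1]
    exact sub_le_sub_right (nsmul_le_nsmul_right hD n) _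
  have hv := hvan hx (axX.mul (hX _ _ hbβ) (hX' _ _ hb'β)) (axY.mul (hY _ _ hbβ) (hY' _ _ hb'β))
  have h0 : θX β ≠ 0 := (map_ne_zero θX).mpr hβ0
  have h0' : θX' β' ≠ 0 := (map_ne_zero θX').mpr hβ'0
  have h2 := (mem_rrSpace_iff_of_ne_zero (mul_ne_zero h0 h0')).mp hv Q
  rw [Q.ord_mul h0 h0', hQ, hQ', hβord, hβ'ord, Finsupp.sub_apply, Finsupp.sub_apply,
    Finsupp.smul_apply, Finsupp.smul_apply, Finsupp.smul_apply, Finsupp.single_eq_same,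
    Finsupp.single_eq_of_ne (fun h => hne h.symm), nsmul_eq_mul, nsmul_eq_mul, nsmul_eq_mul,
    sub_zero] at h2
  have h3 : (n : ℤ) * DX Q ≤ n * ((f : ℤ) * E Q₀ + (f' : ℤ) * E Q₀') :=
    mul_le_mul_of_nonneg_left hQD (by positivity)
  nlinarith [h2, h3]

variable {sp : Place L F → Place k Fk₁ ⊕ Place k Fk₂}

/-- **specialisation along `ι`, first component**: `sp P = inl Q` ⇒ `rmap S' (P ∘ ι) = Q ∘ θ₁` -/
theorem rmap_eq_of_inl [Infinite k] (S : Setup2 A res Red₁ Red₂ D D₁ D₂ Sg g g₁ g₂ c c₁ c₂)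
    (hs : SpAx S sp) (S' : Setup A res Red' D' E g' c')
    (ι ι' : F' →+* F) (θ₁ θ₁' : Fk' →+* Fk₁) (θ₂ θ₂' : Fk' →+* Fk₂)
    (h₁ : ∀ b β, Red' b β → Red₁ (ι b) (θ₁ β)) (h₂ : ∀ b β, Red' b β → Red₂ (ι b) (θ₂ β))
    (h₁' : ∀ b β, Red' b β → Red₁ (ι' b) (θ₁' β))
    (h₂' : ∀ b β, Red' b β → Red₂ (ι' b) (θ₂' β))
    (Dα Dβ : Divisor L F) (hD : Dα + Dβ ≤ D)
    (hα : ∀ (n : ℕ) (b : F'), b ∈ riemannRochSpace (n • D') → ι b ∈ riemannRochSpace (n • Dα))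
    (hβ : ∀ (n : ℕ) (b : F'), b ∈ riemannRochSpace (n • D') → ι' b ∈ riemannRochSpace (n • Dβ))
    {P : Place L F} {Q : Place k Fk₁} (hsp : sp P = Sum.inl Q)
    {P' : Place L F'} {e : ℕ} (he : 0 < e) (hP : ∀ b, P.ord (ι b) = e * P'.ord b)
    (hPD : (e : ℤ) * D' P' ≤ Dα P)
    {Q₀ Q₀' : Place k Fk'} {f f' : ℕ} (hQ : ∀ a, Q.ord (θ₁ a) = f * Q₀.ord a)
    (hQ' : ∀ a, Q.ord (θ₁' a) = f' * Q₀'.ord a)
    (hQD : D₁ Q ≤ (f : ℤ) * E Q₀ + (f' : ℤ) * E Q₀') :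
    rmap S' P' = Q₀ :=
  rmap_eq_of_van S.ax₁ S.ax₂ S' ι ι' θ₁ θ₁' θ₂ θ₂' h₁ h₂ h₁' h₂' Dα Dβ hD hα hβ
    (fun hx hR₁ hR₂ => hs.van₁ hsp hx hR₁ hR₂) he hP hPD hQ hQ' hQD

/-- **specialisation along `ι`, second component**: `sp P = inr Q` ⇒ `rmap S' (P ∘ ι) = Q ∘ θ₂` -/
theorem rmap_eq_of_inr [Infinite k] (S : Setup2 A res Red₁ Red₂ D D₁ D₂ Sg g g₁ g₂ c c₁ c₂)
    (hs : SpAx S sp) (S' : Setup A res Red' D' E g' c')
    (ι ι' : F' →+* F) (θ₁ θ₁' : Fk' →+* Fk₁) (θ₂ θ₂' : Fk' →+* Fk₂)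
    (h₁ : ∀ b β, Red' b β → Red₁ (ι b) (θ₁ β)) (h₂ : ∀ b β, Red' b β → Red₂ (ι b) (θ₂ β))
    (h₁' : ∀ b β, Red' b β → Red₁ (ι' b) (θ₁' β))
    (h₂' : ∀ b β, Red' b β → Red₂ (ι' b) (θ₂' β))
    (Dα Dβ : Divisor L F) (hD : Dα + Dβ ≤ D)
    (hα : ∀ (n : ℕ) (b : F'), b ∈ riemannRochSpace (n • D') → ι b ∈ riemannRochSpace (n • Dα))
    (hβ : ∀ (n : ℕ) (b : F'), b ∈ riemannRochSpace (n • D') → ι' b ∈ riemannRochSpace (n • Dβ))
    {P : Place L F} {Q : Place k Fk₂} (hsp : sp P = Sum.inr Q)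
    {P' : Place L F'} {e : ℕ} (he : 0 < e) (hP : ∀ b, P.ord (ι b) = e * P'.ord b)
    (hPD : (e : ℤ) * D' P' ≤ Dα P)
    {Q₀ Q₀' : Place k Fk'} {f f' : ℕ} (hQ : ∀ a, Q.ord (θ₂ a) = f * Q₀.ord a)
    (hQ' : ∀ a, Q.ord (θ₂' a) = f' * Q₀'.ord a)
    (hQD : D₂ Q ≤ (f : ℤ) * E Q₀ + (f' : ℤ) * E Q₀') :
    rmap S' P' = Q₀ :=
  rmap_eq_of_van S.ax₂ S.ax₁ S' ι ι' θ₂ θ₂' θ₁ θ₁' h₂ h₁ h₂' h₁' Dα Dβ hD hα hβ
    (fun hx hR₂ hR₁ => hs.van₂ hsp hx hR₁ hR₂) he hP hPD hQ hQ' hQD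

end Fermat.Agent.S35.SpecAlong
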