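import Fermat.Agent.S35.TwDefs
import Fermat.Agent.S18.DeuringBar
import Fermat.Agent.S18.DeuringNS
import Fermat.Prelude.Def_AlgebraicCurve_Correspondence

/-!
# C84 (S35), piece C3b: the specialisation of a divisor killed by both degeneracy maps

Abstract setting: `F/L` with the two-component reduction `Red₁`, `Red₂ : F → Fk → Prop` (both
components have the SAME residue function field `Fk`), the specialisation `sp` of `Facts`;
`F'/L` a second function field with a good (Deuring) reduction `Red' : F' → Fk → Prop` and its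
specialisation `rmap`; two maps `a b : Place L F → Place L F'` (restriction of places along the
two degeneracy maps `α`, `β`) and a semilinear automorphism `φ` of `Fk` (the Frobenius) such that

* `sp P = inl Q ⇒ rmap (a P) = Q`,     `rmap (b P) = φ • Q`;
* `sp P = inr Q ⇒ rmap (a P) = φ • Q`, `rmap (b P) = Q`.

* `push₁`, `push₂`        : the two parts of the specialisation of a divisor;
* `mapDomain_left/right`  : `r_* (a_* D₀) = D̄₁ + φ D̄₂`, `r_* (b_* D₀) = φ D̄₁ + D̄₂`;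
* `exists_beta`           : if `a_* D₀` and `b_* D₀` are principal, then `(φ² - 1) D̄_i = div β_i`;
* `red_tw`                : if `m D₀ = div f` and `ψ` acts on the special fibre through `τ₁`, `τ₂`
                            fixing the nodes, and `(τ_i - 1) D̄_i = div β_i`, then the reductions
                            of `ψ f / f` are `e_i β_i ^ m` (the input of `mov_tw`);
* `red_tw_of_principal`   : the combination.
-/

set_option autoImplicit false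
set_option linter.unusedSectionVars false
set_option linter.style.haveILetI false
set_option linter.unusedVariables false

open AlgebraicCurve Fermat.Agent.Lib.FF Fermat.Agent.S18.Deuring

namespace Fermat.Agent.S35.SpecDiv

open Fermat.Agent.S34

/-! ### the two parts of a push-forward to a sum -/

section Push

variable {X Y₁ Y₂ Y : Type*}

/-- the first part of the push-forward along `sp` -/
noncomputable def push₁ (sp : X → Y₁ ⊕ Y₂) (D₀ : X →₀ ℤ) : Y₁ →₀ ℤ :=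
  Finsupp.comapDomain.addMonoidHom Sum.inl_injective (Finsupp.mapDomain sp D₀)

/-- the second part of the push-forward along `sp` -/
noncomputable def push₂ (sp : X → Y₁ ⊕ Y₂) (D₀ : X →₀ ℤ) : Y₂ →₀ ℤ :=
  Finsupp.comapDomain.addMonoidHom Sum.inr_injective (Finsupp.mapDomain sp D₀)

theorem push₁_apply (sp : X → Y₁ ⊕ Y₂) (D₀ : X →₀ ℤ) (Q : Y₁) :
    push₁ sp D₀ Q = Finsupp.mapDomain sp D₀ (Sum.inl Q) := rfl

theorem push₂_apply (sp : X → Y₁ ⊕ Y₂) (D₀ : X →₀ ℤ) (Q : Y₂) :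
    push₂ sp D₀ Q = Finsupp.mapDomain sp D₀ (Sum.inr Q) := rfl

theorem push₁_zero (sp : X → Y₁ ⊕ Y₂) : push₁ sp 0 = 0 := by
  rw [push₁, Finsupp.mapDomain_zero, map_zero]

theorem push₂_zero (sp : X → Y₁ ⊕ Y₂) : push₂ sp 0 = 0 := by
  rw [push₂, Finsupp.mapDomain_zero, map_zero]

theorem push₁_add (sp : X → Y₁ ⊕ Y₂) (D E : X →₀ ℤ) :
    push₁ sp (D + E) = push₁ sp D + push₁ sp E := by
  rw [push₁, Finsupp.mapDomain_add, map_add]
  rfl

theorem push₂_add (sp : X → Y₁ ⊕ Y₂) (D E : X →₀ ℤ) :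
    push₂ sp (D + E) = push₂ sp D + push₂ sp E := by
  rw [push₂, Finsupp.mapDomain_add, map_add]
  rfl

theorem push₁_smul (sp : X → Y₁ ⊕ Y₂) (m : ℕ) (D : X →₀ ℤ) :
    push₁ sp (m • D) = m • push₁ sp D := by
  induction m with
  | zero => simp [push₁_zero]
  | succ n ih => rw [succ_nsmul, succ_nsmul, push₁_add, ih]

theorem push₂_smul (sp : X → Y₁ ⊕ Y₂) (m : ℕ) (D : X →₀ ℤ) :
    push₂ sp (m • D) = m • push₂ sp D := by
  induction m with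
  | zero => simp [push₂_zero]
  | succ n ih => rw [succ_nsmul, succ_nsmul, push₂_add, ih]

theorem push₁_single_inl (sp : X → Y₁ ⊕ Y₂) {P : X} {Q : Y₁} (h : sp P = Sum.inl Q) (n : ℤ) :
    push₁ sp (Finsupp.single P n) = Finsupp.single Q n := by
  classical
  ext Q'
  rw [push₁_apply, Finsupp.mapDomain_single, h, Finsupp.single_apply, Finsupp.single_apply]
  simp only [Sum.inl.injEq]

theorem push₁_single_inr (sp : X → Y₁ ⊕ Y₂) {P : X} {Q : Y₂} (h : sp P = Sum.inr Q) (n : ℤ) :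
    push₁ sp (Finsupp.single P n) = 0 := by
  classical
  ext Q'
  rw [push₁_apply, Finsupp.mapDomain_single, h, Finsupp.single_apply]
  simp

theorem push₂_single_inr (sp : X → Y₁ ⊕ Y₂) {P : X} {Q : Y₂} (h : sp P = Sum.inr Q) (n : ℤ) :
    push₂ sp (Finsupp.single P n) = Finsupp.single Q n := by
  classical
  ext Q'
  rw [push₂_apply, Finsupp.mapDomain_single, h, Finsupp.single_apply, Finsupp.single_apply]
  simp only [Sum.inr.injEq]

theorem push₂_single_inl (sp : X → Y₁ ⊕ Y₂) {P : X} {Q : Y₁} (h : sp P = Sum.inl Q) (n : ℤ) :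
    push₂ sp (Finsupp.single P n) = 0 := by
  classical
  ext Q'
  rw [push₂_apply, Finsupp.mapDomain_single, h, Finsupp.single_apply]
  simp

/-- `r = [id, φ] ∘ sp` pointwise ⇒ `r_* D₀ = D̄₁ + φ_* D̄₂` -/
theorem mapDomain_left (sp : X → Y ⊕ Y) (r : X → Y) (φ : Y → Y)
    (h₁ : ∀ P Q, sp P = Sum.inl Q → r P = Q) (h₂ : ∀ P Q, sp P = Sum.inr Q → r P = φ Q)
    (D₀ : X →₀ ℤ) :
    Finsupp.mapDomain r D₀ = push₁ sp D₀ + Finsupp.mapDomain φ (push₂ sp D₀) := by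
  induction D₀ using Finsupp.induction_linear with
  | zero => simp [push₁_zero, push₂_zero]
  | add D E hD hE =>
    rw [Finsupp.mapDomain_add, hD, hE, push₁_add, push₂_add, Finsupp.mapDomain_add]
    abel
  | single P n =>
    rw [Finsupp.mapDomain_single]
    rcases hsp : sp P with Q | Q
    · rw [push₁_single_inl sp hsp, push₂_single_inl sp hsp, Finsupp.mapDomain_zero, add_zero,
        h₁ P Q hsp]
    · rw [push₁_single_inr sp hsp, push₂_single_inr sp hsp, Finsupp.mapDomain_single, zero_add,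
        h₂ P Q hsp]

/-- `r = [φ, id] ∘ sp` pointwise ⇒ `r_* D₀ = φ_* D̄₁ + D̄₂` -/
theorem mapDomain_right (sp : X → Y ⊕ Y) (r : X → Y) (φ : Y → Y)
    (h₁ : ∀ P Q, sp P = Sum.inl Q → r P = φ Q) (h₂ : ∀ P Q, sp P = Sum.inr Q → r P = Q)
    (D₀ : X →₀ ℤ) :
    Finsupp.mapDomain r D₀ = Finsupp.mapDomain φ (push₁ sp D₀) + push₂ sp D₀ := by
  induction D₀ using Finsupp.induction_linear with
  | zero => simp [push₁_zero, push₂_zero]
  | add D E hD hE =>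
    rw [Finsupp.mapDomain_add, hD, hE, push₁_add, push₂_add, Finsupp.mapDomain_add]
    abel
  | single P n =>
    rw [Finsupp.mapDomain_single]
    rcases hsp : sp P with Q | Q
    · rw [push₁_single_inl sp hsp, push₂_single_inl sp hsp, Finsupp.mapDomain_single, add_zero,
        h₁ P Q hsp]
    · rw [push₁_single_inr sp hsp, push₂_single_inr sp hsp, Finsupp.mapDomain_zero, zero_add,
        h₂ P Q hsp]

end Push

/-! ### divisors of functions and semilinear automorphisms -/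

section DivOf

variable {K E : Type*} [Field K] [Field E] [Algebra K E]

theorem ord_smul_eq (τ : SemilinearAut K E) (Q : Place K E) (x : E) :
    Q.ord (τ • x) = (τ⁻¹ • Q).ord x := by
  have := SemilinearAut.ord_smul (g := τ) (τ⁻¹ • Q) x
  rwa [smul_inv_smul] at this

theorem divOf_semilinear (hpf : PlaceFacts K E) (τ : SemilinearAut K E) (x : E) :
    hpf.divOf (τ • x) = τ • hpf.divOf x := by
  ext Q
  rw [hpf.divOf_apply, SemilinearAut.divisor_smul_apply, hpf.divOf_apply, ord_smul_eq]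

theorem divOf_mul_inv (hpf : PlaceFacts K E) {x y : E} (hx : x ≠ 0) (hy : y ≠ 0) :
    hpf.divOf (x * y⁻¹) = hpf.divOf x - hpf.divOf y := by
  ext Q
  rw [Finsupp.sub_apply, hpf.divOf_apply, hpf.divOf_apply, hpf.divOf_apply,
    Q.ord_mul hx (inv_ne_zero hy), Q.ord_inv]
  ring

theorem smul_ne_zero' (τ : SemilinearAut K E) {x : E} (hx : x ≠ 0) : τ • x ≠ 0 := by
  intro h
  apply hx
  have := congrArg (fun y => τ⁻¹ • y) h
  simpa using this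

/-- a function without zeros and poles is a non-zero constant -/
theorem exists_const_of_ord_eq_zero (hpf : PlaceFacts K E) (P₀ : Place K E) {t : E}
    (ht : t ≠ 0) (h : ∀ Q : Place K E, Q.ord t = 0) :
    ∃ e : K, e ≠ 0 ∧ t = algebraMap K E e := by
  have hmem : t ∈ riemannRochSpace (0 : Divisor K E) := by
    rw [mem_rrSpace_iff]
    intro v
    right
    rw [h v]
    simp
  obtain ⟨e, he⟩ := exists_const_of_finrank_eq_one hpf P₀ (le_refl (0 : Divisor K E))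
    (finrank_rrSpace_zero' hpf P₀) hmem
  refine ⟨e, ?_, he⟩
  rintro rfl
  rw [map_zero] at he
  exact ht he

end DivOf

/-! ### the main statements -/

section Main

variable {L k F F' Fk : Type*} [Field L] [Field k] [Field F] [Field F'] [Field Fk]
  [Algebra L F] [Algebra L F'] [Algebra k Fk] [Infinite k]
variable {A : ValuationSubring L} {res : A →+* k} {Red₁ Red₂ : F → Fk → Prop}
  {Red' : F' → Fk → Prop}
  {D : Divisor L F} {D₁ D₂ : Divisor k Fk}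
  {Sg : Finset (Place k Fk × Place k Fk)} {g g₁ g₂ : ℕ} {c c₁ c₂ : ℤ}
  {D' : Divisor L F'} {Dk' : Divisor k Fk} {g' : ℕ} {c' : ℤ}

/-- **(i), (ii) ⇒ `(φ² - 1) D̄_i` principal**: if the push-forwards `a_* D₀`, `b_* D₀` of a divisor
along the two degeneracy maps are principal at the good level, then `(φ² - 1) D̄₁ = div β₁` and
`(φ² - 1) D̄₂ = div β₂`, `D̄_i` the parts of the specialisation of `D₀` on the two components. -/
theorem exists_beta (S : Setup2 A res Red₁ Red₂ D D₁ D₂ Sg g g₁ g₂ c c₁ c₂) (Fc : Facts S)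
    (S' : Setup A res Red' D' Dk' g' c') (a b : Place L F → Place L F')
    (φ : SemilinearAut k Fk)
    (ha₁ : ∀ P Q, Fc.sp P = Sum.inl Q → rmap S' (a P) = Q)
    (ha₂ : ∀ P Q, Fc.sp P = Sum.inr Q → rmap S' (a P) = φ • Q)
    (hb₁ : ∀ P Q, Fc.sp P = Sum.inl Q → rmap S' (b P) = φ • Q)
    (hb₂ : ∀ P Q, Fc.sp P = Sum.inr Q → rmap S' (b P) = Q)
    {D₀ : Divisor L F} {uα uβ : F'} (huα : uα ≠ 0) (huβ : uβ ≠ 0)
    (hα : Finsupp.mapDomain a D₀ = S'.hpf.divOf uα)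
    (hβ : Finsupp.mapDomain b D₀ = S'.hpf.divOf uβ) :
    ∃ β₁ β₂ : Fk, β₁ ≠ 0 ∧ β₂ ≠ 0 ∧
      S.hpf₁.divOf β₁ = (φ * φ) • push₁ Fc.sp D₀ - push₁ Fc.sp D₀ ∧
      S.hpf₂.divOf β₂ = (φ * φ) • push₂ Fc.sp D₀ - push₂ Fc.sp D₀ := by
  obtain ⟨cα, hcα, vα, hvα, hRα⟩ := S'.ax.scale uα huα
  obtain ⟨cβ, hcβ, vβ, hvβ, hRβ⟩ := S'.ax.scale uβ huβ
  have e1 := mapDomain_divOf S' hRα hvα
  have e2 := mapDomain_divOf S' hRβ hvβ
  rw [divOf_smul S'.hpf hcα, ← hα, ← Finsupp.mapDomain_comp,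
    mapDomain_left Fc.sp (rmap S' ∘ a) (fun Q => φ • Q) ha₁ ha₂] at e1
  rw [divOf_smul S'.hpf hcβ, ← hβ, ← Finsupp.mapDomain_comp,
    mapDomain_right Fc.sp (rmap S' ∘ b) (fun Q => φ • Q) hb₁ hb₂] at e2
  have e1' : push₁ Fc.sp D₀ + φ • push₂ Fc.sp D₀ = S.hpf₁.divOf vα := e1
  have e2' : φ • push₁ Fc.sp D₀ + push₂ Fc.sp D₀ = S.hpf₁.divOf vβ := e2
  have hφα : φ • vα ≠ 0 := smul_ne_zero' φ hvα
  have hφβ : φ • vβ ≠ 0 := smul_ne_zero' φ hvβ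
  refine ⟨φ • vβ * vα⁻¹, φ • vα * vβ⁻¹, mul_ne_zero hφβ (inv_ne_zero hvα),
    mul_ne_zero hφα (inv_ne_zero hvβ), ?_, ?_⟩
  · rw [divOf_mul_inv S.hpf₁ hφβ hvα, divOf_semilinear, ← e1', ← e2', smul_add, mul_smul]
    abel
  · have e1'' : push₁ Fc.sp D₀ + φ • push₂ Fc.sp D₀ = S.hpf₂.divOf vα := e1
    have e2'' : φ • push₁ Fc.sp D₀ + push₂ Fc.sp D₀ = S.hpf₂.divOf vβ := e2
    rw [divOf_mul_inv S.hpf₂ hφα hvβ, divOf_semilinear, ← e1'', ← e2'', smul_add, mul_smul]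
    abel

end Main

section Tw

variable {L k F Fk₁ Fk₂ : Type*} [Field L] [Field k] [Field F] [Field Fk₁] [Field Fk₂]
  [Algebra L F] [Algebra k Fk₁] [Algebra k Fk₂]
variable {A : ValuationSubring L} {res : A →+* k} {Red₁ : F → Fk₁ → Prop}
  {Red₂ : F → Fk₂ → Prop} {D : Divisor L F} {D₁ : Divisor k Fk₁} {D₂ : Divisor k Fk₂}
  {Sg : Finset (Place k Fk₁ × Place k Fk₂)} {g g₁ g₂ : ℕ} {c c₁ c₂ : ℤ}

theorem divOf_eq_smul (S : Setup2 A res Red₁ Red₂ D D₁ D₂ Sg g g₁ g₂ c c₁ c₂)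
    {m : ℕ} {f : F} {D₀ : Divisor L F} (hdiv : ∀ P, (m : ℤ) * D₀ P = P.ord f)
    {c₀ : L} (hc₀ : c₀ ≠ 0) : S.hpf.divOf (c₀ • f) = m • D₀ := by
  rw [divOf_smul S.hpf hc₀]
  ext P
  rw [S.hpf.divOf_apply, Finsupp.smul_apply, nsmul_eq_mul]
  exact (hdiv P).symm

/-- **the ratio `τ₁ a / a`** for the reduction `a` of any scaling of `f`: an `m`-th power up to
a constant, as soon as `(τ₁ - 1) D̄₁ = div β₁` and `τ₁` fixes the first branches of the nodes -/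
theorem tw_ratio₁ (S : Setup2 A res Red₁ Red₂ D D₁ D₂ Sg g g₁ g₂ c c₁ c₂) (Fc : Facts S)
    {τ₁ : SemilinearAut k Fk₁} (hnode : ∀ p ∈ Sg, τ₁ • p.1 = p.1)
    {m : ℕ} {f : F} {D₀ : Divisor L F}
    (hdiv : ∀ P, (m : ℤ) * D₀ P = P.ord f)
    {β₁ : Fk₁} (hβ₁ : β₁ ≠ 0)
    (h₁ : S.hpf₁.divOf β₁ = τ₁ • push₁ Fc.sp D₀ - push₁ Fc.sp D₀)
    (c₀ : L) (a : Fk₁) (hc₀ : c₀ ≠ 0) (ha : a ≠ 0) (hR : Red₁ (c₀ • f) a) :
    ∃ e : k, e ≠ 0 ∧ τ₁ • a * a⁻¹ = algebraMap k Fk₁ e * β₁ ^ m := by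
  obtain ⟨p₀, hp₀⟩ := S.node_nonempty
  have hτa : τ₁ • a ≠ 0 := smul_ne_zero' τ₁ ha
  have hdf := divOf_eq_smul S hdiv hc₀
  have hord : ∀ Q' : Place k Fk₁, Smooth₁ Sg Q' → Q'.ord a = m * push₁ Fc.sp D₀ Q' := by
    intro Q' hQ'
    have := Fc.r5₁ hR ha Q' hQ'
    rw [hdf, ← push₁_apply, push₁_smul, Finsupp.smul_apply, nsmul_eq_mul] at this
    exact this.symm
  have key : ∀ Q' : Place k Fk₁, Q'.ord (τ₁ • a * a⁻¹ * (β₁ ^ m)⁻¹) = 0 := by
    intro Q'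
    have h4 : Q'.ord β₁ = push₁ Fc.sp D₀ (τ₁⁻¹ • Q') - push₁ Fc.sp D₀ Q' := by
      rw [← S.hpf₁.divOf_apply, h₁, Finsupp.sub_apply, SemilinearAut.divisor_smul_apply]
    rw [Q'.ord_mul (mul_ne_zero hτa (inv_ne_zero ha)) (inv_ne_zero (pow_ne_zero _ hβ₁)),
      Q'.ord_mul hτa (inv_ne_zero ha), Q'.ord_inv, Q'.ord_inv, ord_pow', ord_smul_eq, h4]
    by_cases hQ' : Smooth₁ Sg Q'
    · have hQ'' : Smooth₁ Sg (τ₁⁻¹ • Q') := by
        intro p hp h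
        apply hQ' p hp
        have h2 : τ₁ • p.1 = Q' := by rw [h, smul_inv_smul]
        rw [← h2, hnode p hp]
      rw [hord Q' hQ', hord _ hQ'']
      ring
    · unfold Smooth₁ at hQ'
      push Not at hQ'
      obtain ⟨p, hp, rfl⟩ := hQ'
      have h2 : τ₁⁻¹ • p.1 = p.1 := by
        rw [inv_smul_eq_iff, hnode p hp]
      rw [h2]
      ring
  have ht : τ₁ • a * a⁻¹ * (β₁ ^ m)⁻¹ ≠ 0 :=
    mul_ne_zero (mul_ne_zero hτa (inv_ne_zero ha)) (inv_ne_zero (pow_ne_zero _ hβ₁))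
  obtain ⟨e', he', hte'⟩ := exists_const_of_ord_eq_zero S.hpf₁ p₀.1 ht key
  refine ⟨e', he', ?_⟩
  rw [← hte']
  field_simp

/-- **the ratio `τ₂ a / a`**, second component -/
theorem tw_ratio₂ (S : Setup2 A res Red₁ Red₂ D D₁ D₂ Sg g g₁ g₂ c c₁ c₂) (Fc : Facts S)
    {τ₂ : SemilinearAut k Fk₂} (hnode : ∀ p ∈ Sg, τ₂ • p.2 = p.2)
    {m : ℕ} {f : F} {D₀ : Divisor L F}
    (hdiv : ∀ P, (m : ℤ) * D₀ P = P.ord f)
    {β₂ : Fk₂} (hβ₂ : β₂ ≠ 0)
    (h₂ : S.hpf₂.divOf β₂ = τ₂ • push₂ Fc.sp D₀ - push₂ Fc.sp D₀)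
    (c₀ : L) (a : Fk₂) (hc₀ : c₀ ≠ 0) (ha : a ≠ 0) (hR : Red₂ (c₀ • f) a) :
    ∃ e : k, e ≠ 0 ∧ τ₂ • a * a⁻¹ = algebraMap k Fk₂ e * β₂ ^ m := by
  obtain ⟨p₀, hp₀⟩ := S.node_nonempty
  have hτa : τ₂ • a ≠ 0 := smul_ne_zero' τ₂ ha
  have hdf := divOf_eq_smul S hdiv hc₀
  have hord : ∀ Q' : Place k Fk₂, Smooth₂ Sg Q' → Q'.ord a = m * push₂ Fc.sp D₀ Q' := by
    intro Q' hQ'
    have := Fc.r5₂ hR ha Q' hQ'
    rw [hdf, ← push₂_apply, push₂_smul, Finsupp.smul_apply, nsmul_eq_mul] at this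
    exact this.symm
  have key : ∀ Q' : Place k Fk₂, Q'.ord (τ₂ • a * a⁻¹ * (β₂ ^ m)⁻¹) = 0 := by
    intro Q'
    have h4 : Q'.ord β₂ = push₂ Fc.sp D₀ (τ₂⁻¹ • Q') - push₂ Fc.sp D₀ Q' := by
      rw [← S.hpf₂.divOf_apply, h₂, Finsupp.sub_apply, SemilinearAut.divisor_smul_apply]
    rw [Q'.ord_mul (mul_ne_zero hτa (inv_ne_zero ha)) (inv_ne_zero (pow_ne_zero _ hβ₂)),
      Q'.ord_mul hτa (inv_ne_zero ha), Q'.ord_inv, Q'.ord_inv, ord_pow', ord_smul_eq, h4]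
    by_cases hQ' : Smooth₂ Sg Q'
    · have hQ'' : Smooth₂ Sg (τ₂⁻¹ • Q') := by
        intro p hp h
        apply hQ' p hp
        have h2 : τ₂ • p.2 = Q' := by rw [h, smul_inv_smul]
        rw [← h2, hnode p hp]
      rw [hord Q' hQ', hord _ hQ'']
      ring
    · unfold Smooth₂ at hQ'
      push Not at hQ'
      obtain ⟨p, hp, rfl⟩ := hQ'
      have h2 : τ₂⁻¹ • p.2 = p.2 := by
        rw [inv_smul_eq_iff, hnode p hp]
      rw [h2]
      ring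
  have ht : τ₂ • a * a⁻¹ * (β₂ ^ m)⁻¹ ≠ 0 :=
    mul_ne_zero (mul_ne_zero hτa (inv_ne_zero ha)) (inv_ne_zero (pow_ne_zero _ hβ₂))
  obtain ⟨e', he', hte'⟩ := exists_const_of_ord_eq_zero S.hpf₂ p₀.2 ht key
  refine ⟨e', he', ?_⟩
  rw [← hte']
  field_simp

/-- **the reductions of `ψ f / f`**: the input of `mov_tw` -/
theorem red_tw (S : Setup2 A res Red₁ Red₂ D D₁ D₂ Sg g g₁ g₂ c c₁ c₂) (Fc : Facts S)
    {Q : ℕ} {ψ : SemilinearAut L F} {τ₁ : SemilinearAut k Fk₁} {τ₂ : SemilinearAut k Fk₂}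
    (hC : CompatTw A Red₁ Red₂ Sg Q ψ τ₁ τ₂)
    {m : ℕ} {f : F} (hf : f ≠ 0) {D₀ : Divisor L F}
    (hdiv : ∀ P, (m : ℤ) * D₀ P = P.ord f)
    {β₁ : Fk₁} {β₂ : Fk₂} (hβ₁ : β₁ ≠ 0) (hβ₂ : β₂ ≠ 0)
    (h₁ : S.hpf₁.divOf β₁ = τ₁ • push₁ Fc.sp D₀ - push₁ Fc.sp D₀)
    (h₂ : S.hpf₂.divOf β₂ = τ₂ • push₂ Fc.sp D₀ - push₂ Fc.sp D₀) :
    ∃ e₁ e₂ : k, e₁ ≠ 0 ∧ e₂ ≠ 0 ∧
      Red₁ (ψ • f * f⁻¹) (algebraMap k Fk₁ e₁ * β₁ ^ m) ∧
      Red₂ (ψ • f * f⁻¹) (algebraMap k Fk₂ e₂ * β₂ ^ m) := by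
  obtain ⟨c₁', a₁, e₁, hc₁, ha₁, he₁, hR₁, hRw₁⟩ :=
    red_tw_div S.ax₁ ψ τ₁ hC.red₁ hC.val hf
  obtain ⟨c₂', a₂, e₂, hc₂, ha₂, he₂, hR₂, hRw₂⟩ :=
    red_tw_div S.ax₂ ψ τ₂ hC.red₂ hC.val hf
  obtain ⟨e₁', he₁', h5⟩ := tw_ratio₁ S Fc hC.node₁ hdiv hβ₁ h₁ c₁' a₁ hc₁ ha₁ hR₁
  obtain ⟨e₂', he₂', h6⟩ := tw_ratio₂ S Fc hC.node₂ hdiv hβ₂ h₂ c₂' a₂ hc₂ ha₂ hR₂
  refine ⟨e₁ * e₁', e₂ * e₂', mul_ne_zero he₁ he₁', mul_ne_zero he₂ he₂', ?_, ?_⟩
  · rw [h5, ← mul_assoc, ← map_mul] at hRw₁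
    exact hRw₁
  · rw [h6, ← mul_assoc, ← map_mul] at hRw₂
    exact hRw₂

end Tw

/-! ### the combination: the hypotheses `hβ₁`, `hβ₂` of `key_tw` -/

section Combined

variable {L k F F' Fk : Type*} [Field L] [Field k] [Field F] [Field F'] [Field Fk]
  [Algebra L F] [Algebra L F'] [Algebra k Fk] [Infinite k]
variable {A : ValuationSubring L} {res : A →+* k} {Red₁ Red₂ : F → Fk → Prop}
  {Red' : F' → Fk → Prop}
  {D : Divisor L F} {D₁ D₂ : Divisor k Fk}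
  {Sg : Finset (Place k Fk × Place k Fk)} {g g₁ g₂ : ℕ} {c c₁ c₂ : ℤ}
  {D' : Divisor L F'} {Dk' : Divisor k Fk} {g' : ℕ} {c' : ℤ}

/-- **C3b**: if `m D₀ = div f` and the push-forwards of `D₀` along the two degeneracy maps are
principal at the good level, then for the reduction `a` of any scaling of `f` the ratio
`φ² a / a` is an `m`-th power up to a constant (both components): the hypotheses `hβ₁`, `hβ₂`
of `key_tw` for `τ₁ = τ₂ = φ²`. -/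
theorem hbeta_of_principal (S : Setup2 A res Red₁ Red₂ D D₁ D₂ Sg g g₁ g₂ c c₁ c₂)
    (Fc : Facts S) (S' : Setup A res Red' D' Dk' g' c') (a b : Place L F → Place L F')
    (φ : SemilinearAut k Fk)
    (ha₁ : ∀ P Q, Fc.sp P = Sum.inl Q → rmap S' (a P) = Q)
    (ha₂ : ∀ P Q, Fc.sp P = Sum.inr Q → rmap S' (a P) = φ • Q)
    (hb₁ : ∀ P Q, Fc.sp P = Sum.inl Q → rmap S' (b P) = φ • Q)
    (hb₂ : ∀ P Q, Fc.sp P = Sum.inr Q → rmap S' (b P) = Q)
    (hnode₁ : ∀ p ∈ Sg, (φ * φ) • p.1 = p.1) (hnode₂ : ∀ p ∈ Sg, (φ * φ) • p.2 = p.2)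
    {m : ℕ} {f : F} {D₀ : Divisor L F} (hdiv : ∀ P, (m : ℤ) * D₀ P = P.ord f)
    {uα uβ : F'} (huα : uα ≠ 0) (huβ : uβ ≠ 0)
    (hα : Finsupp.mapDomain a D₀ = S'.hpf.divOf uα)
    (hβ : Finsupp.mapDomain b D₀ = S'.hpf.divOf uβ) :
    (∀ (c₀ : L) (x : Fk), c₀ ≠ 0 → x ≠ 0 → Red₁ (c₀ • f) x →
      ∃ (e : k) (β : Fk), e ≠ 0 ∧ β ≠ 0 ∧ (φ * φ) • x * x⁻¹ = algebraMap k Fk e * β ^ m) ∧
    (∀ (c₀ : L) (x : Fk), c₀ ≠ 0 → x ≠ 0 → Red₂ (c₀ • f) x →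
      ∃ (e : k) (β : Fk), e ≠ 0 ∧ β ≠ 0 ∧ (φ * φ) • x * x⁻¹ = algebraMap k Fk e * β ^ m) := by
  obtain ⟨β₁, β₂, hβ₁, hβ₂, h₁, h₂⟩ :=
    exists_beta S Fc S' a b φ ha₁ ha₂ hb₁ hb₂ huα huβ hα hβ
  constructor
  · intro c₀ x hc₀ hx hR
    obtain ⟨e, he, h⟩ := tw_ratio₁ S Fc hnode₁ hdiv hβ₁ h₁ c₀ x hc₀ hx hR
    exact ⟨e, β₁, he, hβ₁, h⟩
  · intro c₀ x hc₀ hx hR
    obtain ⟨e, he, h⟩ := tw_ratio₂ S Fc hnode₂ hdiv hβ₂ h₂ c₀ x hc₀ hx hR
    exact ⟨e, β₂, he, hβ₂, h⟩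

end Combined

section Along

variable {K E E' : Type*} [Field K] [Field E] [Field E'] [Algebra K E] [Algebra K E']

/-- the push-forward of divisors along a homomorphism of function fields with all inertia
degrees one is the `mapDomain` along the restriction of places -/
theorem pushforwardAlong_eq_mapDomain (φ : E →ₐ[K] E') (hφ : φ.toRingHom.IsIntegral)
    (hdeg : ∀ w : Place K E', w.inertiaDegAlong φ hφ = 1) (D₀ : Divisor K E') :
    Divisor.pushforwardAlong φ hφ D₀ =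
      Finsupp.mapDomain (fun w : Place K E' => w.restrictAlong φ hφ) D₀ := by
  induction D₀ using Finsupp.induction_linear with
  | zero => rw [map_zero, Finsupp.mapDomain_zero]
  | add D E hD hE => rw [map_add, Finsupp.mapDomain_add, hD, hE]
  | single w n =>
    rw [Divisor.pushforwardAlong_single, hdeg, Finsupp.mapDomain_single, Nat.cast_one, mul_one]

end Along

end Fermat.Agent.S35.SpecDiv
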