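import Fermat.Agent.S35.FrobDefs
import Fermat.Agent.S35.MovTw
import Fermat.Agent.Lib.FunctionField.DWMain

/-!
# C84 (S35), piece A2 (`Tor`): a Frobenius-type automorphism acts on the toric classes by `Q`

`S : Setup2`, `ψ` a Frobenius-type automorphism (`FrobCompat`, the nodes are fixed, the constants
are raised to the power `Q`).  Let `E` be a toric class: no point of `E` lies over a node,
`m • E = div f₁`, `(m : k) ≠ 0`, and the reductions of `f₁` are `e_i τ_i ^ m` with `τ_i` units at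
the nodes.  Then `ψ • E - Q • E` is principal.

* `ord_eq_zero_of_node` : a section whose first reduction is a unit at a node has no zero over
  this node;
* `exists_lift_units`   : a pair `(w₁, w₂)` with value `1` at both branches of all the nodes is
  the joint reduction of a function without zeros and poles over the nodes;
* `tor`                 : the theorem;
* `tor_of_div`          : the combination with `MovTw.mov_tw`: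
  `m • D' = div w`, `Red_i w = e_i β_i ^ m` ⇒ `ψ • D' - Q • D'` is principal.
-/

set_option autoImplicit false
set_option linter.unusedSectionVars false
set_option linter.unusedVariables false
set_option linter.style.haveILetI false
set_option maxHeartbeats 1000000

open AlgebraicCurve Fermat.Agent.Lib.FF Fermat.Agent.S18.Deuring Fermat.Agent.S34
open Fermat.Agent.S34.NodalSp Fermat.Agent.S34.NodalR5 Fermat.Agent.S34.Nodal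
open scoped Classical

namespace Fermat.Agent.S35.Tor

variable {L k F Fk₁ Fk₂ : Type*} [Field L] [Field k] [Field F] [Field Fk₁] [Field Fk₂]
  [Algebra L F] [Algebra k Fk₁] [Algebra k Fk₂]
variable {A : ValuationSubring L} {res : A →+* k} {Red₁ : F → Fk₁ → Prop}
  {Red₂ : F → Fk₂ → Prop} {D : Divisor L F} {D₁ : Divisor k Fk₁} {D₂ : Divisor k Fk₂}
  {Sg : Finset (Place k Fk₁ × Place k Fk₂)} {g g₁ g₂ : ℕ} {c c₁ c₂ : ℤ}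
variable {S : Setup2 A res Red₁ Red₂ D D₁ D₂ Sg g g₁ g₂ c c₁ c₂}
  {sp : Place L F → Place k Fk₁ ⊕ Place k Fk₂}

/-- a section of `L(n D)` whose first reduction is a unit at a node has order `0` at the places
over this node -/
theorem ord_eq_zero_of_node (hs : SpAx S sp) {n : ℕ} {x : F} {a₁ : Fk₁} {a₂ : Fk₂}
    (hx : x ∈ riemannRochSpace (n • D)) (h₁ : Red₁ x a₁) (h₂ : Red₂ x a₂)
    {p : Place k Fk₁ × Place k Fk₂} (hp : p ∈ Sg) (ha : a₁ ≠ 0) (hord : p.1.ord a₁ = 0)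
    {P : Place L F} (hP : sp P = Sum.inl p.1) : P.ord x = 0 := by
  have hx0 : x ≠ 0 := S.ax₁.ne_zero h₁ ha
  have hDP : D P = 0 := D_eq_zero_of_sp₁ hs hP (S.node_off₁ p hp)
  have h1 := (mem_rrSpace_iff_of_ne_zero hx0).mp hx
  have hnn : 0 ≤ P.ord x := by
    have := h1 P
    rw [Finsupp.smul_apply, hDP, smul_zero, neg_zero] at this
    exact this
  by_contra hne
  have hpos : 1 ≤ P.ord x := by omega
  have hx' : x ∈ riemannRochSpace (n • D - Finsupp.single P 1) := by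
    rw [mem_rrSpace_iff_of_ne_zero hx0]
    intro P'
    rw [Finsupp.sub_apply, Finsupp.single_apply]
    split_ifs with hPP
    · subst hPP
      rw [Finsupp.smul_apply, hDP, smul_zero]
      omega
    · have := h1 P'
      omega
  have hv := hs.van₁ hP hx' h₁ h₂
  have h2 := (mem_rrSpace_iff_of_ne_zero ha).mp hv p.1
  rw [Finsupp.sub_apply, Finsupp.single_eq_same, Finsupp.smul_apply, S.node_off₁ p hp,
    smul_zero] at h2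
  omega

/-- **the lift of a pair of units**: `(w₁, w₂)` with value `1` at both branches of all the nodes
is the joint reduction of a function without zeros and poles over the nodes -/
theorem exists_lift_units [Infinite k] (hs : SpAx S sp) {w₁ : Fk₁} {w₂ : Fk₂}
    (hw₁ : w₁ ≠ 0) (hw₂ : w₂ ≠ 0) (hv₁ : ∀ p ∈ Sg, Nodal.HasValue p.1 w₁ 1)
    (hv₂ : ∀ p ∈ Sg, Nodal.HasValue p.2 w₂ 1) :
    ∃ u : F, u ≠ 0 ∧ Red₁ u w₁ ∧ Red₂ u w₂ ∧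
      ∀ P, ∀ p ∈ Sg, sp P = Sum.inl p.1 → P.ord u = 0 := by
  have ax₁ := S.ax₁
  have ax₂ := S.ax₂
  obtain ⟨p₀, hp₀⟩ := S.node_nonempty
  set Z₁ : Divisor k Fk₁ := S.hpf₁.poleDiv w₁ with hZ₁
  set Z₂ : Divisor k Fk₂ := S.hpf₂.poleDiv w₂ with hZ₂
  have hZ₁nn : 0 ≤ Z₁ := by
    rw [Finsupp.le_def]
    intro v
    rw [hZ₁, PlaceFacts.poleDiv_apply]
    exact le_max_right _ _
  have hZ₂nn : 0 ≤ Z₂ := by
    rw [Finsupp.le_def]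
    intro v
    rw [hZ₂, PlaceFacts.poleDiv_apply]
    exact le_max_right _ _
  have hZ₁node : ∀ p ∈ Sg, Z₁ p.1 = 0 := by
    intro p hp
    rw [hZ₁, PlaceFacts.poleDiv_apply]
    have := ((hv₁ p hp).ord_eq_zero one_ne_zero).2
    rw [this]
    simp
  have hZ₂node : ∀ p ∈ Sg, Z₂ p.2 = 0 := by
    intro p hp
    rw [hZ₂, PlaceFacts.poleDiv_apply]
    have := ((hv₂ p hp).ord_eq_zero one_ne_zero).2
    rw [this]
    simp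
  have hZ₁ord : ∀ Q : Place k Fk₁, 0 ≤ Z₁ Q + Q.ord w₁ := by
    intro Q
    rw [hZ₁, PlaceFacts.poleDiv_apply]
    have := le_max_left (-Q.ord w₁) 0
    omega
  have hZ₂ord : ∀ Q : Place k Fk₂, 0 ≤ Z₂ Q + Q.ord w₂ := by
    intro Q
    rw [hZ₂, PlaceFacts.poleDiv_apply]
    have := le_max_left (-Q.ord w₂) 0
    omega
  obtain ⟨N₀, hN₀⟩ := exists_lift_LX S
  obtain ⟨n, hn, hb₁, hb₂⟩ := exists_large S N₀
    (c₁ + Sg.card + 1 + Divisor.degree Z₁) (c₂ + Sg.card + 1 + Divisor.degree Z₂)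
  obtain ⟨φ, hφ, hex₁, hex₂⟩ := exists_LX_exact (N := Sg) S.hpf₁ S.hpf₂ S.RF₁ S.RF₂
    S.node_inj₁ S.node_inj₂ (E₁ := n • D₁ - Z₁) (E₂ := n • D₂ - Z₂)
    (fun p hp => by
      rw [Finsupp.sub_apply, nsmul_node_off (S.node_off₁ p hp) n, hZ₁node p hp, sub_zero])
    (fun p hp => by
      rw [Finsupp.sub_apply, nsmul_node_off (S.node_off₂ p hp) n, hZ₂node p hp, sub_zero])
    (by rw [map_sub, map_nsmul, nsmul_eq_mul]; omega)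
    (by rw [map_sub, map_nsmul, nsmul_eq_mul]; omega) (Nodal.nodes₁ Sg) (Nodal.nodes₂ Sg)
  obtain ⟨hφ₁, hφ₂, hmatch⟩ := hφ
  have hc₁ : φ.1 ≠ 0 := (hex₁ p₀.1 (Nodal.mem_nodes₁.mpr ⟨p₀, hp₀, rfl⟩)).1
  have hc₂ : φ.2 ≠ 0 := (hex₂ p₀.2 (Nodal.mem_nodes₂.mpr ⟨p₀, hp₀, rfl⟩)).1
  have hc₁ord : ∀ p ∈ Sg, p.1.ord φ.1 = 0 := by
    intro p hp
    have := (hex₁ p.1 (Nodal.mem_nodes₁.mpr ⟨p, hp, rfl⟩)).2
    rw [this, Finsupp.sub_apply, nsmul_node_off (S.node_off₁ p hp) n, hZ₁node p hp]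
    simp
  -- the two pairs lie in `LX Sg (n D₁) (n D₂)`
  have hpair₂ : φ ∈ LX Sg (n • D₁) (n • D₂) :=
    LX_mono (sub_le_self _ hZ₁nn) (sub_le_self _ hZ₂nn) ⟨hφ₁, hφ₂, hmatch⟩
  have hpair₁ : ((φ.1 * w₁, φ.2 * w₂) : Fk₁ × Fk₂) ∈ LX Sg (n • D₁) (n • D₂) := by
    refine ⟨?_, ?_, ?_⟩
    · show φ.1 * w₁ ∈ riemannRochSpace (n • D₁)
      rw [mem_rrSpace_iff_of_ne_zero (mul_ne_zero hc₁ hw₁)]
      intro Q
      have h1 := (mem_rrSpace_iff_of_ne_zero hc₁).mp hφ₁ Q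
      rw [Finsupp.sub_apply] at h1
      rw [Q.ord_mul hc₁ hw₁]
      have := hZ₁ord Q
      omega
    · show φ.2 * w₂ ∈ riemannRochSpace (n • D₂)
      rw [mem_rrSpace_iff_of_ne_zero (mul_ne_zero hc₂ hw₂)]
      intro Q
      have h1 := (mem_rrSpace_iff_of_ne_zero hc₂).mp hφ₂ Q
      rw [Finsupp.sub_apply] at h1
      rw [Q.ord_mul hc₂ hw₂]
      have := hZ₂ord Q
      omega
    · intro p hp
      obtain ⟨v, h1, h2⟩ := hmatch p hp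
      refine ⟨v, ?_, ?_⟩
      · have := h1.mul (hv₁ p hp)
        rwa [mul_one] at this
      · have := h2.mul (hv₂ p hp)
        rwa [mul_one] at this
  obtain ⟨x₁, hx₁, hx₁₁, hx₁₂⟩ := hN₀ n hn _ hpair₁
  obtain ⟨x₂, hx₂, hx₂₁, hx₂₂⟩ := hN₀ n hn _ hpair₂
  have hx₁0 : x₁ ≠ 0 := ax₁.ne_zero hx₁₁ (mul_ne_zero hc₁ hw₁)
  have hx₂0 : x₂ ≠ 0 := ax₁.ne_zero hx₂₁ hc₁
  refine ⟨x₁ * x₂⁻¹, mul_ne_zero hx₁0 (inv_ne_zero hx₂0), ?_, ?_, ?_⟩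
  · have := ax₁.mul hx₁₁ (ax₁.inv hx₂₁ hc₁)
    have e : φ.1 * w₁ * φ.1⁻¹ = w₁ := by
      field_simp
    rwa [e] at this
  · have := ax₂.mul hx₁₂ (ax₂.inv hx₂₂ hc₂)
    have e : φ.2 * w₂ * φ.2⁻¹ = w₂ := by
      field_simp
    rwa [e] at this
  · intro P p hp hP
    have h1 : P.ord x₁ = 0 := by
      refine ord_eq_zero_of_node hs hx₁ hx₁₁ hx₁₂ hp (mul_ne_zero hc₁ hw₁) ?_ hP
      rw [p.1.ord_mul hc₁ hw₁, hc₁ord p hp, ((hv₁ p hp).ord_eq_zero one_ne_zero).2, add_zero]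
    have h2 : P.ord x₂ = 0 :=
      ord_eq_zero_of_node hs hx₂ hx₂₁ hx₂₂ hp hc₁ (hc₁ord p hp) hP
    rw [P.ord_mul hx₁0 (inv_ne_zero hx₂0), P.ord_inv, h1, h2]
    simp

variable {Q : ℕ} {ψ : SemilinearAut L F} {Φ₁ : Fk₁ ≃+* Fk₁} {Φ₂ : Fk₂ ≃+* Fk₂}

/-- the algebra of the reductions -/
theorem frob_algebra {K : Type*} [Field K] {a b t : K} (ha : a ≠ 0) (hb : b ≠ 0) (ht : t ≠ 0)
    (m Q : ℕ) {e : K} (he : e ^ Q = a) :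
    a * b ^ m * ((e * t ^ m) ^ Q)⁻¹ * ((b * (t ^ Q)⁻¹) ^ m)⁻¹ = 1 := by
  have h1 : (e * t ^ m) ^ Q = a * (t ^ Q) ^ m := by
    rw [mul_pow, he, ← pow_mul, ← pow_mul, mul_comm m Q]
  have h2 : (b * (t ^ Q)⁻¹) ^ m = b ^ m * ((t ^ Q) ^ m)⁻¹ := by
    rw [mul_pow, inv_pow]
  have h3 : (t ^ Q) ^ m ≠ 0 := pow_ne_zero _ (pow_ne_zero _ ht)
  have h4 : b ^ m ≠ 0 := pow_ne_zero _ hb
  rw [h1, h2]
  field_simp

/-- the value of `Φ τ / τ ^ Q` at a fixed point where `τ` is a unit is `1` -/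
theorem hasValue_frob_div {Fk : Type*} [Field Fk] [Algebra k Fk] (hpf : PlaceFacts k Fk)
    {y : Place k Fk} {Φ : Fk ≃+* Fk} {τ : Fk} (hτ : τ ≠ 0) (hord : y.ord τ = 0)
    (hnode : ∀ (a : Fk) (v : k), Nodal.HasValue y a v → Nodal.HasValue y (Φ a) (v ^ Q)) :
    Nodal.HasValue y (Φ τ * (τ ^ Q)⁻¹) 1 := by
  obtain ⟨v, hv⟩ := Nodal.exists_hasValue_of_ord_nonneg (hpf.res y) (le_of_eq hord.symm)
  have hv0 : v ≠ 0 := by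
    rintro rfl
    rcases Nodal.hasValue_zero_iff.mp hv with h | h
    · exact hτ h
    · omega
  have hvQ : v ^ Q ≠ 0 := pow_ne_zero _ hv0
  have h1 := hnode τ v hv
  have h2 := hasValue_inv (hv.pow Q) hvQ
  have := h1.mul h2
  rwa [mul_inv_cancel₀ hvQ] at this

/-- **`Tor`**: a Frobenius-type automorphism acts on the toric classes by `Q` -/
theorem tor [Infinite k] (hB : BarAx S sp) (hψ : FrobCompat Red₁ Red₂ D Sg Q ψ Φ₁ Φ₂)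
    {m : ℕ} (hm : (m : k) ≠ 0) {E : Divisor L F} {f₁ : F} {e₁ e₂ : k} {τ₁ : Fk₁} {τ₂ : Fk₂}
    (he₁ : e₁ ≠ 0) (he₂ : e₂ ≠ 0)
    (hE : ∀ P, ∀ p ∈ Sg, sp P = Sum.inl p.1 → E P = 0)
    (hdiv : ∀ P, (m : ℤ) * E P = P.ord f₁)
    (h₁ : Red₁ f₁ (algebraMap k Fk₁ e₁ * τ₁ ^ m)) (h₂ : Red₂ f₁ (algebraMap k Fk₂ e₂ * τ₂ ^ m))
    (hτ₁ : τ₁ ≠ 0) (hτ₂ : τ₂ ≠ 0) (ho₁ : ∀ p ∈ Sg, p.1.ord τ₁ = 0)
    (ho₂ : ∀ p ∈ Sg, p.2.ord τ₂ = 0) :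
    ∃ s : F, s ≠ 0 ∧ ∀ P, (ψ • E - Q • E) P = P.ord s := by
  have ax₁ := S.ax₁
  have ax₂ := S.ax₂
  have hs := hB.spAx
  have heF₁ : algebraMap k Fk₁ e₁ ≠ 0 := (map_ne_zero _).mpr he₁
  have heF₂ : algebraMap k Fk₂ e₂ ≠ 0 := (map_ne_zero _).mpr he₂
  have ha₁ : algebraMap k Fk₁ e₁ * τ₁ ^ m ≠ 0 := mul_ne_zero heF₁ (pow_ne_zero _ hτ₁)
  have ha₂ : algebraMap k Fk₂ e₂ * τ₂ ^ m ≠ 0 := mul_ne_zero heF₂ (pow_ne_zero _ hτ₂)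
  have hf₁0 : f₁ ≠ 0 := ax₁.ne_zero h₁ ha₁
  have hΦτ₁ : Φ₁ τ₁ ≠ 0 := (map_ne_zero_iff _ Φ₁.injective).mpr hτ₁
  have hΦτ₂ : Φ₂ τ₂ ≠ 0 := (map_ne_zero_iff _ Φ₂.injective).mpr hτ₂
  -- the pair `(w₁, w₂)`
  set w₁ : Fk₁ := Φ₁ τ₁ * (τ₁ ^ Q)⁻¹ with hw₁def
  set w₂ : Fk₂ := Φ₂ τ₂ * (τ₂ ^ Q)⁻¹ with hw₂def
  have hw₁0 : w₁ ≠ 0 := mul_ne_zero hΦτ₁ (inv_ne_zero (pow_ne_zero _ hτ₁))
  have hw₂0 : w₂ ≠ 0 := mul_ne_zero hΦτ₂ (inv_ne_zero (pow_ne_zero _ hτ₂))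
  obtain ⟨u, hu0, hu₁, hu₂, huord⟩ := exists_lift_units hs hw₁0 hw₂0
    (fun p hp => hasValue_frob_div S.hpf₁ hτ₁ (ho₁ p hp) (hψ.node₁ p hp))
    (fun p hp => hasValue_frob_div S.hpf₂ hτ₂ (ho₂ p hp) (hψ.node₂ p hp))
  -- the function `f₃`
  have hψf0 : ψ • f₁ ≠ 0 := (smul_ne_zero_iff_ne ψ).mpr hf₁0
  set f₃ : F := (ψ • f₁) * (f₁ ^ Q)⁻¹ * (u ^ m)⁻¹ with hf₃def
  have hR₁ : Red₁ f₃ 1 := by
    have h3 := ax₁.mul (ax₁.mul (hψ.red₁ _ _ h₁) (ax₁.inv (ax₁.pow h₁ Q) (pow_ne_zero _ ha₁)))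
      (ax₁.inv (ax₁.pow hu₁ m) (pow_ne_zero _ hw₁0))
    have e : Φ₁ (algebraMap k Fk₁ e₁ * τ₁ ^ m) * ((algebraMap k Fk₁ e₁ * τ₁ ^ m) ^ Q)⁻¹
        * (w₁ ^ m)⁻¹ = 1 := by
      rw [map_mul, map_pow, hψ.const₁, hw₁def, map_pow]
      exact frob_algebra (pow_ne_zero _ heF₁) hΦτ₁ hτ₁ m Q rfl
    rwa [e] at h3
  have hR₂ : Red₂ f₃ 1 := by
    have h3 := ax₂.mul (ax₂.mul (hψ.red₂ _ _ h₂) (ax₂.inv (ax₂.pow h₂ Q) (pow_ne_zero _ ha₂)))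
      (ax₂.inv (ax₂.pow hu₂ m) (pow_ne_zero _ hw₂0))
    have e : Φ₂ (algebraMap k Fk₂ e₂ * τ₂ ^ m) * ((algebraMap k Fk₂ e₂ * τ₂ ^ m) ^ Q)⁻¹
        * (w₂ ^ m)⁻¹ = 1 := by
      rw [map_mul, map_pow, hψ.const₂, hw₂def, map_pow]
      exact frob_algebra (pow_ne_zero _ heF₂) hΦτ₂ hτ₂ m Q rfl
    rwa [e] at h3
  -- the divisor
  set D₀ : Divisor L F := ψ • E - Q • E - S.hpf.divOf u with hD₀
  have hordψ : ∀ P : Place L F, P.ord (ψ • f₁) = (m : ℤ) * (ψ • E) P := by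
    intro P
    have h3 := SemilinearAut.ord_smul ψ (ψ⁻¹ • P) f₁
    rw [smul_inv_smul] at h3
    rw [h3, SemilinearAut.divisor_smul_apply, hdiv]
  have hdiv₀ : ∀ P, (m : ℤ) * D₀ P = P.ord f₃ := by
    intro P
    rw [hf₃def, P.ord_mul (mul_ne_zero hψf0 (inv_ne_zero (pow_ne_zero _ hf₁0)))
      (inv_ne_zero (pow_ne_zero _ hu0)), P.ord_mul hψf0 (inv_ne_zero (pow_ne_zero _ hf₁0)),
      P.ord_inv, P.ord_inv, ord_pow', ord_pow', hordψ, ← hdiv, hD₀, Finsupp.sub_apply,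
      Finsupp.sub_apply, Finsupp.smul_apply, S.hpf.divOf_apply, nsmul_eq_mul]
    ring
  have hsm : ∀ P, D₀ P ≠ 0 → ∀ p ∈ Sg, (factsOfBarAx hB).sp P ≠ Sum.inl p.1 := by
    intro P hP p hp hsp
    apply hP
    have hsp' : sp P = Sum.inl p.1 := hsp
    rw [hD₀, Finsupp.sub_apply, Finsupp.sub_apply, Finsupp.smul_apply, S.hpf.divOf_apply,
      SemilinearAut.divisor_smul_apply, hE P p hp hsp',
      hE _ p hp (hψ.sp_node_inv hs hp hsp'), huord P p hp hsp']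
    simp
  obtain ⟨s, hs0, hsD⟩ := NodalInj.star_nodal (factsOfBarAx hB) hR₁ hR₂ D₀ hsm m hm hdiv₀
  refine ⟨s * u, mul_ne_zero hs0 hu0, fun P => ?_⟩
  have h4 := hsD P
  rw [hD₀, Finsupp.sub_apply, S.hpf.divOf_apply] at h4
  rw [P.ord_mul hs0 hu0, ← h4]
  ring

/-- **`Mov'` and `Tor` combined**: if `m • D' = div w` and the reductions of `w` are
`e_i β_i ^ m`, then `ψ • D' - Q • D'` is principal -/
theorem tor_of_div [Infinite k] (hB : BarAx S sp) (hψ : FrobCompat Red₁ Red₂ D Sg Q ψ Φ₁ Φ₂)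
    {m : ℕ} (hm : (m : k) ≠ 0) {w : F} (hw0 : w ≠ 0) {D' : Divisor L F}
    (hdivw : ∀ P, (m : ℤ) * D' P = P.ord w)
    {e₁ e₂ : k} (he₁ : e₁ ≠ 0) (he₂ : e₂ ≠ 0) {β₁ : Fk₁} {β₂ : Fk₂}
    (hβ₁ : β₁ ≠ 0) (hβ₂ : β₂ ≠ 0)
    (hRw₁ : Red₁ w (algebraMap k Fk₁ e₁ * β₁ ^ m))
    (hRw₂ : Red₂ w (algebraMap k Fk₂ e₂ * β₂ ^ m)) :
    ∃ s : F, s ≠ 0 ∧ ∀ P, (ψ • D' - Q • D') P = P.ord s := by
  obtain ⟨E, f₁, s, τ₁, τ₂, hs0, hf₁0, hED, hEnode, hdiv, h₁, h₂, hτ₁, hτ₂, ho₁, ho₂⟩ :=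
    MovTw.mov_tw S (factsOfBarAx hB) hm hw0 hdivw he₁ he₂ hβ₁ hβ₂ hRw₁ hRw₂
  obtain ⟨s', hs'0, hs'⟩ := tor hB hψ hm he₁ he₂ hEnode hdiv h₁ h₂ hτ₁ hτ₂ ho₁ ho₂
  have hψs0 : ψ • s ≠ 0 := (smul_ne_zero_iff_ne ψ).mpr hs0
  refine ⟨s' * (ψ • s)⁻¹ * s ^ Q,
    mul_ne_zero (mul_ne_zero hs'0 (inv_ne_zero hψs0)) (pow_ne_zero _ hs0), fun P => ?_⟩
  have h3 := SemilinearAut.ord_smul ψ (ψ⁻¹ • P) s
  rw [smul_inv_smul] at h3
  have h4 := hs' P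
  rw [Finsupp.sub_apply, Finsupp.smul_apply, SemilinearAut.divisor_smul_apply, hED, hED,
    nsmul_eq_mul] at h4
  rw [P.ord_mul (mul_ne_zero hs'0 (inv_ne_zero hψs0)) (pow_ne_zero _ hs0),
    P.ord_mul hs'0 (inv_ne_zero hψs0), P.ord_inv, ord_pow', h3, ← h4, Finsupp.sub_apply,
    Finsupp.smul_apply, SemilinearAut.divisor_smul_apply, nsmul_eq_mul]
  ring

/-- **the abstract key identity**: `div f = m • D₀`, and the two reductions of `ψ f / f` are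
`e_i β_i ^ m`; then `(ψ - Q)(ψ - 1) D₀` is principal -/
theorem key_abs [Infinite k] (hB : BarAx S sp) (hψ : FrobCompat Red₁ Red₂ D Sg Q ψ Φ₁ Φ₂)
    {m : ℕ} (hm : (m : k) ≠ 0) {f : F} (hf : f ≠ 0) {D₀ : Divisor L F}
    (hdiv : ∀ P, (m : ℤ) * D₀ P = P.ord f)
    {e₁ e₂ : k} (he₁ : e₁ ≠ 0) (he₂ : e₂ ≠ 0) {β₁ : Fk₁} {β₂ : Fk₂}
    (hβ₁ : β₁ ≠ 0) (hβ₂ : β₂ ≠ 0)
    (hRw₁ : Red₁ ((ψ • f) * f⁻¹) (algebraMap k Fk₁ e₁ * β₁ ^ m))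
    (hRw₂ : Red₂ ((ψ • f) * f⁻¹) (algebraMap k Fk₂ e₂ * β₂ ^ m)) :
    ∃ s : F, s ≠ 0 ∧ ∀ P, (ψ • (ψ • D₀ - D₀) - Q • (ψ • D₀ - D₀)) P = P.ord s := by
  have hψf0 : ψ • f ≠ 0 := (smul_ne_zero_iff_ne ψ).mpr hf
  refine tor_of_div hB hψ hm (mul_ne_zero hψf0 (inv_ne_zero hf)) ?_ he₁ he₂ hβ₁ hβ₂ hRw₁ hRw₂
  intro P
  have h3 := SemilinearAut.ord_smul ψ (ψ⁻¹ • P) f
  rw [smul_inv_smul] at h3
  rw [P.ord_mul hψf0 (inv_ne_zero hf), P.ord_inv, h3, ← hdiv, ← hdiv, Finsupp.sub_apply,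
    SemilinearAut.divisor_smul_apply]
  ring

end Fermat.Agent.S35.Tor
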